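import Mathlib

/-!
# The Nakayama map on 2-cocycles (P-CFT, WP Coh/ClassFormation, helper7)

For a finite group `G`, a representation `ρ` of `G` on `V` and a 2-cocycle `u : G × G → V`
(a plain function satisfying the identity of `groupCohomology.mem_cocycles₂_iff`), the *Nakayama
sums* `nak u g = ∑ h, u (h, g)` are `G`-invariant, additive in `g` modulo norms and, for a
coboundary, norms.  Hence they define a homomorphism `G^ab → V^G / N_G V` which only depends on the
class of `u`.  We prove, as exact finite-sum identities on cocycles, its compatibility with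

* the norm `N_{G/H}` (for `H → G` injective),
* the transfer `G^ab → H^ab`,
* isomorphisms of pairs (in particular conjugation).

These are the functorialities of the reciprocity map of a class formation.
-/

set_option autoImplicit false
set_option linter.unusedSectionVars false

namespace Fermat.Agent.Lib.CFT.Coh.ClassFormation

open Finset

section Defs

variable {k G V : Type*} [CommRing k] [Group G] [AddCommGroup V] {_ : Module k V}
variable (ρ : Representation k G V)

/-- The 2-cocycle identity for a plain function `u : G × G → V`, in the shape of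
`groupCohomology.mem_cocycles₂_iff`. -/
def IsCoc2 (u : G × G → V) : Prop :=
  ∀ g h j : G, u (g * h, j) + u (g, h) = ρ g (u (h, j)) + u (g, h * j)

/-- The coboundary of a 1-cochain, in the shape of `groupCohomology.d₁₂`. -/
def dOne (b : G → V) : G × G → V := fun p => ρ p.1 (b p.2) - b (p.1 * p.2) + b p.1

@[simp] theorem dOne_apply (b : G → V) (g h : G) :
    dOne ρ b (g, h) = ρ g (b h) - b (g * h) + b g := rfl

theorem isCoc2_dOne (b : G → V) : IsCoc2 ρ (dOne ρ b) := by
  intro g h j
  simp only [dOne_apply, map_add, map_sub, map_mul, Module.End.mul_apply, mul_assoc]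
  abel

variable {ρ}

theorem IsCoc2.add {u u' : G × G → V} (hu : IsCoc2 ρ u) (hu' : IsCoc2 ρ u') :
    IsCoc2 ρ (u + u') := by
  intro g h j
  simp only [Pi.add_apply, map_add]
  have h1 := hu g h j
  have h2 := hu' g h j
  calc u (g * h, j) + u' (g * h, j) + (u (g, h) + u' (g, h))
      = (u (g * h, j) + u (g, h)) + (u' (g * h, j) + u' (g, h)) := by abel
    _ = _ := by rw [h1, h2]; abel

theorem IsCoc2.neg {u : G × G → V} (hu : IsCoc2 ρ u) : IsCoc2 ρ (-u) := by
  intro g h j
  simp only [Pi.neg_apply, map_neg]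
  have h1 := hu g h j
  calc -u (g * h, j) + -u (g, h) = -(u (g * h, j) + u (g, h)) := by abel
    _ = _ := by rw [h1]; abel

theorem IsCoc2.sub {u u' : G × G → V} (hu : IsCoc2 ρ u) (hu' : IsCoc2 ρ u') :
    IsCoc2 ρ (u - u') := by
  rw [sub_eq_add_neg]
  exact hu.add hu'.neg

theorem IsCoc2.smul {u : G × G → V} (hu : IsCoc2 ρ u) (c : k) : IsCoc2 ρ (c • u) := by
  intro g h j
  simp only [Pi.smul_apply, map_smul]
  rw [← smul_add, hu g h j, smul_add]

theorem isCoc2_zero : IsCoc2 ρ (0 : G × G → V) := by
  intro g h j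
  simp

theorem IsCoc2.map_one_fst {u : G × G → V} (hu : IsCoc2 ρ u) (g : G) : u (1, g) = u (1, 1) := by
  have := hu 1 1 g
  simp only [mul_one, one_mul, map_one, Module.End.one_apply] at this
  exact (add_left_cancel this).symm

theorem IsCoc2.map_one_snd {u : G × G → V} (hu : IsCoc2 ρ u) (g : G) :
    u (g, 1) = ρ g (u (1, 1)) := by
  have := hu g 1 1
  simp only [mul_one] at this
  exact add_right_cancel this

theorem dOne_add (b b' : G → V) : dOne ρ (b + b') = dOne ρ b + dOne ρ b' := by
  funext p
  simp only [dOne, Pi.add_apply, map_add]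
  abel

theorem dOne_neg (b : G → V) : dOne ρ (-b) = -dOne ρ b := by
  funext p
  simp only [dOne, Pi.neg_apply, map_neg]
  abel

theorem dOne_sub (b b' : G → V) : dOne ρ (b - b') = dOne ρ b - dOne ρ b' := by
  funext p
  simp only [dOne, Pi.sub_apply, map_sub]
  abel

theorem dOne_sum {ι : Type*} (s : Finset ι) (b : ι → G → V) :
    dOne ρ (∑ i ∈ s, b i) = ∑ i ∈ s, dOne ρ (b i) := by
  classical
  induction s using Finset.induction_on with
  | empty =>
    funext p
    simp [dOne]
  | insert i s hi ih => rw [sum_insert hi, sum_insert hi, dOne_add, ih]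

/-- The image of the norm inside the invariants. Definitionally `TateLow.normRange A` when
`ρ = A.ρ`. -/
noncomputable def normSub [Fintype G] (ρ : Representation k G V) : Submodule k ρ.invariants :=
  (LinearMap.range ρ.norm).comap ρ.invariants.subtype

theorem mem_normSub [Fintype G] {x : ρ.invariants} :
    x ∈ normSub ρ ↔ ∃ a : V, ρ.norm a = x.1 := Iff.rfl

/-- `Ĥ⁰(G, V) = V^G / N_G V`. -/
abbrev TateZero [Fintype G] (ρ : Representation k G V) : Type _ := ρ.invariants ⧸ normSub ρ

end Defs

section Nak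

variable {k G V : Type*} [CommRing k] [Group G] [Fintype G] [AddCommGroup V] {_ : Module k V}
variable {ρ : Representation k G V}

/-- The Nakayama sum `∑ h, u (h, g)`. -/
def nak (u : G × G → V) (g : G) : V := ∑ h : G, u (h, g)

theorem nak_add (u u' : G × G → V) (g : G) : nak (u + u') g = nak u g + nak u' g := by
  simp [nak, sum_add_distrib]

theorem nak_neg (u : G × G → V) (g : G) : nak (-u) g = -nak u g := by
  simp [nak]

theorem nak_sub (u u' : G × G → V) (g : G) : nak (u - u') g = nak u g - nak u' g := by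
  simp [nak, sum_sub_distrib]

theorem nak_smul (c : k) (u : G × G → V) (g : G) : nak (c • u) g = c • nak u g := by
  simp [nak, smul_sum]

theorem norm_apply' (ρ : Representation k G V) (a : V) : ρ.norm a = ∑ g : G, ρ g a := by
  simp [Representation.norm, LinearMap.sum_apply]

/-- The Nakayama sums are invariant. -/
theorem nak_invariant {u : G × G → V} (hu : IsCoc2 ρ u) (x g : G) : ρ x (nak u g) = nak u g := by
  unfold nak
  rw [map_sum]
  have h1 : ∀ h, ρ x (u (h, g)) = u (x * h, g) + u (x, h) - u (x, h * g) := fun h => by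
    rw [hu x h g]; abel
  simp_rw [h1, sum_sub_distrib, sum_add_distrib]
  rw [Fintype.sum_equiv (Equiv.mulLeft x) (fun h => u (x * h, g)) (fun h => u (h, g))
    (fun _ => rfl),
    Fintype.sum_equiv (Equiv.mulRight g) (fun h => u (x, h * g)) (fun h => u (x, h))
    (fun _ => rfl)]
  abel

theorem nak_mem_invariants {u : G × G → V} (hu : IsCoc2 ρ u) (g : G) :
    nak u g ∈ ρ.invariants := fun x => nak_invariant hu x g

/-- The Nakayama sums are additive modulo norms. -/
theorem nak_mul {u : G × G → V} (hu : IsCoc2 ρ u) (g g' : G) :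
    nak u (g * g') = nak u g + nak u g' - ρ.norm (u (g, g')) := by
  unfold nak
  rw [norm_apply']
  have h1 : ∀ h, u (h, g * g') = u (h * g, g') + u (h, g) - ρ h (u (g, g')) := fun h => by
    rw [hu h g g']; abel
  simp_rw [h1, sum_sub_distrib, sum_add_distrib]
  rw [Fintype.sum_equiv (Equiv.mulRight g) (fun h => u (h * g, g')) (fun h => u (h, g'))
    (fun _ => rfl)]
  abel

/-- The Nakayama sum of a coboundary is a norm. -/
theorem nak_dOne (b : G → V) (g : G) : nak (dOne ρ b) g = ρ.norm (b g) := by
  unfold nak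
  rw [norm_apply']
  simp only [dOne_apply, sum_add_distrib, sum_sub_distrib]
  rw [Fintype.sum_equiv (Equiv.mulRight g) (fun h => b (h * g)) (fun h => b h) (fun _ => rfl)]
  abel

theorem nak_one {u : G × G → V} (hu : IsCoc2 ρ u) : nak u 1 = ρ.norm (u (1, 1)) := by
  unfold nak
  rw [norm_apply']
  exact Fintype.sum_congr _ _ fun h => hu.map_one_snd h

/-- The class of an invariant element in `Ĥ⁰`. -/
noncomputable def tateZeroMk (ρ : Representation k G V) (a : V) (ha : a ∈ ρ.invariants) :
    TateZero ρ := Submodule.Quotient.mk ⟨a, ha⟩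

theorem tateZeroMk_eq_iff {a b : V} (ha : a ∈ ρ.invariants) (hb : b ∈ ρ.invariants) :
    tateZeroMk ρ a ha = tateZeroMk ρ b hb ↔ ∃ c : V, ρ.norm c = a - b := by
  unfold tateZeroMk
  rw [Submodule.Quotient.eq, mem_normSub]
  rfl

theorem tateZeroMk_eq_zero_iff {a : V} (ha : a ∈ ρ.invariants) :
    tateZeroMk ρ a ha = 0 ↔ ∃ c : V, ρ.norm c = a := by
  unfold tateZeroMk
  rw [Submodule.Quotient.mk_eq_zero, mem_normSub]

theorem tateZeroMk_add {a b : V} (ha : a ∈ ρ.invariants) (hb : b ∈ ρ.invariants) :
    tateZeroMk ρ (a + b) (add_mem ha hb) = tateZeroMk ρ a ha + tateZeroMk ρ b hb := rfl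

theorem tateZeroMk_surjective (x : TateZero ρ) :
    ∃ (a : V) (ha : a ∈ ρ.invariants), tateZeroMk ρ a ha = x := by
  obtain ⟨⟨a, ha⟩, rfl⟩ := Submodule.Quotient.mk_surjective _ x
  exact ⟨a, ha, rfl⟩

theorem abOf_surjective (G : Type*) [Group G] :
    Function.Surjective (Abelianization.of : G → Abelianization G) :=
  QuotientGroup.mk_surjective

/-- `g ↦ [nak u g]` as a monoid homomorphism `G →* Multiplicative (V^G / N V)`. -/
noncomputable def nakMonoidHom (u : G × G → V) (hu : IsCoc2 ρ u) :
    G →* Multiplicative (TateZero ρ) where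
  toFun g := Multiplicative.ofAdd (tateZeroMk ρ (nak u g) (nak_mem_invariants hu g))
  map_one' := by
    rw [← ofAdd_zero]
    congr 1
    rw [tateZeroMk_eq_zero_iff]
    exact ⟨u (1, 1), (nak_one hu).symm⟩
  map_mul' g g' := by
    rw [← ofAdd_add]
    congr 1
    rw [← tateZeroMk_add, tateZeroMk_eq_iff]
    refine ⟨-u (g, g'), ?_⟩
    rw [nak_mul hu, map_neg]
    abel

/-- The Nakayama homomorphism `G^ab → V^G / N_G V`, `g ↦ [∑ h, u (h, g)]`. -/
noncomputable def nakHom (u : G × G → V) (hu : IsCoc2 ρ u) :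
    Additive (Abelianization G) →+ TateZero ρ :=
  MonoidHom.toAdditiveLeft (Abelianization.lift (nakMonoidHom u hu))

theorem nakHom_of (u : G × G → V) (hu : IsCoc2 ρ u) (g : G) :
    nakHom u hu (Additive.ofMul (Abelianization.of g)) =
      tateZeroMk ρ (nak u g) (nak_mem_invariants hu g) := by
  rfl

/-- The Nakayama homomorphism only depends on the cohomology class of the cocycle. -/
theorem nakHom_congr {u u' : G × G → V} (hu : IsCoc2 ρ u) (hu' : IsCoc2 ρ u') (b : G → V)
    (h : u - u' = dOne ρ b) : nakHom u hu = nakHom u' hu' := by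
  apply AddMonoidHom.ext
  intro x
  obtain ⟨y, rfl⟩ := Additive.ofMul.surjective x
  obtain ⟨g, rfl⟩ := abOf_surjective G y
  rw [nakHom_of, nakHom_of, tateZeroMk_eq_iff]
  exact ⟨b g, by rw [← nak_dOne, ← h, nak_sub]⟩

end Nak

section Restriction

variable {k G V : Type*} [CommRing k] [Group G] [AddCommGroup V] {_ : Module k V}
variable {ρ : Representation k G V}
variable {H : Type*} [Group H]

/-- Restriction of a 2-cochain along a group homomorphism. -/
def resCoc (f : H →* G) (u : G × G → V) : H × H → V := fun p => u (f p.1, f p.2)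

@[simp] theorem resCoc_apply (f : H →* G) (u : G × G → V) (h h' : H) :
    resCoc f u (h, h') = u (f h, f h') := rfl

theorem IsCoc2.res {u : G × G → V} (hu : IsCoc2 ρ u) (f : H →* G) :
    IsCoc2 (ρ.comp f) (resCoc f u) := by
  intro g h j
  simp only [resCoc_apply, map_mul, MonoidHom.comp_apply]
  exact hu (f g) (f h) (f j)

theorem resCoc_dOne (f : H →* G) (b : G → V) :
    resCoc f (dOne ρ b) = dOne (ρ.comp f) (b ∘ f) := by
  funext p
  simp [resCoc, dOne]

theorem resCoc_sub (f : H →* G) (u u' : G × G → V) :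
    resCoc f (u - u') = resCoc f u - resCoc f u' := rfl

theorem resCoc_add (f : H →* G) (u u' : G × G → V) :
    resCoc f (u + u') = resCoc f u + resCoc f u' := rfl

end Restriction

section Transversal

variable {k G V : Type*} [CommRing k] [Group G] [Fintype G] [AddCommGroup V] {_ : Module k V}
variable {ρ : Representation k G V}
variable {H : Type*} [Group H] [Fintype H] {ι : Type*} [Fintype ι]
variable (f : H →* G) (x : ι → G) (e : ι × H ≃ G) (he : ∀ i h, e (i, h) = x i * f h)

include he in
theorem sum_transversal {M : Type*} [AddCommMonoid M] (F : G → M) :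
    ∑ i, ∑ h, F (x i * f h) = ∑ y, F y := by
  rw [← Fintype.sum_prod_type' (f := fun i h => F (x i * f h))]
  exact Fintype.sum_equiv e _ _ fun p => by rw [← he]

include he in
theorem sum_transversal_inv {M : Type*} [AddCommMonoid M] (F : G → M) :
    ∑ i, ∑ h, F (f h * (x i)⁻¹) = ∑ y, F y := by
  rw [← Fintype.sum_equiv (Equiv.inv G) (fun y => F y⁻¹) F (fun _ => rfl),
    ← sum_transversal f x e he (fun y => F y⁻¹)]
  refine Fintype.sum_congr _ _ fun i => ?_
  refine Fintype.sum_equiv (Equiv.inv H) _ _ fun h => ?_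
  simp [mul_inv_rev]

include he in
/-- **Norm compatibility** of the Nakayama sums: `N_{G/H} (nak_H (res u) h) = nak_G u (f h)`,
where `x` is a left transversal of `f H` in `G`. -/
theorem sum_transversal_nak_res {u : G × G → V} (hu : IsCoc2 ρ u) (h : H) :
    ∑ i, ρ (x i) (nak (resCoc f u) h) = nak u (f h) := by
  unfold nak
  simp only [resCoc_apply, map_sum]
  have h1 : ∀ i h', ρ (x i) (u (f h', f h)) =
      u (x i * f h', f h) + u (x i, f h') - u (x i, f (h' * h)) := fun i h' => by
    rw [hu (x i) (f h') (f h), map_mul]; abel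
  simp_rw [h1, sum_sub_distrib, sum_add_distrib]
  rw [sum_transversal f x e he (fun y => u (y, f h))]
  have h2 : ∀ i, ∑ h', u (x i, f (h' * h)) = ∑ h', u (x i, f h') := fun i =>
    Fintype.sum_equiv (Equiv.mulRight h) _ _ fun _ => rfl
  simp_rw [h2]
  abel

include he in
/-- **Transfer compatibility** of the Nakayama sums.  If `x` is a left transversal of `f H` in
`G` and `(x i)⁻¹ * g * x (π i) = f (c i)` (so that `∏ i, c i` represents the transfer of `g`), then
`nak_G u g = ∑ i, nak_H (res u) (c i) + N_H (...)`. -/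
theorem nak_eq_sum_nak_res_add_norm {u : G × G → V} (hu : IsCoc2 ρ u) (g : G)
    (π : Equiv.Perm ι) (c : ι → H) (hc : ∀ i, (x i)⁻¹ * g * x (π i) = f (c i)) :
    nak u g = ∑ i, nak (resCoc f u) (c i) +
      Representation.norm (ρ.comp f) (∑ i, (u ((x i)⁻¹, g) - u (f (c i), (x (π i))⁻¹))) := by
  have hxg : ∀ i, (x i)⁻¹ * g = f (c i) * (x (π i))⁻¹ := fun i => by
    rw [← hc i]; group
  -- the basic identity for each summand
  have key : ∀ i h, u (f h * (x i)⁻¹, g) =
      ρ (f h) (u ((x i)⁻¹, g)) - u (f h, (x i)⁻¹) + u (f (h * c i), (x (π i))⁻¹)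
        + u (f h, f (c i)) - ρ (f h) (u (f (c i), (x (π i))⁻¹)) := fun i h => by
    have e1 := hu (f h) (x i)⁻¹ g
    have e2 := hu (f h) (f (c i)) (x (π i))⁻¹
    rw [hxg i] at e1
    rw [map_mul]
    have e3 : u (f h * (x i)⁻¹, g) = ρ (f h) (u ((x i)⁻¹, g)) + u (f h, f (c i) * (x (π i))⁻¹)
        - u (f h, (x i)⁻¹) := by rw [← e1]; abel
    have e4 : u (f h, f (c i) * (x (π i))⁻¹) = u (f h * f (c i), (x (π i))⁻¹) + u (f h, f (c i))
        - ρ (f h) (u (f (c i), (x (π i))⁻¹)) := by rw [e2]; abel
    rw [e3, e4]; abel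
  have hS : ∀ i, ∑ h, u (f (h * c i), (x (π i))⁻¹) = ∑ h, u (f h, (x (π i))⁻¹) := fun i =>
    Fintype.sum_equiv (Equiv.mulRight (c i)) _ _ fun _ => rfl
  have hperm : ∑ i, ∑ h, u (f h, (x (π i))⁻¹) = ∑ i, ∑ h, u (f h, (x i)⁻¹) :=
    Fintype.sum_equiv π _ _ fun _ => rfl
  calc nak u g = ∑ i, ∑ h, u (f h * (x i)⁻¹, g) :=
        (sum_transversal_inv f x e he (fun y => u (y, g))).symm
    _ = ∑ i, (∑ h, ρ (f h) (u ((x i)⁻¹, g)) - ∑ h, u (f h, (x i)⁻¹)
          + ∑ h, u (f h, (x (π i))⁻¹) + ∑ h, u (f h, f (c i))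
          - ∑ h, ρ (f h) (u (f (c i), (x (π i))⁻¹))) := by
        refine Fintype.sum_congr _ _ fun i => ?_
        simp_rw [key i, sum_sub_distrib, sum_add_distrib, sum_sub_distrib, hS i]
    _ = _ := by
        simp only [sum_sub_distrib, sum_add_distrib, hperm, nak, resCoc_apply, norm_apply',
          map_sum, map_sub, MonoidHom.comp_apply]
        abel

end Transversal

section Equivariance

variable {k k' G G' V V' : Type*} [CommRing k] [CommRing k'] [Group G] [Fintype G]
  [Group G'] [Fintype G'] [AddCommGroup V] {_ : Module k V} [AddCommGroup V'] {_ : Module k' V'}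
variable {ρ : Representation k G V} {ρ' : Representation k' G' V'}

/-- Transport of a 2-cochain along an isomorphism of groups and an additive map of modules. -/
def mapCoc (φ : G ≃* G') (T : V →+ V') (u : G × G → V) : G' × G' → V' :=
  fun p => T (u (φ.symm p.1, φ.symm p.2))

@[simp] theorem mapCoc_apply (φ : G ≃* G') (T : V →+ V') (u : G × G → V) (g h : G') :
    mapCoc φ T u (g, h) = T (u (φ.symm g, φ.symm h)) := rfl

omit [Fintype G] [Fintype G'] in
theorem IsCoc2.map {u : G × G → V} (hu : IsCoc2 ρ u) (φ : G ≃* G') (T : V →+ V')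
    (hT : ∀ g v, T (ρ g v) = ρ' (φ g) (T v)) : IsCoc2 ρ' (mapCoc φ T u) := by
  intro g h j
  simp only [mapCoc_apply, map_mul]
  rw [← map_add, hu, map_add, hT]
  simp

/-- **Equivariance** of the Nakayama sums under isomorphisms of pairs (e.g. conjugation). -/
theorem nak_mapCoc (φ : G ≃* G') (T : V →+ V') (u : G × G → V) (g : G) :
    nak (mapCoc φ T u) (φ g) = T (nak u g) := by
  unfold nak
  rw [map_sum]
  refine (Fintype.sum_equiv φ.toEquiv _ _ fun h => ?_).symm
  simp

end Equivariance

section Inflation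

variable {k G Q V : Type*} [CommRing k] [Group G] [Fintype G] [Group Q] [Fintype Q]
  [AddCommGroup V] {_ : Module k V}

/-- The Nakayama sum of an inflated cochain: `nak_G (inf u') g = |ker π| • nak_Q u' (π g)`. -/
theorem nak_resCoc_of_surjective (π : G →* Q) (hπ : Function.Surjective π) (u' : Q × Q → V)
    (g : G) : nak (resCoc π u') g = Nat.card π.ker • nak u' (π g) := by
  classical
  unfold nak
  simp only [resCoc_apply]
  rw [← Finset.sum_fiberwise (s := univ) (g := π) (f := fun h => u' (π h, π g)), smul_sum]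
  refine Fintype.sum_congr _ _ fun q => ?_
  have hq : ∀ h ∈ univ.filter (fun h => π h = q), u' (π h, π g) = u' (q, π g) := fun h hh => by
    rw [(mem_filter.mp hh).2]
  rw [sum_congr rfl hq, sum_const]
  congr 1
  obtain ⟨h0, rfl⟩ := hπ q
  rw [Nat.card_eq_fintype_card, ← MonoidHom.card_fiber_eq_of_mem_range π ⟨1, rfl⟩ ⟨h0, rfl⟩]
  rw [Fintype.card_subtype]
  congr 1
  ext y
  simp [MonoidHom.mem_ker]

end Inflation

end Fermat.Agent.Lib.CFT.Coh.ClassFormation
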