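import Mathlib
import Fermat.Agent.Lib.CFT.Coh.ClassFormation.Nakayama

/-!
# The cup product formula for Nakayama sums (P-CFT, WP Coh/ClassFormation, helper7)

Let `t : G × G → k` be a 2-cocycle for the trivial action (main case `k = ℤ`, `t = δχ` for a
character `χ : G → ℚ/ℤ`), and `u : G × G → V` a 2-cocycle.  For `a ∈ V^G` the function
`(g, h) ↦ t (g, h) • a` is a 2-cocycle representing `a ∪ [t]`.  We prove the explicit identity

`t (g, h) • nak u s - (∑ y, t (y, s)) • u (g, h) = d β (g, h)`,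

i.e. `(nak u s) ∪ [t] = (nak t s) • [u]` in `H²(G, V)`.  For `t = δχ` one has
`nak t s = |G| • χ̃ s`, which gives the classical formula `inv (a ∪ δχ) = χ (rec a)`.
-/

set_option autoImplicit false
set_option linter.unusedSectionVars false

namespace Fermat.Agent.Lib.CFT.Coh.ClassFormation

open Finset

section Cup

variable {k G V : Type*} [CommRing k] [Group G] [Fintype G] [AddCommGroup V] {_ : Module k V}
variable (ρ : Representation k G V)

/-- The 2-cocycle identity for the trivial action on the coefficient ring. -/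
def IsTrivCoc2 (t : G × G → k) : Prop :=
  ∀ g h j : G, t (g * h, j) + t (g, h) = t (h, j) + t (g, h * j)

/-- The coboundary of a 1-cochain with trivial action. -/
def dOneTriv (τ : G → k) : G × G → k := fun p => τ p.2 - τ (p.1 * p.2) + τ p.1

omit [Fintype G] in
theorem isTrivCoc2_dOneTriv (τ : G → k) : IsTrivCoc2 (dOneTriv τ) := by
  intro g h j
  simp only [dOneTriv, mul_assoc]
  ring

/-- The cochain `(g, h) ↦ t (g, h) • a` representing `a ∪ [t]`. -/
def cupCoc (_ρ : Representation k G V) (t : G × G → k) (a : V) : G × G → V := fun p => t p • a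

omit [Fintype G] in
theorem isCoc2_cupCoc {t : G × G → k} (ht : IsTrivCoc2 t) {a : V} (ha : a ∈ ρ.invariants) :
    IsCoc2 ρ (cupCoc ρ t a) := by
  intro g h j
  simp only [cupCoc, map_smul, ha g]
  rw [← add_smul, ← add_smul, ht g h j]

omit [Fintype G] in
/-- `a ∪ [dτ]` is a coboundary. -/
theorem cupCoc_dOneTriv (τ : G → k) {a : V} (ha : a ∈ ρ.invariants) :
    cupCoc ρ (dOneTriv τ) a = dOne ρ (fun g => τ g • a) := by
  funext ⟨g, h⟩
  simp only [cupCoc, dOneTriv, dOne_apply, map_smul, ha g]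
  module

/-- The 1-cochain whose coboundary is `(N c) ∪ [t]`. -/
def cupNormCochain (t : G × G → k) (c : V) : G → V := fun g => ∑ y, t (g, y) • ρ (g * y) c

/-- `(N c) ∪ [t]` is a coboundary (explicitly). -/
theorem cupCoc_norm {t : G × G → k} (ht : IsTrivCoc2 t) (c : V) :
    cupCoc ρ t (ρ.norm c) = dOne ρ (cupNormCochain ρ t c) := by
  funext ⟨g, h⟩
  simp only [cupCoc, dOne_apply, cupNormCochain, map_sum, map_smul]
  rw [norm_apply', smul_sum]
  have e3 : ∑ y, t (g, y) • ρ (g * y) c = ∑ y, t (g, h * y) • ρ (g * (h * y)) c :=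
    (Fintype.sum_equiv (Equiv.mulLeft h) _ _ fun _ => rfl).symm
  have e0 : ∑ y, t (g, h) • ρ y c = ∑ y, t (g, h) • ρ (g * h * y) c :=
    (Fintype.sum_equiv (Equiv.mulLeft (g * h)) _ _ fun _ => rfl).symm
  rw [e3, e0, ← sum_sub_distrib, ← sum_add_distrib]
  refine Fintype.sum_congr _ _ fun y => ?_
  have e := ht g h y
  have e' : ρ g (ρ (h * y) c) = ρ (g * h * y) c := by
    rw [mul_assoc, map_mul ρ g]; rfl
  rw [e', ← mul_assoc g h y]
  have : t (g, h) = t (h, y) + t (g, h * y) - t (g * h, y) := by rw [← e]; ring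
  rw [this]
  module

theorem cup_aux (a1 a2 a3 a4 a5 a6 a7 : k) (v1 v2 v3 v4 v5 v6 v7 : V)
    (ht1 : a3 + a1 = a2 + a4) (ht2 : a6 + a7 = a5 + a4)
    (hu1 : v4 + v2 = v1 + v7) (hu2 : v3 + v6 = v2 + v5) :
    (a2 • v1 - a5 • v2) - (a3 • v1 - a6 • v3) + (a4 • v4 - a6 • v5) - (a4 • v7 - a7 • v2)
      = a1 • v1 - a6 • v6 := by
  have e1 : a3 = a2 + a4 - a1 := by rw [← ht1]; ring
  have e2 : a6 = a5 + a4 - a7 := by rw [← ht2]; ring
  have e3 : v4 = v1 + v7 - v2 := by rw [← hu1]; abel
  have e4 : v3 = v2 + v5 - v6 := by rw [← hu2]; abel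
  rw [e1, e2, e3, e4]
  module

/-- The 1-cochain `β_s` with `(nak u s) ∪ [t] - (nak t s) • u = d β_s`. -/
def cupCochain (t : G × G → k) (u : G × G → V) (s : G) : G → V :=
  fun g => ∑ y, (t (g, y * s) • ρ g (u (y, s)) - t (g * y, s) • u (g, y))

variable {ρ}

/-- **Cup product formula**: `(nak u s) ∪ [t] = (nak t s) • [u]`, as an explicit identity of
cochains. -/
theorem cupCoc_nak_sub {t : G × G → k} (ht : IsTrivCoc2 t) {u : G × G → V} (hu : IsCoc2 ρ u)
    (s : G) :
    cupCoc ρ t (nak u s) - (∑ y, t (y, s)) • u = dOne ρ (cupCochain ρ t u s) := by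
  funext ⟨g, h⟩
  simp only [Pi.sub_apply, Pi.smul_apply, cupCoc, dOne_apply, cupCochain]
  -- left-hand side as a single sum
  have eL1 : t (g, h) • nak u s = ∑ y, t (g, h) • ρ (g * h) (u (y, s)) := by
    rw [← nak_invariant hu (g * h) s, nak, map_sum, smul_sum]
  have eL2 : (∑ y, t (y, s)) • u (g, h) = ∑ y, t (g * (h * y), s) • u (g, h) := by
    rw [sum_smul]
    refine (Fintype.sum_equiv (Equiv.mulLeft (g * h)) _ _ fun y => ?_).symm
    simp
  -- the three pieces of the coboundary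
  have eR1 : ρ g (∑ y, (t (h, y * s) • ρ h (u (y, s)) - t (h * y, s) • u (h, y))) =
      ∑ y, (t (h, y * s) • ρ (g * h) (u (y, s)) - t (h * y, s) • ρ g (u (h, y))) := by
    rw [map_sum]
    refine Fintype.sum_congr _ _ fun y => ?_
    rw [map_sub, map_smul, map_smul, map_mul]
    rfl
  have eR2 : ∑ y, (t (g * h, y * s) • ρ (g * h) (u (y, s)) - t (g * h * y, s) • u (g * h, y)) =
      ∑ y, (t (g * h, y * s) • ρ (g * h) (u (y, s)) - t (g * (h * y), s) • u (g * h, y)) := by
    simp only [mul_assoc]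
  have eR3 : ∑ y, (t (g, y * s) • ρ g (u (y, s)) - t (g * y, s) • u (g, y)) =
      ∑ y, (t (g, h * (y * s)) • ρ g (u (h * y, s)) - t (g * (h * y), s) • u (g, h * y)) := by
    refine (Fintype.sum_equiv (Equiv.mulLeft h) _ _ fun y => ?_).symm
    simp [mul_assoc]
  have eD : ∑ y, (t (g, h * (y * s)) • ρ g (u (h, y * s)) - t (g, h * y) • ρ g (u (h, y))) = 0 := by
    rw [sum_sub_distrib, sub_eq_zero]
    exact Fintype.sum_equiv (Equiv.mulRight s) _ _ fun _ => rfl
  rw [eL1, eL2, eR1, eR2, eR3]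
  have key : ∑ y, ((t (h, y * s) • ρ (g * h) (u (y, s)) - t (h * y, s) • ρ g (u (h, y)))
      - (t (g * h, y * s) • ρ (g * h) (u (y, s)) - t (g * (h * y), s) • u (g * h, y))
      + (t (g, h * (y * s)) • ρ g (u (h * y, s)) - t (g * (h * y), s) • u (g, h * y))
      - (t (g, h * (y * s)) • ρ g (u (h, y * s)) - t (g, h * y) • ρ g (u (h, y)))) =
      ∑ y, (t (g, h) • ρ (g * h) (u (y, s)) - t (g * (h * y), s) • u (g, h)) := by
    refine Fintype.sum_congr _ _ fun y => ?_
    refine cup_aux _ _ _ _ _ _ _ _ _ _ _ _ _ _ (ht g h (y * s)) ?_ ?_ (hu g h y)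
    · have := ht g (h * y) s
      rw [mul_assoc h y s] at this
      exact this
    · have := congrArg (ρ g) (hu h y s)
      rw [map_add, map_add, ← Module.End.mul_apply, ← map_mul] at this
      exact this
  simp only [sum_sub_distrib, sum_add_distrib] at key eD ⊢
  linear_combination (norm := abel) -eD - key

end Cup

section DeltaChi

variable {G R : Type*} [Group G] [Fintype G] [AddCommGroup R]

/-- For `t = δχ`, i.e. `t (y, s) = c y + c s - c (y * s)`, the Nakayama sum is `|G| • c s`. -/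
theorem sum_delta_eq_card_nsmul (c : G → R) (s : G) :
    ∑ y, (c y + c s - c (y * s)) = Fintype.card G • c s := by
  rw [sum_sub_distrib, sum_add_distrib,
    Fintype.sum_equiv (Equiv.mulRight s) (fun y => c (y * s)) c (fun _ => rfl), sum_const,
    card_univ]
  abel

end DeltaChi

end Fermat.Agent.Lib.CFT.Coh.ClassFormation
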