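import Mathlib
import Fermat.Agent.Lib.CFT.Coh.ClassFormation.Nakayama
import Fermat.Agent.Lib.CFT.Coh.ClassFormation.Character

/-!
# One layer of a class formation: reciprocity isomorphism and invariant map
(P-CFT, WP Coh/ClassFormation, helper7)

`IsRecLayer ρ u` packages, at the level of cocycles, what Tate's theorem gives for a finite
group `G`, a `ℤ[G]`-module `V` and a fundamental 2-cocycle `u`:

* the Nakayama map `g ↦ [∑ h, u (h, g)]`, `G^ab → V^G / N V` is bijective;
* `H²(G, V)` is cyclic of order `|G|`, generated by the class of `u`.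

From this we construct the reciprocity isomorphism `recEquiv : V^G / N V ≃ G^ab`, the invariant
map `inv : Z²(G, V) → ℚ/ℤ` and prove the character formula `inv (a ∪ δχ) = χ (rec a)`.
-/

set_option autoImplicit false
set_option linter.unusedSectionVars false

namespace Fermat.Agent.Lib.CFT.Coh.ClassFormation

open Finset

section Layer

variable {k G V : Type*} [CommRing k] [Group G] [Fintype G] [AddCommGroup V] {_ : Module k V}

/-- The cocycle-level content of Tate's theorem for a fundamental class `u`.  (Main case `k = ℤ`;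
integer multiples are written `(m : k) • _` so that the scalar action is the one of the given
module structure.) -/
structure IsRecLayer (ρ : Representation k G V) (u : G × G → V) : Prop where
  coc : IsCoc2 ρ u
  nak_surj : ∀ a ∈ ρ.invariants, ∃ (g : G) (c : V), a = nak u g + ρ.norm c
  nak_inj : ∀ (g : G) (c : V), nak u g = ρ.norm c → g ∈ commutator G
  gen : ∀ x : G × G → V, IsCoc2 ρ x → ∃ (m : ℤ) (b : G → V), x = (m : k) • u + dOne ρ b
  ord : ∀ (m : ℤ) (b : G → V), (m : k) • u = dOne ρ b → (Fintype.card G : ℤ) ∣ m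

variable {ρ : Representation k G V} {u : G × G → V}

namespace IsRecLayer

theorem nakHom_injective (h : IsRecLayer ρ u) : Function.Injective (nakHom u h.coc) := by
  rw [injective_iff_map_eq_zero]
  intro x hx
  obtain ⟨y, rfl⟩ := Additive.ofMul.surjective x
  obtain ⟨g, rfl⟩ := abOf_surjective G y
  rw [nakHom_of, tateZeroMk_eq_zero_iff] at hx
  obtain ⟨c, hc⟩ := hx
  have hg := h.nak_inj g c hc.symm
  rw [← Abelianization.ker_of, MonoidHom.mem_ker] at hg
  rw [hg]
  rfl

theorem nakHom_surjective (h : IsRecLayer ρ u) : Function.Surjective (nakHom u h.coc) := by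
  intro x
  obtain ⟨a, ha, rfl⟩ := tateZeroMk_surjective x
  obtain ⟨g, c, hgc⟩ := h.nak_surj a ha
  refine ⟨Additive.ofMul (Abelianization.of g), ?_⟩
  rw [nakHom_of, tateZeroMk_eq_iff]
  exact ⟨-c, by rw [hgc, map_neg]; abel⟩

theorem nakHom_bijective (h : IsRecLayer ρ u) : Function.Bijective (nakHom u h.coc) :=
  ⟨h.nakHom_injective, h.nakHom_surjective⟩

/-- The reciprocity isomorphism `V^G / N V ≃ G^ab` of a layer: the inverse of the Nakayama map. -/
noncomputable def recEquiv (h : IsRecLayer ρ u) : TateZero ρ ≃+ Additive (Abelianization G) :=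
  (AddEquiv.ofBijective (nakHom u h.coc) h.nakHom_bijective).symm

theorem recEquiv_symm_apply (h : IsRecLayer ρ u) (x : Additive (Abelianization G)) :
    h.recEquiv.symm x = nakHom u h.coc x := rfl

theorem recEquiv_nak (h : IsRecLayer ρ u) (g : G) :
    h.recEquiv (tateZeroMk ρ (nak u g) (nak_mem_invariants h.coc g)) =
      Additive.ofMul (Abelianization.of g) := by
  rw [← AddEquiv.eq_symm_apply, recEquiv_symm_apply, nakHom_of]

/-- Characterisation of the reciprocity map: `rec [a] = ḡ` iff `a ≡ ∑ h, u (h, g)` modulo norms. -/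
theorem recEquiv_mk_eq_iff (h : IsRecLayer ρ u) {a : V} (ha : a ∈ ρ.invariants) (g : G) :
    h.recEquiv (tateZeroMk ρ a ha) = Additive.ofMul (Abelianization.of g) ↔
      ∃ c : V, a = nak u g + ρ.norm c := by
  rw [← AddEquiv.eq_symm_apply, recEquiv_symm_apply, nakHom_of, tateZeroMk_eq_iff]
  constructor
  · rintro ⟨c, hc⟩
    exact ⟨c, by rw [hc]; abel⟩
  · rintro ⟨c, hc⟩
    exact ⟨c, by rw [hc]; abel⟩

theorem exists_recEquiv_eq (h : IsRecLayer ρ u) {a : V} (ha : a ∈ ρ.invariants) :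
    ∃ (g : G) (c : V), a = nak u g + ρ.norm c ∧
      h.recEquiv (tateZeroMk ρ a ha) = Additive.ofMul (Abelianization.of g) := by
  obtain ⟨g, c, hgc⟩ := h.nak_surj a ha
  exact ⟨g, c, hgc, (h.recEquiv_mk_eq_iff ha g).2 ⟨c, hgc⟩⟩

end IsRecLayer

omit [Fintype G] in
theorem cupCoc_add (t : G × G → k) (a a' : V) :
    cupCoc ρ t (a + a') = cupCoc ρ t a + cupCoc ρ t a' := by
  funext p
  simp [cupCoc, smul_add]

/-- **Cup product formula**, general form: if `a = nak u s + N c` then
`a ∪ [t] = (nak t s) • [u]` with an explicit coboundary. -/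
theorem cupCoc_eq_of_eq_nak_add_norm {t : G × G → k} (ht : IsTrivCoc2 t) (hu : IsCoc2 ρ u)
    {a : V} (s : G) (c : V) (hs : a = nak u s + ρ.norm c) :
    cupCoc ρ t a = (∑ y, t (y, s)) • u +
      dOne ρ (cupCochain ρ t u s + cupNormCochain ρ t c) := by
  have e1 := cupCoc_nak_sub ht hu s
  have e2 := cupCoc_norm ρ ht c
  funext p
  have e1p := congrFun e1 p
  have e2p := congrFun e2 p
  rw [Pi.sub_apply, Pi.smul_apply] at e1p
  rw [hs, cupCoc_add, dOne_add, Pi.add_apply, Pi.add_apply, Pi.add_apply, Pi.smul_apply,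
    ← e1p, ← e2p]
  abel

omit [Fintype G] in
theorem dOne_smul (c : k) (b : G → V) : dOne ρ (c • b) = c • dOne ρ b := by
  funext p
  simp only [dOne, Pi.smul_apply, map_smul, smul_add, smul_sub]

/-- `|G| • u` is the coboundary of `g ↦ ∑ y, u (g, y)`. -/
theorem card_smul_eq_dOne (hu : IsCoc2 ρ u) :
    ((Fintype.card G : ℤ) : k) • u = dOne ρ (fun g => ∑ y, u (g, y)) := by
  funext ⟨g, h⟩
  simp only [Pi.smul_apply, dOne_apply, map_sum]
  have h1 : ∀ y, ρ g (u (h, y)) = u (g * h, y) + u (g, h) - u (g, h * y) := fun y => by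
    rw [hu g h y]; abel
  simp_rw [h1, sum_sub_distrib, sum_add_distrib]
  rw [Fintype.sum_equiv (Equiv.mulLeft h) (fun y => u (g, h * y)) (fun y => u (g, y))
    (fun _ => rfl), sum_const, card_univ, Int.cast_natCast, Nat.cast_smul_eq_nsmul]
  abel

/-- Integer-valued cochains, viewed in the coefficient ring. -/
def castCoc (t : G × G → ℤ) : G × G → k := fun p => (t p : k)

omit [Fintype G] in
theorem isTrivCoc2_castCoc {t : G × G → ℤ} (ht : IsTrivCoc2 t) :
    IsTrivCoc2 (castCoc (k := k) t) := by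
  intro g h j
  simp only [castCoc, ← Int.cast_add, ht g h j]

theorem sum_castCoc (t : G × G → ℤ) (s : G) :
    ∑ y, castCoc (k := k) t (y, s) = ((∑ y, t (y, s) : ℤ) : k) := by
  simp [castCoc]

namespace IsRecLayer

/-- The invariant of a 2-cocycle `x = m • u + d b`: the class of `m / |G|` in `ℚ/ℤ`. -/
noncomputable def inv (h : IsRecLayer ρ u) (x : G × G → V) (hx : IsCoc2 ρ x) : AddCircle (1 : ℚ) :=
  (((Classical.choose (h.gen x hx) : ℤ) : ℚ) / (Fintype.card G : ℚ) : ℚ)

theorem card_ne_zero' : (Fintype.card G : ℚ) ≠ 0 := by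
  have : 0 < Fintype.card G := Fintype.card_pos
  positivity

theorem inv_eq (h : IsRecLayer ρ u) {x : G × G → V} (hx : IsCoc2 ρ x) (m : ℤ) (b : G → V)
    (hxm : x = (m : k) • u + dOne ρ b) :
    h.inv x hx = (((m : ℚ) / (Fintype.card G : ℚ) : ℚ) : AddCircle (1 : ℚ)) := by
  obtain ⟨b₀, hb₀⟩ := Classical.choose_spec (h.gen x hx)
  set m₀ := Classical.choose (h.gen x hx) with hm₀
  have hdiff : ((m - m₀ : ℤ) : k) • u = dOne ρ (b₀ - b) := by
    rw [Int.cast_sub, sub_smul, dOne_sub]
    have : (m : k) • u + dOne ρ b = (m₀ : k) • u + dOne ρ b₀ := by rw [← hxm, ← hb₀]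
    rw [sub_eq_sub_iff_add_eq_add, this, add_comm]
  obtain ⟨q, hq⟩ := h.ord _ _ hdiff
  unfold inv
  rw [← hm₀]
  symm
  rw [QuotientAddGroup.eq, AddSubgroup.mem_zmultiples_iff]
  refine ⟨-q, ?_⟩
  have hm : (m : ℚ) = m₀ + (Fintype.card G : ℚ) * q := by
    have : m = m₀ + (Fintype.card G : ℤ) * q := by rw [← hq]; ring
    rw [this]; push_cast; ring
  rw [hm]
  have hc := card_ne_zero' (G := G)
  simp only [zsmul_eq_mul, mul_one, Int.cast_neg]
  field_simp
  ring

theorem inv_add (h : IsRecLayer ρ u) {x x' : G × G → V} (hx : IsCoc2 ρ x) (hx' : IsCoc2 ρ x') :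
    h.inv (x + x') (hx.add hx') = h.inv x hx + h.inv x' hx' := by
  obtain ⟨m, b, hxm⟩ := h.gen x hx
  obtain ⟨m', b', hxm'⟩ := h.gen x' hx'
  rw [h.inv_eq hx m b hxm, h.inv_eq hx' m' b' hxm', h.inv_eq (hx.add hx') (m + m') (b + b')
    (by rw [hxm, hxm', Int.cast_add, add_smul, dOne_add]; abel)]
  rw [← QuotientAddGroup.mk_add]
  congr 1
  push_cast
  ring

theorem inv_dOne (h : IsRecLayer ρ u) (b : G → V) : h.inv (dOne ρ b) (isCoc2_dOne ρ b) = 0 := by
  rw [h.inv_eq _ 0 b (by simp)]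
  simp

theorem inv_smul_self (h : IsRecLayer ρ u) (m : ℤ) :
    h.inv ((m : k) • u) (h.coc.smul _) =
      (((m : ℚ) / (Fintype.card G : ℚ) : ℚ) : AddCircle (1 : ℚ)) := by
  rw [h.inv_eq _ m 0 (by funext p; simp [dOne])]

theorem inv_self (h : IsRecLayer ρ u) :
    h.inv u h.coc = (((1 : ℚ) / (Fintype.card G : ℚ) : ℚ) : AddCircle (1 : ℚ)) := by
  rw [h.inv_eq _ 1 0 (by funext p; simp [dOne])]
  simp

/-- The invariant vanishes exactly on coboundaries. -/
theorem inv_eq_zero_iff (h : IsRecLayer ρ u) {x : G × G → V} (hx : IsCoc2 ρ x) :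
    h.inv x hx = 0 ↔ ∃ b : G → V, x = dOne ρ b := by
  constructor
  · intro h0
    obtain ⟨m, b, hxm⟩ := h.gen x hx
    rw [h.inv_eq hx m b hxm, ← QuotientAddGroup.mk_zero, QuotientAddGroup.eq,
      AddSubgroup.mem_zmultiples_iff] at h0
    obtain ⟨q, hq⟩ := h0
    have hc := card_ne_zero' (G := G)
    have hm : m = -q * (Fintype.card G : ℤ) := by
      have : (m : ℚ) = -q * (Fintype.card G : ℚ) := by
        simp only [zsmul_eq_mul, mul_one, add_zero] at hq
        field_simp at hq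
        linarith
      exact_mod_cast this
    refine ⟨(-q : k) • (fun g => ∑ y, u (g, y)) + b, ?_⟩
    rw [hxm, dOne_add, hm]
    congr 1
    rw [Int.cast_mul, mul_smul, card_smul_eq_dOne h.coc, Int.cast_neg, dOne_smul]
  · rintro ⟨b, rfl⟩
    exact h.inv_dOne b

/-- `inv (a ∪ [t]) = (∑ y, t (y, s)) / |G|` if `rec [a] = s̄`. -/
theorem inv_cupCoc (h : IsRecLayer ρ u) {t : G × G → ℤ} (ht : IsTrivCoc2 t) {a : V}
    (ha : a ∈ ρ.invariants) (s : G)
    (hs : h.recEquiv (tateZeroMk ρ a ha) = Additive.ofMul (Abelianization.of s)) :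
    h.inv (cupCoc ρ (castCoc t) a) (isCoc2_cupCoc ρ (isTrivCoc2_castCoc ht) ha) =
      ((((∑ y, t (y, s) : ℤ) : ℚ) / (Fintype.card G : ℚ) : ℚ) : AddCircle (1 : ℚ)) := by
  obtain ⟨c, hc⟩ := (h.recEquiv_mk_eq_iff ha s).1 hs
  refine h.inv_eq _ (∑ y, t (y, s))
    (cupCochain ρ (castCoc t) u s + cupNormCochain ρ (castCoc t) c) ?_
  rw [cupCoc_eq_of_eq_nak_add_norm (isTrivCoc2_castCoc ht) h.coc s c hc, sum_castCoc]

end IsRecLayer

end Layer

section Delta

variable {G : Type*} [Group G]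

/-- `t = δχ` for a character `χ : G → (1/n)ℤ/ℤ` with lift `c / n`:
`n * t (g, h) = c g + c h - c (g * h)`. -/
def IsDeltaOf (n : ℤ) (c : G → ℤ) (t : G × G → ℤ) : Prop :=
  ∀ g h : G, n * t (g, h) = c g + c h - c (g * h)

theorem IsDeltaOf.isTrivCoc2 {n : ℤ} {c : G → ℤ} {t : G × G → ℤ} (h : IsDeltaOf n c t)
    (hn : n ≠ 0) : IsTrivCoc2 t := by
  intro g g' j
  apply mul_left_cancel₀ hn
  rw [mul_add, mul_add, h, h, h, h, mul_assoc]
  ring

theorem IsDeltaOf.sum_eq [Fintype G] {n : ℤ} {c : G → ℤ} {t : G × G → ℤ} (h : IsDeltaOf n c t)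
    (s : G) : n * ∑ y, t (y, s) = (Fintype.card G : ℤ) * c s := by
  have h' : ∀ g g' : G, n * t (g, g') = c g + c g' - c (g * g') := h
  rw [mul_sum]
  simp_rw [h']
  rw [sum_delta_eq_card_nsmul, nsmul_eq_mul]

/-- The standard integral 2-cocycle `δχ` of an additive character `χ : G → ZMod n`, using the
lifts `ZMod.val`. -/
def deltaChi (n : ℕ) (χ : G → ZMod n) : G × G → ℤ :=
  fun p => (((χ p.1).val : ℤ) + (χ p.2).val - (χ (p.1 * p.2)).val) / n

theorem isDeltaOf_deltaChi (n : ℕ) [NeZero n] (χ : G → ZMod n)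
    (hχ : ∀ g h, χ (g * h) = χ g + χ h) :
    IsDeltaOf n (fun g => ((χ g).val : ℤ)) (deltaChi n χ) := by
  intro g h
  simp only [deltaChi]
  apply Int.mul_ediv_cancel'
  rw [← ZMod.intCast_zmod_eq_zero_iff_dvd]
  simp only [Int.cast_sub, Int.cast_add, Int.cast_natCast, ZMod.natCast_zmod_val, hχ g h,
    sub_self]

/-- Characters into `ℚ/ℤ` separate the points of the abelianization, in cocycle form. -/
theorem exists_isDeltaOf_of_ne {Q : Type*} [Group Q] [Fintype Q] {x y : Q}
    (hxy : Abelianization.of x ≠ Abelianization.of y) :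
    ∃ (c : Q → ℤ) (t : Q × Q → ℤ), IsDeltaOf (Fintype.card Q : ℤ) c t ∧
      ¬ (Fintype.card Q : ℤ) ∣ c x - c y := by
  classical
  have hnpos : 0 < Fintype.card Q := Fintype.card_pos
  have : NeZero (Fintype.card Q) := ⟨hnpos.ne'⟩
  obtain ⟨φ, hφ⟩ : ∃ φ : Abelianization Q →* ℂˣ,
      φ (Abelianization.of x) ≠ φ (Abelianization.of y) := by
    by_contra hcon
    push Not at hcon
    exact hxy ((CommGroup.forall_apply_eq_apply_iff (G := Abelianization Q) (M := ℂ)).1 hcon)
  have hζ := Complex.isPrimitiveRoot_exp (Fintype.card Q) hnpos.ne'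
  set ζ := Complex.exp (2 * Real.pi * Complex.I / (Fintype.card Q : ℂ)) with hζdef
  have hζ0 : ζ ≠ 0 := Complex.exp_ne_zero _
  have hval : ∀ q : Q, ∃ i : ℕ, i < Fintype.card Q ∧ ζ ^ i = (φ (Abelianization.of q) : ℂ) := by
    intro q
    apply hζ.eq_pow_of_pow_eq_one
    rw [← Units.val_pow_eq_pow_val, ← map_pow, ← map_pow, pow_card_eq_one, map_one, map_one,
      Units.val_one]
  choose c hc1 hc2 using hval
  have hdvd : ∀ q q' : Q, (Fintype.card Q : ℤ) ∣ (c q : ℤ) + c q' - c (q * q') := by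
    intro q q'
    rw [← hζ.zpow_eq_one_iff_dvd, zpow_sub₀ hζ0, zpow_add₀ hζ0, zpow_natCast, zpow_natCast,
      zpow_natCast, hc2, hc2, hc2, map_mul, map_mul, Units.val_mul]
    exact div_self (mul_ne_zero (Units.ne_zero _) (Units.ne_zero _))
  refine ⟨fun q => (c q : ℤ), fun p => ((c p.1 : ℤ) + c p.2 - c (p.1 * p.2)) / Fintype.card Q,
    fun q q' => Int.mul_ediv_cancel' (hdvd q q'), ?_⟩
  intro hd
  apply hφ
  have hd' : (Fintype.card Q : ℤ) ∣ (c x : ℤ) - c y := hd
  have h0 : (c x : ℤ) - c y = 0 := by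
    apply Int.eq_zero_of_abs_lt_dvd hd'
    have h1 := hc1 x
    have h2 := hc1 y
    rw [abs_lt]
    constructor <;> omega
  have hxy' : c x = c y := by omega
  apply Units.ext
  rw [← hc2, ← hc2, hxy']

end Delta

section Character

variable {k G V : Type*} [CommRing k] [Group G] [Fintype G] [AddCommGroup V] {_ : Module k V}
variable {ρ : Representation k G V} {u : G × G → V}

/-- **Character formula** `inv (a ∪ δχ) = χ (rec a)`: if `t = δχ` with `χ = c / n` and
`rec [a] = s̄` then `inv (a ∪ [t]) = c s / n`. -/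
theorem IsRecLayer.inv_cupCoc_delta (h : IsRecLayer ρ u) {n : ℤ} (hn : n ≠ 0) {c : G → ℤ}
    {t : G × G → ℤ} (hct : IsDeltaOf n c t) {a : V} (ha : a ∈ ρ.invariants) (s : G)
    (hs : h.recEquiv (tateZeroMk ρ a ha) = Additive.ofMul (Abelianization.of s)) :
    h.inv (cupCoc ρ (castCoc t) a)
        (isCoc2_cupCoc ρ (isTrivCoc2_castCoc (hct.isTrivCoc2 hn)) ha) =
      (((c s : ℚ) / (n : ℚ) : ℚ) : AddCircle (1 : ℚ)) := by
  rw [h.inv_cupCoc (hct.isTrivCoc2 hn) ha s hs]
  congr 1
  have h1 := hct.sum_eq s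
  have h2 : (n : ℚ) * ((∑ y, t (y, s) : ℤ) : ℚ) = (Fintype.card G : ℚ) * (c s : ℚ) := by
    exact_mod_cast h1
  have hc := IsRecLayer.card_ne_zero' (G := G)
  have hn' : (n : ℚ) ≠ 0 := by exact_mod_cast hn
  field_simp
  linarith

/-- **Character formula** for `χ : G → ZMod n`: `inv (a ∪ δχ) = (χ (rec a)).val / n`. -/
theorem IsRecLayer.inv_cupCoc_deltaChi (h : IsRecLayer ρ u) (n : ℕ) [NeZero n] (χ : G → ZMod n)
    (hχ : ∀ g g', χ (g * g') = χ g + χ g') {a : V} (ha : a ∈ ρ.invariants) (s : G)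
    (hs : h.recEquiv (tateZeroMk ρ a ha) = Additive.ofMul (Abelianization.of s)) :
    h.inv (cupCoc ρ (castCoc (deltaChi n χ)) a)
        (isCoc2_cupCoc ρ (isTrivCoc2_castCoc ((isDeltaOf_deltaChi n χ hχ).isTrivCoc2
          (by exact_mod_cast NeZero.ne n))) ha) =
      ((((χ s).val : ℚ) / (n : ℚ) : ℚ) : AddCircle (1 : ℚ)) := by
  have := h.inv_cupCoc_delta (n := (n : ℤ)) (by exact_mod_cast NeZero.ne n)
    (isDeltaOf_deltaChi n χ hχ) ha s hs
  rw [this]
  push_cast
  rfl

end Character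

section Inflation

variable {k G Q V V' : Type*} [CommRing k] [Group G] [Fintype G] [Group Q] [Fintype Q]
  [AddCommGroup V] {_ : Module k V} [AddCommGroup V'] {_ : Module k V'}
variable {ρ : Representation k G V} {ρ' : Representation k Q V'}

/-- Inflation of 2-cochains along a homomorphism `π : G → Q` and an additive map `j : V' → V`. -/
def infCoc (π : G →* Q) (j : V' →+ V) (x' : Q × Q → V') : G × G → V :=
  fun p => j (x' (π p.1, π p.2))

@[simp] theorem infCoc_apply (π : G →* Q) (j : V' →+ V) (x' : Q × Q → V') (g g' : G) :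
    infCoc π j x' (g, g') = j (x' (π g, π g')) := rfl

omit [Fintype G] [Fintype Q] in
theorem IsCoc2.inf {x' : Q × Q → V'} (hx' : IsCoc2 ρ' x') (π : G →* Q) (j : V' →+ V)
    (hj : ∀ g v, j (ρ' (π g) v) = ρ g (j v)) : IsCoc2 ρ (infCoc π j x') := by
  intro g g' g''
  simp only [infCoc_apply, map_mul]
  rw [← map_add, hx', map_add, hj]

omit [Fintype G] [Fintype Q] in
theorem infCoc_dOne (π : G →* Q) (j : V' →+ V) (hj : ∀ g v, j (ρ' (π g) v) = ρ g (j v))
    (b' : Q → V') : infCoc π j (dOne ρ' b') = dOne ρ (fun g => j (b' (π g))) := by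
  funext ⟨g, g'⟩
  simp only [infCoc_apply, dOne_apply, map_add, map_sub, hj, map_mul]

omit [Fintype G] [Fintype Q] in
theorem infCoc_add (π : G →* Q) (j : V' →+ V) (x' y' : Q × Q → V') :
    infCoc π j (x' + y') = infCoc π j x' + infCoc π j y' := by
  funext p
  simp [infCoc]

omit [Fintype G] [Fintype Q] in
theorem infCoc_smul (π : G →* Q) (j : V' →+ V) (c : ℤ) (x' : Q × Q → V') :
    infCoc π j ((c : k) • x') = (c : k) • infCoc π j x' := by
  funext p
  simp only [infCoc, Pi.smul_apply]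
  exact map_intCast_smul j k k c _

omit [Fintype G] [Fintype Q] in
theorem infCoc_cupCoc (π : G →* Q) (j : V' →+ V) (t' : Q × Q → ℤ) (a' : V') :
    infCoc π j (cupCoc ρ' (castCoc t') a') =
      cupCoc ρ (castCoc fun p => t' (π p.1, π p.2)) (j a') := by
  funext p
  simp only [infCoc, cupCoc, castCoc]
  exact map_intCast_smul j k k _ _

omit [Fintype G] [Fintype Q] in
theorem mem_invariants_of_equivariant (π : G →* Q) (j : V' →+ V)
    (hj : ∀ g v, j (ρ' (π g) v) = ρ g (j v)) {a' : V'} (ha' : a' ∈ ρ'.invariants) :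
    j a' ∈ ρ.invariants := fun g => by rw [← hj, ha' (π g)]

theorem card_eq_card_ker_mul (π : G →* Q) (hπ : Function.Surjective π) :
    Fintype.card G = Nat.card π.ker * Fintype.card Q := by
  have h1 := Subgroup.card_mul_index π.ker
  rw [Subgroup.index_ker, MonoidHom.range_eq_top.2 hπ, Subgroup.card_top] at h1
  rw [← Nat.card_eq_fintype_card, ← Nat.card_eq_fintype_card, h1]

variable {u : G × G → V} {u' : Q × Q → V'}

/-- The invariant maps are compatible with inflation when `inf u' = |ker π| • u` in `H²`. -/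
theorem IsRecLayer.inv_infCoc (h : IsRecLayer ρ u) (h' : IsRecLayer ρ' u') (π : G →* Q)
    (hπ : Function.Surjective π) (j : V' →+ V) (hj : ∀ g v, j (ρ' (π g) v) = ρ g (j v))
    (b : G → V) (hinf : infCoc π j u' = ((Nat.card π.ker : ℤ) : k) • u + dOne ρ b)
    {x' : Q × Q → V'} (hx' : IsCoc2 ρ' x') :
    h.inv (infCoc π j x') (hx'.inf π j hj) = h'.inv x' hx' := by
  obtain ⟨m, b', hm⟩ := h'.gen x' hx'
  rw [h'.inv_eq hx' m b' hm, h.inv_eq (hx'.inf π j hj) (m * (Nat.card π.ker : ℤ))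
    ((m : k) • b + fun g => j (b' (π g)))]
  · congr 1
    have hcard := card_eq_card_ker_mul π hπ
    have hQ := IsRecLayer.card_ne_zero' (G := Q)
    have hK : (Nat.card π.ker : ℚ) ≠ 0 := by
      have : Nat.card π.ker ≠ 0 := by
        intro h0
        rw [h0, zero_mul] at hcard
        exact Fintype.card_ne_zero hcard
      exact_mod_cast this
    rw [hcard]
    push_cast
    field_simp
  · rw [hm, infCoc_add, infCoc_smul, infCoc_dOne π j hj, hinf, dOne_add, dOne_smul, smul_add,
      Int.cast_mul, mul_smul]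
    abel

/-- **Compatibility of the reciprocity maps with passage to a quotient**: if `inf u' = |ker π| • u`
in `H²`, then `rec_Q [a'] = π (rec_G [j a'])`. -/
theorem IsRecLayer.recEquiv_quot (h : IsRecLayer ρ u) (h' : IsRecLayer ρ' u') (π : G →* Q)
    (hπ : Function.Surjective π) (j : V' →+ V) (hj : ∀ g v, j (ρ' (π g) v) = ρ g (j v))
    (b : G → V) (hinf : infCoc π j u' = ((Nat.card π.ker : ℤ) : k) • u + dOne ρ b)
    {a' : V'} (ha' : a' ∈ ρ'.invariants) :
    h'.recEquiv (tateZeroMk ρ' a' ha') =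
      Additive.ofMul (Abelianization.map π (Additive.toMul
        (h.recEquiv (tateZeroMk ρ (j a') (mem_invariants_of_equivariant π j hj ha'))))) := by
  have ha := mem_invariants_of_equivariant (ρ := ρ) π j hj ha'
  obtain ⟨s, c, hsc, hrs⟩ := h.exists_recEquiv_eq ha
  obtain ⟨s', c', hsc', hrs'⟩ := h'.exists_recEquiv_eq ha'
  rw [hrs, hrs', toMul_ofMul, Abelianization.map_of]
  by_contra hne
  have hne' : Abelianization.of (π s) ≠ Abelianization.of s' := fun e => hne (by rw [e])
  obtain ⟨cc, t', hct, hndvd⟩ := exists_isDeltaOf_of_ne hne'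
  have hQ0 : (Fintype.card Q : ℤ) ≠ 0 := by
    have : Fintype.card Q ≠ 0 := Fintype.card_ne_zero
    exact_mod_cast this
  have ht' : IsTrivCoc2 t' := hct.isTrivCoc2 hQ0
  -- the inflated integral cocycle
  set t : G × G → ℤ := fun p => t' (π p.1, π p.2) with htdef
  have ht : IsTrivCoc2 t := fun g g' g'' => by
    simp only [htdef, map_mul]
    exact ht' (π g) (π g') (π g'')
  -- the two expressions of `(j a') ∪ [t]`
  have e1 := cupCoc_eq_of_eq_nak_add_norm (ρ := ρ) (isTrivCoc2_castCoc (k := k) ht) h.coc s c hsc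
  have e2 := cupCoc_eq_of_eq_nak_add_norm (ρ := ρ') (isTrivCoc2_castCoc (k := k) ht') h'.coc
    s' c' hsc'
  have e3 : cupCoc ρ (castCoc (k := k) t) (j a') = infCoc π j (cupCoc ρ' (castCoc (k := k) t') a') := by
    rw [infCoc_cupCoc]
  rw [sum_castCoc] at e1 e2
  rw [e2, infCoc_add, infCoc_smul, infCoc_dOne π j hj, hinf, e1] at e3
  -- the sum over `G` of the inflated cocycle
  have hsum : ∑ y, t (y, s) = (Nat.card π.ker : ℤ) * ∑ q, t' (q, π s) := by
    have := nak_resCoc_of_surjective π hπ t' s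
    simp only [nak, resCoc_apply, nsmul_eq_mul] at this
    exact this
  -- hence a multiple of `u` is a coboundary
  have hcob : (((Nat.card π.ker : ℤ) * (∑ q, t' (q, π s) - ∑ q, t' (q, s')) : ℤ) : k) • u =
      dOne ρ ((((∑ q, t' (q, s') : ℤ) : k) • b + fun g => j ((cupCochain ρ' (castCoc t') u' s' +
        cupNormCochain ρ' (castCoc t') c') (π g))) -
        (cupCochain ρ (castCoc t) u s + cupNormCochain ρ (castCoc t) c)) := by
    rw [dOne_sub, dOne_add, dOne_smul, eq_sub_iff_add_eq, mul_sub, Int.cast_sub, sub_smul,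
      ← hsum, sub_add_eq_add_sub, e3, smul_add, Int.cast_mul, mul_smul]
    rw [smul_comm ((Nat.card π.ker : ℤ) : k) ((∑ q, t' (q, s') : ℤ) : k) u]
    abel
  obtain ⟨q, hq⟩ := h.ord _ _ hcob
  have hcard : (Fintype.card G : ℤ) = (Nat.card π.ker : ℤ) * (Fintype.card Q : ℤ) := by
    exact_mod_cast card_eq_card_ker_mul π hπ
  have hK : (Nat.card π.ker : ℤ) ≠ 0 := by
    intro h0
    rw [h0, zero_mul] at hcard
    have : Fintype.card G ≠ 0 := Fintype.card_ne_zero
    exact this (by exact_mod_cast hcard)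
  have hdvd : (Fintype.card Q : ℤ) ∣ ∑ q, t' (q, π s) - ∑ q, t' (q, s') := by
    refine ⟨q, mul_left_cancel₀ hK ?_⟩
    rw [hq, hcard]
    ring
  have hs1 := hct.sum_eq (π s)
  have hs2 := hct.sum_eq s'
  rw [mul_right_inj' hQ0] at hs1 hs2
  rw [hs1, hs2] at hdvd
  exact hndvd hdvd

omit [Fintype G] [Fintype Q] in
theorem abelianization_map_injective (π : G →* Q) (hπ : Function.Surjective π)
    (hker : π.ker ≤ commutator G) : Function.Injective (Abelianization.map π) := by
  rw [injective_iff_map_eq_one]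
  intro x hx
  obtain ⟨g, rfl⟩ := abOf_surjective G x
  rw [Abelianization.map_of, ← MonoidHom.mem_ker, Abelianization.ker_of, commutator_def,
    ← Subgroup.map_top_of_surjective π hπ, ← Subgroup.map_commutator, ← commutator_def] at hx
  obtain ⟨g', hg', hgg'⟩ := hx
  have h1 : g'⁻¹ * g ∈ commutator G := hker (by
    rw [MonoidHom.mem_ker, map_mul, map_inv, hgg', inv_mul_cancel])
  have h2 : g ∈ commutator G := by
    have := mul_mem hg' h1
    rwa [mul_inv_cancel_left] at this
  rwa [← Abelianization.ker_of, MonoidHom.mem_ker] at h2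

/-- **Norm limitation**: if `ker π` is contained in the commutator subgroup, the norm groups of
the two layers coincide. -/
theorem IsRecLayer.norm_limitation (h : IsRecLayer ρ u) (h' : IsRecLayer ρ' u') (π : G →* Q)
    (hπ : Function.Surjective π) (j : V' →+ V) (hj : ∀ g v, j (ρ' (π g) v) = ρ g (j v))
    (b : G → V) (hinf : infCoc π j u' = ((Nat.card π.ker : ℤ) : k) • u + dOne ρ b)
    (hker : π.ker ≤ commutator G) {a' : V'} (ha' : a' ∈ ρ'.invariants) :
    (∃ c' : V', ρ'.norm c' = a') ↔ ∃ c : V, ρ.norm c = j a' := by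
  have ha := mem_invariants_of_equivariant (ρ := ρ) π j hj ha'
  rw [← tateZeroMk_eq_zero_iff ha', ← tateZeroMk_eq_zero_iff ha,
    ← h'.recEquiv.map_eq_zero_iff, ← h.recEquiv.map_eq_zero_iff,
    h.recEquiv_quot h' π hπ j hj b hinf ha']
  constructor
  · intro h0
    have h1 : Abelianization.map π (Additive.toMul (h.recEquiv (tateZeroMk ρ (j a') ha))) = 1 := by
      rw [← ofMul_eq_zero]; exact h0
    rw [← map_one (Abelianization.map π)] at h1
    have := abelianization_map_injective π hπ hker h1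
    rw [← toMul_zero] at this
    exact Additive.toMul.injective this
  · intro h0
    rw [h0, toMul_zero, map_one, ofMul_one]

end Inflation

section Restriction

variable {k G H V : Type*} [CommRing k] [Group G] [Fintype G] [Group H] [Fintype H]
  [AddCommGroup V] {_ : Module k V}
variable {ρ : Representation k G V} {u : G × G → V}

/-- The invariant maps are compatible with restriction: `inv_H (res x) = [G : H] • inv_G x`. -/
theorem IsRecLayer.inv_resCoc (h : IsRecLayer ρ u) (f : H →* G)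
    (hH : IsRecLayer (ρ.comp f) (resCoc f u)) (d : ℕ)
    (hd : Fintype.card G = d * Fintype.card H) {x : G × G → V} (hx : IsCoc2 ρ x) :
    hH.inv (resCoc f x) (hx.res f) = d • h.inv x hx := by
  obtain ⟨m, b, hm⟩ := h.gen x hx
  rw [h.inv_eq hx m b hm, hH.inv_eq (hx.res f) m (b ∘ f)
    (by rw [hm, resCoc_add, resCoc_dOne]; rfl)]
  rw [← QuotientAddGroup.mk_nsmul]
  congr 1
  have hH0 := IsRecLayer.card_ne_zero' (G := H)
  have hd0 : (d : ℚ) ≠ 0 := by
    have : d ≠ 0 := by
      rintro rfl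
      rw [zero_mul] at hd
      exact Fintype.card_ne_zero hd
    exact_mod_cast this
  rw [hd, nsmul_eq_mul]
  push_cast
  field_simp

end Restriction

end Fermat.Agent.Lib.CFT.Coh.ClassFormation
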