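import Mathlib
import Fermat.Agent.Lib.CFT.Coh.ClassFormation.Layer

/-!
# The invariant map of a layer on Mathlib's `H²` (P-CFT, WP Coh/ClassFormation, helper7)

For `A : Rep k G` and `h : IsRecLayer A.ρ u` we descend the cocycle-level invariant `h.inv` to an
additive map `h.invH2 : groupCohomology.H2 A →+ ℚ/ℤ`, injective, with
`h.invH2 (H2π A x) = h.inv x`, and prove its compatibility with `groupCohomology.map` along
inflation-type morphisms.
-/

set_option autoImplicit false
set_option linter.unusedSectionVars false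

universe u

namespace Fermat.Agent.Lib.CFT.Coh.ClassFormation

open groupCohomology CategoryTheory

section

variable {k G : Type u} [CommRing k] [Group G] [Fintype G] {A : Rep.{u} k G} {u : G × G → A}

omit [Fintype G] in
theorem isCoc2_of_mem_cocycles₂ {x : G × G → A} (hx : x ∈ cocycles₂ A) : IsCoc2 A.ρ x :=
  (mem_cocycles₂_iff x).1 hx

omit [Fintype G] in
theorem mem_cocycles₂_of_isCoc2 {x : G × G → A} (hx : IsCoc2 A.ρ x) : x ∈ cocycles₂ A :=
  (mem_cocycles₂_iff x).2 hx

omit [Fintype G] in
theorem d₁₂_eq_dOne (b : G → A) : (d₁₂ A).hom b = dOne A.ρ b := rfl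

omit [Fintype G] in
theorem mem_coboundaries₂_iff (x : G × G → A) :
    x ∈ coboundaries₂ A ↔ ∃ b : G → A, x = dOne A.ρ b := by
  constructor
  · rintro ⟨b, rfl⟩
    exact ⟨b, rfl⟩
  · rintro ⟨b, rfl⟩
    exact ⟨b, rfl⟩

omit [Fintype G] in
theorem H2π_surjective (A : Rep.{u} k G) : Function.Surjective (H2π A) :=
  (ModuleCat.epi_iff_surjective _).1 inferInstance

namespace IsRecLayer

/-- The invariant on cocycles of `A`, as a function on the submodule `cocycles₂ A`. -/
noncomputable def invCocycles (h : IsRecLayer A.ρ u) (x : cocycles₂ A) : AddCircle (1 : ℚ) :=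
  h.inv x (isCoc2_of_mem_cocycles₂ x.2)

theorem invCocycles_add (h : IsRecLayer A.ρ u) (x y : cocycles₂ A) :
    h.invCocycles (x + y) = h.invCocycles x + h.invCocycles y :=
  h.inv_add (isCoc2_of_mem_cocycles₂ x.2) (isCoc2_of_mem_cocycles₂ y.2)

theorem invCocycles_eq_zero_iff (h : IsRecLayer A.ρ u) (x : cocycles₂ A) :
    h.invCocycles x = 0 ↔ H2π A x = 0 := by
  rw [H2π_eq_zero_iff, mem_coboundaries₂_iff]
  exact h.inv_eq_zero_iff _

theorem invCocycles_zero (h : IsRecLayer A.ρ u) : h.invCocycles 0 = 0 := by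
  rw [invCocycles_eq_zero_iff, map_zero]

theorem invCocycles_neg (h : IsRecLayer A.ρ u) (x : cocycles₂ A) :
    h.invCocycles (-x) = -h.invCocycles x := by
  rw [eq_neg_iff_add_eq_zero, ← invCocycles_add, neg_add_cancel, invCocycles_zero]

theorem invCocycles_eq_of_H2π_eq (h : IsRecLayer A.ρ u) {x y : cocycles₂ A}
    (hxy : H2π A x = H2π A y) : h.invCocycles x = h.invCocycles y := by
  have h0 : h.invCocycles (x + -y) = 0 := by
    rw [invCocycles_eq_zero_iff, map_add, map_neg, hxy, add_neg_cancel]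
  rw [invCocycles_add, invCocycles_neg, add_neg_eq_zero] at h0
  exact h0

/-- The invariant map `H²(G, A) → ℚ/ℤ` of a layer. -/
noncomputable def invH2 (h : IsRecLayer A.ρ u) : H2 A →+ AddCircle (1 : ℚ) where
  toFun y := h.invCocycles (Classical.choose (H2π_surjective A y))
  map_zero' := by
    rw [invCocycles_eq_zero_iff]
    exact Classical.choose_spec (H2π_surjective A 0)
  map_add' y y' := by
    rw [← invCocycles_add]
    apply invCocycles_eq_of_H2π_eq
    rw [map_add, Classical.choose_spec (H2π_surjective A y),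
      Classical.choose_spec (H2π_surjective A y'), Classical.choose_spec (H2π_surjective A (y + y'))]

theorem invH2_H2π (h : IsRecLayer A.ρ u) (x : cocycles₂ A) :
    h.invH2 (H2π A x) = h.invCocycles x :=
  h.invCocycles_eq_of_H2π_eq (Classical.choose_spec (H2π_surjective A (H2π A x)))

theorem invH2_injective (h : IsRecLayer A.ρ u) : Function.Injective h.invH2 := by
  rw [injective_iff_map_eq_zero]
  intro y hy
  obtain ⟨x, rfl⟩ := H2π_surjective A y
  rwa [invH2_H2π, invCocycles_eq_zero_iff] at hy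

/-- The fundamental class. -/
noncomputable def fundClass (h : IsRecLayer A.ρ u) : H2 A :=
  H2π A ⟨u, mem_cocycles₂_of_isCoc2 h.coc⟩

theorem invH2_fundClass (h : IsRecLayer A.ρ u) :
    h.invH2 h.fundClass = (((1 : ℚ) / (Fintype.card G : ℚ) : ℚ) : AddCircle (1 : ℚ)) := by
  rw [fundClass, invH2_H2π]
  exact h.inv_self

end IsRecLayer

end

section Inflation

variable {k G Q : Type u} [CommRing k] [Group G] [Fintype G] [Group Q] [Fintype Q]
  {A : Rep.{u} k G} {B : Rep.{u} k Q} {u : G × G → A} {u' : Q × Q → B}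

/-- Compatibility of the invariant maps on `H²` with inflation-type maps `groupCohomology.map`. -/
theorem IsRecLayer.invH2_map (h : IsRecLayer A.ρ u) (h' : IsRecLayer B.ρ u') (π : G →* Q)
    (hπ : Function.Surjective π) (φ : Rep.res π B ⟶ A) (b : G → A)
    (hinf : infCoc π (φ.hom.toLinearMap : B →+ A) u' =
      ((Nat.card π.ker : ℤ) : k) • u + dOne A.ρ b) (y : H2 B) :
    h.invH2 (groupCohomology.map π φ 2 y) = h'.invH2 y := by
  obtain ⟨x, rfl⟩ := H2π_surjective B y
  have e := congr($(H2π_comp_map π φ) x)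
  simp only [ModuleCat.hom_comp, LinearMap.coe_comp, Function.comp_apply] at e
  rw [e, IsRecLayer.invH2_H2π, IsRecLayer.invH2_H2π]
  have hj : ∀ (g : G) (v : B), (φ.hom.toLinearMap : B →+ A) (B.ρ (π g) v) =
      A.ρ g ((φ.hom.toLinearMap : B →+ A) v) := fun g v => Rep.hom_comm_apply φ g v
  exact h.inv_infCoc h' π hπ _ hj b hinf (isCoc2_of_mem_cocycles₂ x.2)

end Inflation

end Fermat.Agent.Lib.CFT.Coh.ClassFormation
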