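import Mathlib
import Fermat.Agent.Lib.CFT.Profinite.LevelFinite

/-!
# Maps out of level cohomology from compatible families on the finite levels
(P-CFT, WP Coh/ClassFormation, helper7)

Level cohomology `H^n(𝒰, M)` is the colimit of the cohomology groups `H^n(G ⧸ V, M^V)` of the
finite normal levels.  We make the universal property explicit: a family of additive maps
`φ_V : H^n(G ⧸ V, M^V) →+ T` compatible with the inflation maps between finite levels induces
`liftH : H^n(𝒰, M) →+ T` with `liftH (inflH y) = φ_V y`; if all `φ_V` are injective so is `liftH`.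
-/

set_option autoImplicit false
set_option linter.unusedSectionVars false
set_option linter.style.haveILetI false

universe u

namespace Fermat.Agent.Lib.CFT.Coh.ClassFormation

open Fermat.Agent.Lib.CFT.Profinite CategoryTheory groupCohomology

variable {k G : Type u} [CommRing k] [Group G] (𝒰 : LevelFamily G) (M : Rep.{u} k G)

/-- The inflation map between the cohomology groups of two finite levels. -/
noncomputable abbrev inflLevelsH (V W : Subgroup G) [V.Normal] [W.Normal] (hWV : W ≤ V) (n : ℕ) :
    groupCohomology (M.quotientToInvariants V) n ⟶ groupCohomology (M.quotientToInvariants W) n :=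
  HomologicalComplex.homologyMap (inflLevels M V W hWV) n

/-- A family of additive maps on the cohomology of the finite levels, compatible with inflation. -/
structure CompatFamily (n : ℕ) (T : Type*) [AddCommGroup T] where
  φ : ∀ (V : Subgroup G) [V.Normal], V ∈ 𝒰.levels →
    (groupCohomology (M.quotientToInvariants V) n →+ T)
  compat : ∀ (V W : Subgroup G) [V.Normal] [W.Normal] (hV : V ∈ 𝒰.levels) (hW : W ∈ 𝒰.levels)
    (hWV : W ≤ V) (y : groupCohomology (M.quotientToInvariants V) n),
    φ W hW ((inflLevelsH M V W hWV n).hom y) = φ V hV y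

namespace CompatFamily

variable {𝒰 M} {n : ℕ} {T : Type*} [AddCommGroup T] (F : CompatFamily 𝒰 M n T)

theorem inflH_inflLevelsH {V W : Subgroup G} [V.Normal] [W.Normal] (hV : V ∈ 𝒰.levels)
    (hW : W ∈ 𝒰.levels) (hWV : W ≤ V) (y : groupCohomology (M.quotientToInvariants V) n) :
    (𝒰.inflH M W hW n).hom ((inflLevelsH M V W hWV n).hom y) = (𝒰.inflH M V hV n).hom y := by
  exact congr($(LevelFamily.inflLevels_comp_inflH (𝒰 := 𝒰) (M := M) hV hW hWV n) y)

/-- The value of a compatible family only depends on the image in level cohomology. -/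
theorem eq_of_inflH_eq {V V' : Subgroup G} [V.Normal] [V'.Normal] (hV : V ∈ 𝒰.levels)
    (hV' : V' ∈ 𝒰.levels) (y : groupCohomology (M.quotientToInvariants V) n)
    (y' : groupCohomology (M.quotientToInvariants V') n)
    (h : (𝒰.inflH M V hV n).hom y = (𝒰.inflH M V' hV' n).hom y') :
    F.φ V hV y = F.φ V' hV' y' := by
  obtain ⟨W, hW, hWV, hWV', hn⟩ := 𝒰.exists_normal_le_inf hV hV'
  haveI := hn
  have h0 : (𝒰.inflH M W hW n).hom
      ((inflLevelsH M V W hWV n).hom y - (inflLevelsH M V' W hWV' n).hom y') = 0 := by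
    rw [map_sub, inflH_inflLevelsH hV hW hWV, inflH_inflLevelsH hV' hW hWV', h, sub_self]
  obtain ⟨W', hW', hn', hW'W, h1⟩ := LevelFamily.exists_inflLevels_eq_zero n hW _ h0
  haveI := hn'
  have h2 := F.compat W W' hW hW' hW'W
    ((inflLevelsH M V W hWV n).hom y - (inflLevelsH M V' W hWV' n).hom y')
  have h1' : (inflLevelsH M W W' hW'W n).hom
      ((inflLevelsH M V W hWV n).hom y - (inflLevelsH M V' W hWV' n).hom y') = 0 := h1
  rw [h1', map_zero, map_sub, F.compat V W hV hW hWV, F.compat V' W hV' hW hWV'] at h2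
  exact (sub_eq_zero.mp h2.symm)

theorem exists_rep (x : 𝒰.levelCohomology M n) :
    ∃ (V : Subgroup G) (hV : V ∈ 𝒰.levels) (_ : V.Normal),
      ∃ y : groupCohomology (M.quotientToInvariants V) n, (𝒰.inflH M V hV n).hom y = x := by
  obtain ⟨U₀, hU₀⟩ := 𝒰.nonempty
  obtain ⟨V, hV, hn, -, y, hy⟩ := LevelFamily.exists_inflH_eq n x hU₀
  exact ⟨V, hV, hn, y, hy⟩

/-- The map induced on level cohomology by a compatible family. -/
noncomputable def liftFun (x : 𝒰.levelCohomology M n) : T :=
  @CompatFamily.φ _ _ _ _ _ _ _ _ _ F (Classical.choose (exists_rep x))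
    (Classical.choose_spec (Classical.choose_spec (exists_rep x))).1
    (Classical.choose (Classical.choose_spec (exists_rep x)))
    (Classical.choose (Classical.choose_spec (Classical.choose_spec (exists_rep x))).2)

theorem liftFun_inflH {V : Subgroup G} [V.Normal] (hV : V ∈ 𝒰.levels)
    (y : groupCohomology (M.quotientToInvariants V) n) :
    F.liftFun ((𝒰.inflH M V hV n).hom y) = F.φ V hV y := by
  unfold liftFun
  have hx := exists_rep ((𝒰.inflH M V hV n).hom y)
  haveI := (Classical.choose_spec (Classical.choose_spec hx)).1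
  exact F.eq_of_inflH_eq _ hV _ y
    (Classical.choose_spec (Classical.choose_spec (Classical.choose_spec hx)).2)

/-- Two classes can be represented on a common finite level. -/
theorem exists_common_rep (x x' : 𝒰.levelCohomology M n) :
    ∃ (V : Subgroup G) (hV : V ∈ 𝒰.levels) (_ : V.Normal),
      ∃ y y' : groupCohomology (M.quotientToInvariants V) n,
        (𝒰.inflH M V hV n).hom y = x ∧ (𝒰.inflH M V hV n).hom y' = x' := by
  obtain ⟨V₁, hV₁, hn₁, y₁, rfl⟩ := exists_rep x
  obtain ⟨V₂, hV₂, hn₂, y₂, rfl⟩ := exists_rep x'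
  obtain ⟨W, hW, hWV₁, hWV₂, hn⟩ := 𝒰.exists_normal_le_inf hV₁ hV₂
  haveI := hn
  exact ⟨W, hW, hn, (inflLevelsH M V₁ W hWV₁ n).hom y₁, (inflLevelsH M V₂ W hWV₂ n).hom y₂,
    inflH_inflLevelsH hV₁ hW hWV₁ y₁, inflH_inflLevelsH hV₂ hW hWV₂ y₂⟩

/-- The additive map induced on level cohomology by a compatible family. -/
noncomputable def liftH : 𝒰.levelCohomology M n →+ T where
  toFun := F.liftFun
  map_zero' := by
    obtain ⟨V, hV, hn⟩ : ∃ (V : Subgroup G) (_ : V ∈ 𝒰.levels), V.Normal := by
      obtain ⟨V, hV, hn⟩ := 𝒰.exists_normal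
      exact ⟨V, hV, hn⟩
    haveI := hn
    have := F.liftFun_inflH hV 0
    rwa [map_zero, map_zero] at this
  map_add' x x' := by
    obtain ⟨V, hV, hn, y, y', rfl, rfl⟩ := exists_common_rep x x'
    haveI := hn
    rw [← map_add, liftFun_inflH, liftFun_inflH, liftFun_inflH, map_add]

@[simp]
theorem liftH_inflH {V : Subgroup G} [V.Normal] (hV : V ∈ 𝒰.levels)
    (y : groupCohomology (M.quotientToInvariants V) n) :
    F.liftH ((𝒰.inflH M V hV n).hom y) = F.φ V hV y :=
  F.liftFun_inflH hV y

/-- If all members of the compatible family are injective, so is the induced map. -/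
theorem liftH_injective (hinj : ∀ (V : Subgroup G) [V.Normal] (hV : V ∈ 𝒰.levels),
    Function.Injective (F.φ V hV)) : Function.Injective F.liftH := by
  rw [injective_iff_map_eq_zero]
  intro x hx
  obtain ⟨V, hV, hn, y, rfl⟩ := exists_rep x
  haveI := hn
  rw [liftH_inflH] at hx
  have := hinj V hV (hx.trans (map_zero _).symm)
  rw [this, map_zero]

end CompatFamily

end Fermat.Agent.Lib.CFT.Coh.ClassFormation
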