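import Mathlib
import Fermat.Agent.Lib.CFT.Coh.ClassFormation.LayerRep
import Fermat.Agent.Lib.CFT.Coh.ClassFormation.LevelLift

/-!
# Class formations over a level family (P-CFT, WP Coh/ClassFormation, helper7)

A `Formation k Γ` consists of a level family `𝒰` on `Γ`, a discrete `Γ`-module `C` and, for every
NORMAL level `U`, a fundamental 2-cocycle `u_U` of `Γ ⧸ U` with values in `C^U` such that
`(Γ ⧸ U, C^U, u_U)` is a reciprocity layer (`IsRecLayer`, the output of Tate's theorem), with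
`inf (u_U) = [U : U'] • u_{U'}` in `H²(Γ ⧸ U', C^{U'})` for normal levels `U' ≤ U`.

From this we construct
* `Formation.inv : H²(𝒰, C) →+ ℚ/ℤ` (injective; `inv (inflH y) = inv_U y`);
* the compatible family of reciprocity maps `Formation.recMap U : C^Γ →+ (Γ ⧸ U)^ab`;
* the character formula `inv (x ∪ δχ) = χ (rec x)` on level cohomology.
-/

set_option autoImplicit false
set_option linter.unusedSectionVars false
set_option linter.style.haveILetI false

universe u

namespace Fermat.Agent.Lib.CFT.Coh.ClassFormation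

open Fermat.Agent.Lib.CFT.Profinite CategoryTheory groupCohomology

section Prelim

variable {k G : Type u} [CommRing k] [Group G]

/-- The (noncomputable) `Fintype` structure on the quotient by a level. -/
@[instance_reducible]
noncomputable def levelFintype (𝒰 : LevelFamily G) (U : Subgroup G) (hU : U ∈ 𝒰.levels) :
    Fintype (G ⧸ U) :=
  haveI := 𝒰.finiteIndex U hU
  Fintype.ofFinite (G ⧸ U)

/-- The transition map `G ⧸ U' → G ⧸ U` for `U' ≤ U`. -/
abbrev levelMap (U U' : Subgroup G) [U.Normal] [U'.Normal] (hle : U' ≤ U) : G ⧸ U' →* G ⧸ U :=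
  QuotientGroup.map U' U (MonoidHom.id G) hle

/-- Additive characters with values in `ZMod p` detect divisibility by `p`. -/
theorem exists_addChar_ne_zero {A : Type*} [AddCommGroup A] (p : ℕ) [Fact p.Prime] (a : A)
    (ha : ∀ b : A, a ≠ p • b) : ∃ χ : A →+ ZMod p, χ a ≠ 0 := by
  have hv : (Submodule.Quotient.mk a : ModN A p) ≠ 0 := by
    intro h0
    rw [Submodule.Quotient.mk_eq_zero] at h0
    obtain ⟨b, hb⟩ := h0
    exact ha b (by simpa using hb.symm)
  have := (Module.forall_dual_apply_eq_zero_iff (ZMod p)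
    (Submodule.Quotient.mk a : ModN A p)).not.2 hv
  push Not at this
  obtain ⟨φ, hφ⟩ := this
  exact ⟨φ.toAddMonoidHom.comp (Submodule.mkQ _).toAddMonoidHom, hφ⟩

theorem exists_eq_nsmul_iff_forall_addChar {A : Type*} [AddCommGroup A] (p : ℕ) [Fact p.Prime]
    (a : A) : (∃ b : A, a = p • b) ↔ ∀ χ : A →+ ZMod p, χ a = 0 := by
  constructor
  · rintro ⟨b, rfl⟩ χ
    rw [map_nsmul]
    exact (ZMod.natCast_self p) ▸ (by rw [nsmul_eq_mul, ZMod.natCast_self, zero_mul])
  · intro h
    by_contra hcon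
    push Not at hcon
    obtain ⟨χ, hχ⟩ := exists_addChar_ne_zero p a hcon
    exact hχ (h χ)

theorem levelMap_surjective (U U' : Subgroup G) [U.Normal] [U'.Normal] (hle : U' ≤ U) :
    Function.Surjective (levelMap U U' hle) := by
  intro q
  induction q using QuotientGroup.induction_on with
  | H g => exact ⟨(g : G ⧸ U'), rfl⟩

section H2

open ConcreteHomology

variable (M : Rep.{u} k G)

theorem cochainsIso₂_inv_mem_Z (c : cocycles₂ M) :
    (cochainsIso₂ M).inv c.1 ∈ Z (inhomogeneousCochains M) 2 := by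
  rw [mem_Z_iff]
  have := congr($(eq_d₂₃_comp_inv M) c.1)
  simp only [ModuleCat.hom_comp, LinearMap.coe_comp, Function.comp_apply] at this
  have hc : (d₂₃ M).hom c.1 = 0 := cocycles₂.d₂₃_apply c
  rw [this, hc, map_zero]

/-- Mathlib's `H2π` in terms of `classOf`. -/
theorem H2π_eq_classOf (c : cocycles₂ M) :
    (H2π M).hom c =
      classOf (inhomogeneousCochains M) 2 ⟨(cochainsIso₂ M).inv c.1, cochainsIso₂_inv_mem_Z M c⟩ := by
  have h1 : (H2π M).hom c = (π M 2).hom ((isoCocycles₂ M).inv c) := rfl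
  rw [h1, ← cocyclesMk₂_eq, classOf_apply, ← cyclesMk_eq_toCycles]
  rfl

variable (𝒰 : LevelFamily G) (V : Subgroup G) [V.Normal]

/-- The inflation to `G` of a 2-cocycle of `G ⧸ V`, as a cochain on `Fin 2 → G`. -/
def inflFun₂ (c : (G ⧸ V) × (G ⧸ V) → M.quotientToInvariants V) : (Fin 2 → G) → M :=
  fun g => (c ((g 0 : G ⧸ V), (g 1 : G ⧸ V))).1

theorem inflFun₂_eq (c : (G ⧸ V) × (G ⧸ V) → M.quotientToInvariants V) :
    inflFun₂ M V c =
      ((inflCochains M V).f 2).hom ((cochainsIso₂ (M.quotientToInvariants V)).inv c) := rfl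

theorem inflFun₂_mem_levelCocycles (hV : V ∈ 𝒰.levels) (c : cocycles₂ (M.quotientToInvariants V)) :
    inflFun₂ M V c.1 ∈ 𝒰.levelCocycles M 2 := by
  rw [LevelFamily.mem_levelCocycles_iff, inflFun₂_eq]
  refine ⟨⟨V, hV, inflCochains_isCochainOn M V _⟩, ?_⟩
  rw [← inflCochains_d]
  have := cochainsIso₂_inv_mem_Z (M.quotientToInvariants V) c
  rw [mem_Z_iff] at this
  have h2 : (inhomogeneousCochains.d (M.quotientToInvariants V) 2).hom
      ((cochainsIso₂ (M.quotientToInvariants V)).inv c.1) = 0 := by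
    rw [← inhomogeneousCochains.d_def]; exact this
  rw [h2, map_zero]

/-- The inflation of the class of a 2-cocycle of a finite level is the class of the inflated
cocycle. -/
theorem inflH_H2π (hV : V ∈ 𝒰.levels) (c : cocycles₂ (M.quotientToInvariants V)) :
    (𝒰.inflH M V hV 2).hom ((H2π (M.quotientToInvariants V)).hom c) =
      𝒰.classMk M 2 ⟨inflFun₂ M V c.1, inflFun₂_mem_levelCocycles M 𝒰 V hV c⟩ := by
  rw [H2π_eq_classOf]
  exact homologyMap_classOf (𝒰.levelInfl M V hV) 2 _

end H2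

end Prelim

/-- A class formation over a level family, given by fundamental cocycles at the normal levels. -/
structure Formation (k Γ : Type u) [CommRing k] [Group Γ] where
  /-- the levels ("fields") -/
  𝒰 : LevelFamily Γ
  /-- the formation module -/
  C : Rep.{u} k Γ
  discrete : 𝒰.IsDiscrete C
  /-- the fundamental cocycles at the normal levels -/
  u : ∀ (U : Subgroup Γ) [U.Normal], U ∈ 𝒰.levels →
    (Γ ⧸ U) × (Γ ⧸ U) → C.quotientToInvariants U
  isLayer : ∀ (U : Subgroup Γ) [U.Normal] (hU : U ∈ 𝒰.levels),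
    letI := levelFintype 𝒰 U hU
    IsRecLayer (C.quotientToInvariants U).ρ (u U hU)
  infl : ∀ (U U' : Subgroup Γ) [U.Normal] [U'.Normal] (hU : U ∈ 𝒰.levels) (hU' : U' ∈ 𝒰.levels)
    (hle : U' ≤ U), ∃ b : Γ ⧸ U' → C.quotientToInvariants U',
      infCoc (levelMap U U' hle)
        ((invariantsInclusion C U U' hle).hom.toLinearMap :
          C.quotientToInvariants U →+ C.quotientToInvariants U') (u U hU) =
      ((Nat.card (levelMap U U' hle).ker : ℤ) : k) • u U' hU' +
        dOne (C.quotientToInvariants U').ρ b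

namespace Formation

variable {k Γ : Type u} [CommRing k] [Group Γ] (F : Formation k Γ)

/-- The invariant map of the layer `Γ ⧸ U`. -/
noncomputable def invLevel (U : Subgroup Γ) [U.Normal] (hU : U ∈ F.𝒰.levels) :
    groupCohomology (F.C.quotientToInvariants U) 2 →+ AddCircle (1 : ℚ) :=
  letI := levelFintype F.𝒰 U hU
  (F.isLayer U hU).invH2

theorem invLevel_injective (U : Subgroup Γ) [U.Normal] (hU : U ∈ F.𝒰.levels) :
    Function.Injective (F.invLevel U hU) :=
  letI := levelFintype F.𝒰 U hU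
  (F.isLayer U hU).invH2_injective

theorem invLevel_inflLevelsH (U U' : Subgroup Γ) [U.Normal] [U'.Normal] (hU : U ∈ F.𝒰.levels)
    (hU' : U' ∈ F.𝒰.levels) (hle : U' ≤ U)
    (y : groupCohomology (F.C.quotientToInvariants U) 2) :
    F.invLevel U' hU' ((inflLevelsH F.C U U' hle 2).hom y) = F.invLevel U hU y := by
  letI := levelFintype F.𝒰 U hU
  letI := levelFintype F.𝒰 U' hU'
  obtain ⟨b, hb⟩ := F.infl U U' hU hU' hle
  exact (F.isLayer U' hU').invH2_map (F.isLayer U hU) (levelMap U U' hle)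
    (levelMap_surjective U U' hle) (invariantsInclusion F.C U U' hle) b hb y

/-- The compatible family of invariant maps. -/
noncomputable def invFamily : CompatFamily F.𝒰 F.C 2 (AddCircle (1 : ℚ)) where
  φ U _ hU := F.invLevel U hU
  compat U U' _ _ hU hU' hle y := F.invLevel_inflLevelsH U U' hU hU' hle y

/-- **The invariant map** `H²(𝒰, C) →+ ℚ/ℤ` of a class formation. -/
noncomputable def inv : F.𝒰.levelCohomology F.C 2 →+ AddCircle (1 : ℚ) :=
  F.invFamily.liftH

theorem inv_inflH (U : Subgroup Γ) [U.Normal] (hU : U ∈ F.𝒰.levels)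
    (y : groupCohomology (F.C.quotientToInvariants U) 2) :
    F.inv ((F.𝒰.inflH F.C U hU 2).hom y) = F.invLevel U hU y :=
  F.invFamily.liftH_inflH hU y

theorem inv_injective : Function.Injective F.inv :=
  F.invFamily.liftH_injective fun U _ hU => F.invLevel_injective U hU

/-- The invariant of the class of an explicitly inflated cocycle. -/
theorem inv_classMk_inflFun₂ (U : Subgroup Γ) [U.Normal] (hU : U ∈ F.𝒰.levels)
    (c : cocycles₂ (F.C.quotientToInvariants U)) :
    F.inv (F.𝒰.classMk F.C 2 ⟨inflFun₂ F.C U c.1, inflFun₂_mem_levelCocycles F.C F.𝒰 U hU c⟩) =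
      letI := levelFintype F.𝒰 U hU
      (F.isLayer U hU).inv c.1 (isCoc2_of_mem_cocycles₂ c.2) := by
  letI := levelFintype F.𝒰 U hU
  rw [← inflH_H2π, inv_inflH]
  exact (F.isLayer U hU).invH2_H2π c

/-- The image in level cohomology of the fundamental class of the normal level `U`. -/
noncomputable def fundClassLevel (U : Subgroup Γ) [U.Normal] (hU : U ∈ F.𝒰.levels) :
    F.𝒰.levelCohomology F.C 2 :=
  letI := levelFintype F.𝒰 U hU
  (F.𝒰.inflH F.C U hU 2).hom (F.isLayer U hU).fundClass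

theorem inv_fundClassLevel (U : Subgroup Γ) [U.Normal] (hU : U ∈ F.𝒰.levels) :
    F.inv (F.fundClassLevel U hU) = (((1 : ℚ) / (U.index : ℚ) : ℚ) : AddCircle (1 : ℚ)) := by
  letI := levelFintype F.𝒰 U hU
  rw [fundClassLevel, inv_inflH]
  have h1 : F.invLevel U hU (F.isLayer U hU).fundClass = _ := (F.isLayer U hU).invH2_fundClass
  rw [h1, Subgroup.index_eq_card, Nat.card_eq_fintype_card]

/-- The image of `inv` contains `(1/n)ℤ/ℤ` as soon as `n` divides the index of a normal level. -/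
theorem exists_inv_eq (U : Subgroup Γ) [U.Normal] (hU : U ∈ F.𝒰.levels) (n : ℕ) (hn : n ∣ U.index)
    (a : ℤ) : ∃ x : F.𝒰.levelCohomology F.C 2,
      F.inv x = (((a : ℚ) / (n : ℚ) : ℚ) : AddCircle (1 : ℚ)) := by
  have := F.𝒰.finiteIndex U hU
  obtain ⟨d, hd⟩ := hn
  refine ⟨(a * d) • F.fundClassLevel U hU, ?_⟩
  rw [map_zsmul, inv_fundClassLevel, ← QuotientAddGroup.mk_zsmul]
  congr 1
  have hU0 : (U.index : ℚ) ≠ 0 := by exact_mod_cast Subgroup.FiniteIndex.index_ne_zero
  have hn0 : (n : ℚ) ≠ 0 := by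
    rintro h0
    apply hU0
    rw [hd]
    push_cast
    rw [h0, zero_mul]
  have hd0 : (d : ℚ) ≠ 0 := by
    rintro h0
    apply hU0
    rw [hd]
    push_cast
    rw [h0, mul_zero]
  rw [zsmul_eq_mul, hd]
  push_cast
  field_simp

/-! ### The reciprocity maps -/

/-- A `Γ`-invariant element of `C`, viewed in `C^U`. -/
def toLevel (U : Subgroup Γ) [U.Normal] (x : F.C.ρ.invariants) : F.C.quotientToInvariants U :=
  ⟨x.1, fun s => x.2 s.1⟩

@[simp] theorem toLevel_coe (U : Subgroup Γ) [U.Normal] (x : F.C.ρ.invariants) :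
    (F.toLevel U x).1 = x.1 := rfl

theorem toLevel_add (U : Subgroup Γ) [U.Normal] (x y : F.C.ρ.invariants) :
    F.toLevel U (x + y) = F.toLevel U x + F.toLevel U y := rfl

/-- `toLevel` as an additive homomorphism. -/
def toLevelHom (U : Subgroup Γ) [U.Normal] : F.C.ρ.invariants →+ F.C.quotientToInvariants U where
  toFun := F.toLevel U
  map_zero' := rfl
  map_add' _ _ := rfl

@[simp] theorem toLevelHom_apply (U : Subgroup Γ) [U.Normal] (x : F.C.ρ.invariants) :
    F.toLevelHom U x = F.toLevel U x := rfl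

theorem toLevel_mem_invariants (U : Subgroup Γ) [U.Normal] (x : F.C.ρ.invariants) :
    F.toLevel U x ∈ (F.C.quotientToInvariants U).ρ.invariants := by
  intro q
  induction q using QuotientGroup.induction_on with
  | H g => exact Subtype.ext (x.2 g)

/-- Every `Γ ⧸ U`-invariant element of `C^U` comes from `C^Γ`. -/
theorem exists_toLevel_eq (U : Subgroup Γ) [U.Normal] {a : F.C.quotientToInvariants U}
    (ha : a ∈ (F.C.quotientToInvariants U).ρ.invariants) :
    ∃ x : F.C.ρ.invariants, F.toLevel U x = a := by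
  refine ⟨⟨a.1, fun g => ?_⟩, rfl⟩
  exact congrArg Subtype.val (ha (g : Γ ⧸ U))

/-- **The reciprocity map** of the formation at the normal level `U`: `C^Γ →+ (Γ ⧸ U)^ab`. -/
noncomputable def recMap (U : Subgroup Γ) [U.Normal] (hU : U ∈ F.𝒰.levels) :
    F.C.ρ.invariants →+ Additive (Abelianization (Γ ⧸ U)) :=
  letI := levelFintype F.𝒰 U hU
  { toFun := fun x => (F.isLayer U hU).recEquiv
      (tateZeroMk _ (F.toLevel U x) (F.toLevel_mem_invariants U x))
    map_zero' := by
      have : tateZeroMk (F.C.quotientToInvariants U).ρ (F.toLevel U 0)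
          (F.toLevel_mem_invariants U 0) = 0 := rfl
      rw [this, map_zero]
    map_add' := fun x y => by
      rw [← map_add]
      rfl }

theorem recMap_apply (U : Subgroup Γ) [U.Normal] (hU : U ∈ F.𝒰.levels) (x : F.C.ρ.invariants) :
    F.recMap U hU x =
      letI := levelFintype F.𝒰 U hU
      (F.isLayer U hU).recEquiv (tateZeroMk _ (F.toLevel U x) (F.toLevel_mem_invariants U x)) :=
  rfl

theorem recMap_surjective (U : Subgroup Γ) [U.Normal] (hU : U ∈ F.𝒰.levels) :
    Function.Surjective (F.recMap U hU) := by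
  letI := levelFintype F.𝒰 U hU
  intro y
  obtain ⟨z, rfl⟩ := (F.isLayer U hU).recEquiv.surjective y
  obtain ⟨a, ha, rfl⟩ := tateZeroMk_surjective z
  obtain ⟨x, rfl⟩ := F.exists_toLevel_eq U ha
  exact ⟨x, rfl⟩

/-- The kernel of the reciprocity map at level `U` is the norm group `N_{Γ/U} C^U`. -/
theorem recMap_eq_zero_iff (U : Subgroup Γ) [U.Normal] (hU : U ∈ F.𝒰.levels)
    (x : F.C.ρ.invariants) :
    F.recMap U hU x = 0 ↔
      letI := levelFintype F.𝒰 U hU
      ∃ c : F.C.quotientToInvariants U, (F.C.quotientToInvariants U).ρ.norm c = F.toLevel U x := by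
  letI := levelFintype F.𝒰 U hU
  rw [recMap_apply, AddEquiv.map_eq_zero_iff, tateZeroMk_eq_zero_iff]

/-- **Compatibility of the reciprocity maps** at two normal levels `U' ≤ U`. -/
theorem recMap_compat (U U' : Subgroup Γ) [U.Normal] [U'.Normal] (hU : U ∈ F.𝒰.levels)
    (hU' : U' ∈ F.𝒰.levels) (hle : U' ≤ U) (x : F.C.ρ.invariants) :
    F.recMap U hU x = Additive.ofMul (Abelianization.map (levelMap U U' hle)
      (Additive.toMul (F.recMap U' hU' x))) := by
  letI := levelFintype F.𝒰 U hU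
  letI := levelFintype F.𝒰 U' hU'
  obtain ⟨b, hb⟩ := F.infl U U' hU hU' hle
  have hj : ∀ (q : Γ ⧸ U') (v : F.C.quotientToInvariants U),
      ((invariantsInclusion F.C U U' hle).hom.toLinearMap :
        F.C.quotientToInvariants U →+ F.C.quotientToInvariants U')
        ((F.C.quotientToInvariants U).ρ (levelMap U U' hle q) v) =
      (F.C.quotientToInvariants U').ρ q
        (((invariantsInclusion F.C U U' hle).hom.toLinearMap :
        F.C.quotientToInvariants U →+ F.C.quotientToInvariants U') v) :=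
    fun q v => Rep.hom_comm_apply (invariantsInclusion F.C U U' hle) q v
  exact (F.isLayer U' hU').recEquiv_quot (F.isLayer U hU) (levelMap U U' hle)
    (levelMap_surjective U U' hle) _ hj b hb (F.toLevel_mem_invariants U x)

/-! ### The character formula on level cohomology -/

/-- The finite-level cocycle `x ∪ δχ` for a character `χ` of `Γ ⧸ U` and `x ∈ C^Γ`. -/
noncomputable def cupDeltaLevel (U : Subgroup Γ) [U.Normal] (n : ℕ) (χ : Γ ⧸ U → ZMod n)
    (x : F.C.ρ.invariants) : (Γ ⧸ U) × (Γ ⧸ U) → F.C.quotientToInvariants U :=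
  cupCoc (F.C.quotientToInvariants U).ρ (castCoc (deltaChi n χ)) (F.toLevel U x)

theorem cupDeltaLevel_mem (U : Subgroup Γ) [U.Normal] (n : ℕ) [NeZero n] (χ : Γ ⧸ U → ZMod n)
    (hχ : ∀ q q', χ (q * q') = χ q + χ q') (x : F.C.ρ.invariants) :
    F.cupDeltaLevel U n χ x ∈ cocycles₂ (F.C.quotientToInvariants U) :=
  mem_cocycles₂_of_isCoc2 (isCoc2_cupCoc _ (isTrivCoc2_castCoc
    ((isDeltaOf_deltaChi n χ hχ).isTrivCoc2 (by exact_mod_cast NeZero.ne n)))
    (F.toLevel_mem_invariants U x))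

/-- The level 2-cochain `(g, h) ↦ δχ (g, h) • x` on `Γ`. -/
def cupDeltaFun (U : Subgroup Γ) [U.Normal] (n : ℕ) (χ : Γ ⧸ U → ZMod n)
    (x : F.C.ρ.invariants) : (Fin 2 → Γ) → F.C :=
  fun g => ((deltaChi n χ ((g 0 : Γ ⧸ U), (g 1 : Γ ⧸ U)) : ℤ) : k) • x.1

theorem cupDeltaFun_eq (U : Subgroup Γ) [U.Normal] (n : ℕ) (χ : Γ ⧸ U → ZMod n)
    (x : F.C.ρ.invariants) :
    F.cupDeltaFun U n χ x = inflFun₂ F.C U (F.cupDeltaLevel U n χ x) := rfl

theorem cupDeltaFun_mem (U : Subgroup Γ) [U.Normal] (hU : U ∈ F.𝒰.levels) (n : ℕ) [NeZero n]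
    (χ : Γ ⧸ U → ZMod n) (hχ : ∀ q q', χ (q * q') = χ q + χ q') (x : F.C.ρ.invariants) :
    F.cupDeltaFun U n χ x ∈ F.𝒰.levelCocycles F.C 2 :=
  inflFun₂_mem_levelCocycles F.C F.𝒰 U hU ⟨_, F.cupDeltaLevel_mem U n χ hχ x⟩

/-- **Character formula** on level cohomology: `inv (x ∪ δχ) = χ (rec x)`. -/
theorem inv_cupDelta (U : Subgroup Γ) [U.Normal] (hU : U ∈ F.𝒰.levels) (n : ℕ) [NeZero n]
    (χ : Γ ⧸ U → ZMod n) (hχ : ∀ q q', χ (q * q') = χ q + χ q') (x : F.C.ρ.invariants)
    (s : Γ ⧸ U) (hs : F.recMap U hU x = Additive.ofMul (Abelianization.of s)) :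
    F.inv (F.𝒰.classMk F.C 2 ⟨F.cupDeltaFun U n χ x, F.cupDeltaFun_mem U hU n χ hχ x⟩) =
      ((((χ s).val : ℚ) / (n : ℚ) : ℚ) : AddCircle (1 : ℚ)) := by
  letI := levelFintype F.𝒰 U hU
  have h1 := F.inv_classMk_inflFun₂ U hU ⟨_, F.cupDeltaLevel_mem U n χ hχ x⟩
  refine h1.trans ?_
  exact (F.isLayer U hU).inv_cupCoc_deltaChi n χ hχ (F.toLevel_mem_invariants U x) s hs

/-! ### Norm residue criterion modulo `p` -/

/-- `rec x` is divisible by `p` in `(Γ ⧸ U)^ab` iff `x` is `p` times an invariant plus a norm. -/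
theorem recMap_mem_smul_iff (U : Subgroup Γ) [U.Normal] (hU : U ∈ F.𝒰.levels) (p : ℕ)
    (x : F.C.ρ.invariants) :
    (∃ z : Additive (Abelianization (Γ ⧸ U)), F.recMap U hU x = p • z) ↔
      letI := levelFintype F.𝒰 U hU
      ∃ (y : F.C.ρ.invariants) (c : F.C.quotientToInvariants U),
        F.toLevel U x = p • F.toLevel U y + (F.C.quotientToInvariants U).ρ.norm c := by
  letI := levelFintype F.𝒰 U hU
  constructor
  · rintro ⟨z, hz⟩
    obtain ⟨y, rfl⟩ := F.recMap_surjective U hU z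
    have h0 : F.recMap U hU (x - p • y) = 0 := by
      rw [map_sub, map_nsmul, hz, sub_self]
    obtain ⟨c, hc⟩ := (F.recMap_eq_zero_iff U hU _).1 h0
    refine ⟨y, c, ?_⟩
    rw [hc, ← toLevelHom_apply, ← toLevelHom_apply, ← toLevelHom_apply, map_sub, map_nsmul]
    abel
  · rintro ⟨y, c, hyc⟩
    refine ⟨F.recMap U hU y, ?_⟩
    have h0 : F.recMap U hU (x - p • y) = 0 := by
      rw [recMap_eq_zero_iff]
      refine ⟨c, ?_⟩
      rw [← toLevelHom_apply, map_sub, map_nsmul, toLevelHom_apply, toLevelHom_apply, hyc]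
      abel
    rw [map_sub, map_nsmul, sub_eq_zero] at h0
    exact h0

/-- **Norm residue criterion**: `x ∈ C^Γ` is `p` times an invariant plus a norm from `C^U` iff
`χ (rec x) = 0` for all characters `χ` of `(Γ ⧸ U)^ab` of order `p`. -/
theorem forall_addChar_recMap_eq_zero_iff (U : Subgroup Γ) [U.Normal] (hU : U ∈ F.𝒰.levels)
    (p : ℕ) [Fact p.Prime] (x : F.C.ρ.invariants) :
    (∀ χ : Additive (Abelianization (Γ ⧸ U)) →+ ZMod p, χ (F.recMap U hU x) = 0) ↔
      letI := levelFintype F.𝒰 U hU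
      ∃ (y : F.C.ρ.invariants) (c : F.C.quotientToInvariants U),
        F.toLevel U x = p • F.toLevel U y + (F.C.quotientToInvariants U).ρ.norm c := by
  rw [← exists_eq_nsmul_iff_forall_addChar, ← F.recMap_mem_smul_iff U hU p x]

end Formation

end Fermat.Agent.Lib.CFT.Coh.ClassFormation
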