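import Mathlib
import Fermat.Agent.Lib.CFT.Coh.ClassFormation.Formation
import Fermat.Agent.Lib.CFT.Profinite.Cores

/-!
# Restriction and corestriction between class formations
(P-CFT, WP Coh/ClassFormation, helper7)

Let `F` be a class formation on `Γ`, `F'` a class formation on `Γ'`, `f : Γ' →* Γ` a compatible
homomorphism and `φ : res f F.C ⟶ F'.C`.  If on a cofinal system of normal levels `U` of `Γ` the
pull-back of the fundamental cocycle `u_U` is cohomologous to the fundamental cocycle of `F'` at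
the level `f⁻¹ U`, and `[Γ : U] = d [Γ' : f⁻¹ U]` (`IsResCompat`), then
* `IsResCompat.inv_map`: `inv' (f^* x) = d • inv x`;
* `IsResCompat.map_surjective`: `f^* : H²(𝒰, C) → H²(𝒰', C')` is surjective.
For an open subgroup `V` of `Γ` and a formation on `V` with level family `restrict 𝒰 V` and module
`res C` (`FormationOn`), this gives `inv_V (res x) = [Γ : V] • inv x` and
`inv (cores y) = inv_V y`.
-/

set_option autoImplicit false
set_option linter.unusedSectionVars false
set_option linter.style.haveILetI false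

universe u

namespace Fermat.Agent.Lib.CFT.Coh.ClassFormation

open Fermat.Agent.Lib.CFT.Profinite CategoryTheory groupCohomology

section Layer

variable {k G Q V V' : Type*} [CommRing k] [Group G] [Fintype G] [Group Q] [Fintype Q]
  [AddCommGroup V] {_ : Module k V} [AddCommGroup V'] {_ : Module k V'}
variable {ρ : Representation k G V} {ρ' : Representation k Q V'}
variable {u : G × G → V} {u' : Q × Q → V'}

/-- General compatibility of the invariant maps with pull-back along a homomorphism `π : G → Q`: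
if the pull-back of `u'` is `e • u` in `H²` and `e |Q| = d |G|`, then
`inv_G (π^* x') = d • inv_Q x'`.  (Inflation: `e = |ker π|`, `d = 1`; restriction: `e = 1`,
`d = [Q : G]`.) -/
theorem IsRecLayer.inv_infCoc_of_eq (h : IsRecLayer ρ u) (h' : IsRecLayer ρ' u') (π : G →* Q)
    (j : V' →+ V) (hj : ∀ g v, j (ρ' (π g) v) = ρ g (j v)) (e : ℤ)
    (b : G → V) (hinf : infCoc π j u' = (e : k) • u + dOne ρ b) (d : ℕ)
    (hd : e * (Fintype.card Q : ℤ) = (d : ℤ) * (Fintype.card G : ℤ))
    {x' : Q × Q → V'} (hx' : IsCoc2 ρ' x') :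
    h.inv (infCoc π j x') (hx'.inf π j hj) = d • h'.inv x' hx' := by
  obtain ⟨m, b', hm⟩ := h'.gen x' hx'
  rw [h'.inv_eq hx' m b' hm, h.inv_eq (hx'.inf π j hj) (m * e)
    ((m : k) • b + fun g => j (b' (π g)))]
  · rw [← QuotientAddGroup.mk_nsmul]
    congr 1
    have hQ := IsRecLayer.card_ne_zero' (G := Q)
    have hG := IsRecLayer.card_ne_zero' (G := G)
    have hd' : (e : ℚ) * (Fintype.card Q : ℚ) = (d : ℚ) * (Fintype.card G : ℚ) := by
      exact_mod_cast hd
    rw [nsmul_eq_mul]
    push_cast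
    field_simp
    linear_combination (m : ℚ) * hd'
  · rw [hm, infCoc_add, infCoc_smul, infCoc_dOne π j hj, hinf, dOne_add, dOne_smul, smul_add,
      Int.cast_mul, mul_smul]
    abel

end Layer

section Maps

variable {k Γ Γ' : Type u} [CommRing k] [Group Γ] [Group Γ']
variable {C : Rep.{u} k Γ} {C' : Rep.{u} k Γ'}

/-- The map of finite levels `Γ' ⧸ U' → Γ ⧸ U` induced by `f : Γ' →* Γ` when `U' ≤ f⁻¹ U`. -/
abbrev pairLevelMap (f : Γ' →* Γ) (U : Subgroup Γ) [U.Normal] (U' : Subgroup Γ') [U'.Normal]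
    (hle : U' ≤ U.comap f) : Γ' ⧸ U' →* Γ ⧸ U :=
  QuotientGroup.map U' U f hle

theorem pairLevelMap_mk (f : Γ' →* Γ) (U : Subgroup Γ) [U.Normal] (U' : Subgroup Γ') [U'.Normal]
    (hle : U' ≤ U.comap f) (g : Γ') :
    pairLevelMap f U U' hle (g : Γ' ⧸ U') = ((f g : Γ) : Γ ⧸ U) := rfl

theorem pairLevelMap_injective (f : Γ' →* Γ) (U : Subgroup Γ) [U.Normal] (U' : Subgroup Γ')
    [U'.Normal] (hle : U' ≤ U.comap f) (hge : U.comap f ≤ U') :
    Function.Injective (pairLevelMap f U U' hle) := by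
  rw [injective_iff_map_eq_one]
  intro x
  induction x using QuotientGroup.induction_on with
  | H g =>
    intro hg
    rw [pairLevelMap_mk, QuotientGroup.eq_one_iff] at hg
    exact (QuotientGroup.eq_one_iff g).2 (hge hg)

/-- The map `C^U → C'^{U'}` induced by `φ : res f C ⟶ C'` when `U' ≤ f⁻¹ U`. -/
def pairLevelHom (f : Γ' →* Γ) (φ : Rep.res f C ⟶ C') (U : Subgroup Γ) [U.Normal]
    (U' : Subgroup Γ') [U'.Normal] (hle : U' ≤ U.comap f) :
    C.quotientToInvariants U →+ C'.quotientToInvariants U' where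
  toFun c := ⟨φ.hom c.1, fun s => by
    have h1 := Rep.hom_comm_apply φ s.1 c.1
    have h2 : C.ρ (f s.1) c.1 = c.1 := c.2 ⟨f s.1, hle s.2⟩
    exact h1.symm.trans (congrArg φ.hom h2)⟩
  map_zero' := by
    apply Subtype.ext
    exact map_zero φ.hom
  map_add' c c' := by
    apply Subtype.ext
    exact map_add φ.hom c.1 c'.1

@[simp] theorem pairLevelHom_coe (f : Γ' →* Γ) (φ : Rep.res f C ⟶ C') (U : Subgroup Γ)
    [U.Normal] (U' : Subgroup Γ') [U'.Normal] (hle : U' ≤ U.comap f)
    (c : C.quotientToInvariants U) : (pairLevelHom f φ U U' hle c).1 = φ.hom c.1 := rfl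

theorem pairLevelHom_equivariant (f : Γ' →* Γ) (φ : Rep.res f C ⟶ C') (U : Subgroup Γ)
    [U.Normal] (U' : Subgroup Γ') [U'.Normal] (hle : U' ≤ U.comap f) (q : Γ' ⧸ U')
    (c : C.quotientToInvariants U) :
    pairLevelHom f φ U U' hle ((C.quotientToInvariants U).ρ (pairLevelMap f U U' hle q) c) =
      (C'.quotientToInvariants U').ρ q (pairLevelHom f φ U U' hle c) := by
  induction q using QuotientGroup.induction_on with
  | H g =>
    apply Subtype.ext
    exact Rep.hom_comm_apply φ g c.1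

/-- The map of finite levels `Γ' ⧸ f⁻¹ U → Γ ⧸ U` induced by `f : Γ' →* Γ`. -/
abbrev comapLevelMap (f : Γ' →* Γ) (U : Subgroup Γ) [U.Normal] : Γ' ⧸ U.comap f →* Γ ⧸ U :=
  pairLevelMap f U (U.comap f) le_rfl

theorem comapLevelMap_mk (f : Γ' →* Γ) (U : Subgroup Γ) [U.Normal] (g : Γ') :
    comapLevelMap f U (g : Γ' ⧸ U.comap f) = ((f g : Γ) : Γ ⧸ U) := rfl

theorem comapLevelMap_injective (f : Γ' →* Γ) (U : Subgroup Γ) [U.Normal] :
    Function.Injective (comapLevelMap f U) :=
  pairLevelMap_injective f U (U.comap f) le_rfl le_rfl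

/-- The map `C^U → C'^{f⁻¹ U}` induced by `φ : res f C ⟶ C'`. -/
abbrev comapLevelHom (f : Γ' →* Γ) (φ : Rep.res f C ⟶ C') (U : Subgroup Γ) [U.Normal] :
    C.quotientToInvariants U →+ C'.quotientToInvariants (U.comap f) :=
  pairLevelHom f φ U (U.comap f) le_rfl

theorem comapLevelHom_coe (f : Γ' →* Γ) (φ : Rep.res f C ⟶ C') (U : Subgroup Γ) [U.Normal]
    (c : C.quotientToInvariants U) : (comapLevelHom f φ U c).1 = φ.hom c.1 := rfl

theorem comapLevelHom_equivariant (f : Γ' →* Γ) (φ : Rep.res f C ⟶ C') (U : Subgroup Γ)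
    [U.Normal] (q : Γ' ⧸ U.comap f) (c : C.quotientToInvariants U) :
    comapLevelHom f φ U ((C.quotientToInvariants U).ρ (comapLevelMap f U q) c) =
      (C'.quotientToInvariants (U.comap f)).ρ q (comapLevelHom f φ U c) :=
  pairLevelHom_equivariant f φ U (U.comap f) le_rfl q c

end Maps

section ResCompat

variable {k Γ Γ' : Type u} [CommRing k] [Group Γ] [Group Γ']

/-- Compatibility of two class formations along `f : Γ' →* Γ` and `φ : res f F.C ⟶ F'.C`, with
degree `d`: there is a cofinal system of pairs `(U, U')` of normal levels of `Γ` and `Γ'` with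
`U' ≤ f⁻¹ U` and `[Γ : U] = d [Γ' : U']` such that the pull-back of the fundamental cocycle at `U`
is cohomologous to the fundamental cocycle of `F'` at `U'`. -/
structure IsResCompat (F : Formation k Γ) (F' : Formation k Γ') (f : Γ' →* Γ)
    (φ : Rep.res f F.C ⟶ F'.C) (d : ℕ) : Prop where
  cofinal : ∀ U₀ ∈ F.𝒰.levels, ∀ W ∈ F'.𝒰.levels,
    ∃ (U : Subgroup Γ) (_ : U.Normal) (hU : U ∈ F.𝒰.levels) (U' : Subgroup Γ') (_ : U'.Normal)
      (hU' : U' ∈ F'.𝒰.levels) (hle : U' ≤ U.comap f),
      U ≤ U₀ ∧ U' ≤ W ∧ U.index = d * U'.index ∧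
      ∃ b : Γ' ⧸ U' → F'.C.quotientToInvariants U',
        infCoc (pairLevelMap f U U' hle) (pairLevelHom f φ U U' hle) (F.u U hU) =
          F'.u U' hU' + dOne (F'.C.quotientToInvariants U').ρ b

variable {F : Formation k Γ} {F' : Formation k Γ'} {f : Γ' →* Γ} {φ : Rep.res f F.C ⟶ F'.C}
  {d : ℕ}

/-- The pull-back of an inflated cocycle is the inflation of the pulled-back cocycle. -/
theorem levelCocyclesMap_inflFun₂ (hf : LevelFamily.IsCompatible F'.𝒰 F.𝒰 f) (U : Subgroup Γ)
    [U.Normal] (hU : U ∈ F.𝒰.levels) (U' : Subgroup Γ') [U'.Normal] (hle : U' ≤ U.comap f)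
    (c : cocycles₂ (F.C.quotientToInvariants U)) :
    (LevelFamily.levelCocyclesMap f hf φ 2
      ⟨inflFun₂ F.C U c.1, inflFun₂_mem_levelCocycles F.C F.𝒰 U hU c⟩).1 =
      inflFun₂ F'.C U' (infCoc (pairLevelMap f U U' hle) (pairLevelHom f φ U U' hle) c.1) := by
  rw [LevelFamily.levelCocyclesMap_coe]
  rfl

/-- The pull-back of an inflated class, as the inflation of the pulled-back cocycle. -/
theorem map_inflH_H2π (hf : LevelFamily.IsCompatible F'.𝒰 F.𝒰 f) (U : Subgroup Γ)
    [U.Normal] (hU : U ∈ F.𝒰.levels) (U' : Subgroup Γ') [U'.Normal] (hU' : U' ∈ F'.𝒰.levels)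
    (hle : U' ≤ U.comap f) (c : cocycles₂ (F.C.quotientToInvariants U))
    (hc' : infCoc (pairLevelMap f U U' hle) (pairLevelHom f φ U U' hle) c.1 ∈
      cocycles₂ (F'.C.quotientToInvariants U')) :
    (LES.map f hf φ 2).hom ((F.𝒰.inflH F.C U hU 2).hom
        ((H2π (F.C.quotientToInvariants U)).hom c)) =
      (F'.𝒰.inflH F'.C U' hU' 2).hom
        ((H2π (F'.C.quotientToInvariants U')).hom ⟨_, hc'⟩) := by
  rw [inflH_H2π, inflH_H2π, LES.map, LevelFamily.levelCohomologyMapOfHom_classMk]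
  exact congrArg _ (Subtype.ext (levelCocyclesMap_inflFun₂ hf U hU U' hle c))

theorem isCoc2_pair (U : Subgroup Γ) [U.Normal] (U' : Subgroup Γ') [U'.Normal]
    (hle : U' ≤ U.comap f) {x : (Γ ⧸ U) × (Γ ⧸ U) → F.C.quotientToInvariants U}
    (hx : IsCoc2 (F.C.quotientToInvariants U).ρ x) :
    IsCoc2 (F'.C.quotientToInvariants U').ρ
      (infCoc (pairLevelMap f U U' hle) (pairLevelHom f φ U U' hle) x) :=
  hx.inf (pairLevelMap f U U' hle) (pairLevelHom f φ U U' hle)
    (pairLevelHom_equivariant f φ U U' hle)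

/-- **Restriction multiplies invariants by the degree**: `inv' (f^* x) = d • inv x`. -/
theorem IsResCompat.inv_map (h : IsResCompat F F' f φ d)
    (hf : LevelFamily.IsCompatible F'.𝒰 F.𝒰 f) (x : F.𝒰.levelCohomology F.C 2) :
    F'.inv ((LES.map f hf φ 2).hom x) = d • F.inv x := by
  obtain ⟨U₀, hU₀⟩ := F.𝒰.nonempty
  obtain ⟨U₁, hU₁, hn₁, -, y₁, rfl⟩ := LevelFamily.exists_inflH_eq 2 x hU₀
  obtain ⟨W₀, hW₀⟩ := F'.𝒰.nonempty
  obtain ⟨U, hn, hU, U', hn', hU', hle', hle, -, hidx, b, hb⟩ := h.cofinal U₁ hU₁ W₀ hW₀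
  rw [← CompatFamily.inflH_inflLevelsH hU₁ hU hle y₁]
  obtain ⟨c, hc⟩ := H2π_surjective _ ((inflLevelsH F.C U₁ U hle 2).hom y₁)
  rw [← hc]
  have hcoc := isCoc2_of_mem_cocycles₂ c.2
  have hcoc' := isCoc2_pair (F' := F') (f := f) (φ := φ) U U' hle' hcoc
  rw [map_inflH_H2π hf U hU U' hU' hle' c (mem_cocycles₂_of_isCoc2 hcoc'), Formation.inv_inflH,
    Formation.inv_inflH]
  letI := levelFintype F.𝒰 U hU
  letI := levelFintype F'.𝒰 U' hU'
  have e1 : F'.invLevel U' hU'
      ((H2π (F'.C.quotientToInvariants U')).hom ⟨_, mem_cocycles₂_of_isCoc2 hcoc'⟩) =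
      (F'.isLayer U' hU').inv _ hcoc' :=
    (F'.isLayer U' hU').invH2_H2π ⟨_, mem_cocycles₂_of_isCoc2 hcoc'⟩
  have e2 : F.invLevel U hU ((H2π (F.C.quotientToInvariants U)).hom c) =
      (F.isLayer U hU).inv c.1 hcoc := (F.isLayer U hU).invH2_H2π c
  rw [e1, e2]
  refine (F'.isLayer U' hU').inv_infCoc_of_eq (F.isLayer U hU) (pairLevelMap f U U' hle')
    (pairLevelHom f φ U U' hle') (pairLevelHom_equivariant f φ U U' hle') 1 b ?_ d ?_ hcoc
  · rw [hb, Int.cast_one, one_smul]
  · have h1 : Fintype.card (Γ ⧸ U) = U.index := by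
      rw [Subgroup.index_eq_card, Nat.card_eq_fintype_card]
    have h2 : Fintype.card (Γ' ⧸ U') = U'.index := by
      rw [Subgroup.index_eq_card, Nat.card_eq_fintype_card]
    rw [h1, h2, hidx]
    push_cast
    ring

/-- **Restriction is surjective on `H²`** of class formations. -/
theorem IsResCompat.map_surjective (h : IsResCompat F F' f φ d)
    (hf : LevelFamily.IsCompatible F'.𝒰 F.𝒰 f) :
    Function.Surjective (LES.map f hf φ 2).hom := by
  intro y
  obtain ⟨W₀, hW₀⟩ := F'.𝒰.nonempty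
  obtain ⟨W, hW, hnW, -, z, rfl⟩ := LevelFamily.exists_inflH_eq 2 y hW₀
  obtain ⟨U₀, hU₀⟩ := F.𝒰.nonempty
  obtain ⟨U, hn, hU, U', hn', hU', -, -, hleW, hidx, -⟩ := h.cofinal U₀ hU₀ W hW
  rw [← CompatFamily.inflH_inflLevelsH hW hU' hleW z]
  obtain ⟨c', hc'⟩ := H2π_surjective _ ((inflLevelsH F'.C W U' hleW 2).hom z)
  rw [← hc']
  letI := levelFintype F'.𝒰 U' hU'
  obtain ⟨m, b', hm⟩ := (F'.isLayer U' hU').gen c'.1 (isCoc2_of_mem_cocycles₂ c'.2)
  refine ⟨m • F.fundClassLevel U hU, F'.inv_injective ?_⟩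
  rw [h.inv_map hf, map_zsmul, F.inv_fundClassLevel, Formation.inv_inflH]
  have e1 : F'.invLevel U' hU'
      ((H2π (F'.C.quotientToInvariants U')).hom c') =
      (F'.isLayer U' hU').inv c'.1 (isCoc2_of_mem_cocycles₂ c'.2) :=
    (F'.isLayer U' hU').invH2_H2π c'
  rw [e1, (F'.isLayer U' hU').inv_eq _ m b' hm, ← QuotientAddGroup.mk_zsmul,
    ← QuotientAddGroup.mk_nsmul]
  congr 1
  have h2 : Fintype.card (Γ' ⧸ U') = U'.index := by
    rw [Subgroup.index_eq_card, Nat.card_eq_fintype_card]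
  have hfi := F.𝒰.finiteIndex U hU
  have hU0 : (U.index : ℚ) ≠ 0 := by exact_mod_cast Subgroup.FiniteIndex.index_ne_zero
  have hd0 : (d : ℚ) ≠ 0 := by
    rintro h0
    apply hU0
    rw [hidx]
    push_cast
    rw [h0, zero_mul]
  have hI0 : (U'.index : ℚ) ≠ 0 := by
    rintro h0
    apply hU0
    rw [hidx]
    push_cast
    rw [h0, mul_zero]
  rw [h2, hidx, nsmul_eq_mul, zsmul_eq_mul]
  push_cast
  field_simp

end ResCompat

/-! ### Formations with prescribed level family and module -/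

section On

variable {k Γ : Type u} [CommRing k] [Group Γ]

/-- A class formation with prescribed level family `𝒰` and module `C` (the remaining fields of
`Formation`). -/
structure FormationOn (𝒰 : LevelFamily Γ) (C : Rep.{u} k Γ) where
  discrete : 𝒰.IsDiscrete C
  /-- the fundamental cocycles at the normal levels -/
  u : ∀ (U : Subgroup Γ) [U.Normal], U ∈ 𝒰.levels →
    (Γ ⧸ U) × (Γ ⧸ U) → C.quotientToInvariants U
  isLayer : ∀ (U : Subgroup Γ) [U.Normal] (hU : U ∈ 𝒰.levels),
    letI := levelFintype 𝒰 U hU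
    IsRecLayer (C.quotientToInvariants U).ρ (u U hU)
  infl : ∀ (U U' : Subgroup Γ) [U.Normal] [U'.Normal] (hU : U ∈ 𝒰.levels) (hU' : U' ∈ 𝒰.levels)
    (hle : U' ≤ U), ∃ b : Γ ⧸ U' → C.quotientToInvariants U',
      infCoc (levelMap U U' hle)
        ((invariantsInclusion C U U' hle).hom.toLinearMap :
          C.quotientToInvariants U →+ C.quotientToInvariants U') (u U hU) =
      ((Nat.card (levelMap U U' hle).ker : ℤ) : k) • u U' hU' +
        dOne (C.quotientToInvariants U').ρ b

/-- The bundled formation. -/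
def FormationOn.toFormation {𝒰 : LevelFamily Γ} {C : Rep.{u} k Γ} (F : FormationOn 𝒰 C) :
    Formation k Γ where
  𝒰 := 𝒰
  C := C
  discrete := F.discrete
  u := F.u
  isLayer := F.isLayer
  infl := F.infl

/-- A formation as a formation on its own level family and module. -/
def Formation.toOn (F : Formation k Γ) : FormationOn F.𝒰 F.C where
  discrete := F.discrete
  u := F.u
  isLayer := F.isLayer
  infl := F.infl

@[simp] theorem Formation.toOn_toFormation (F : Formation k Γ) : F.toOn.toFormation = F := rfl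

@[simp] theorem FormationOn.toFormation_𝒰 {𝒰 : LevelFamily Γ} {C : Rep.{u} k Γ}
    (F : FormationOn 𝒰 C) : F.toFormation.𝒰 = 𝒰 := rfl

@[simp] theorem FormationOn.toFormation_C {𝒰 : LevelFamily Γ} {C : Rep.{u} k Γ}
    (F : FormationOn 𝒰 C) : F.toFormation.C = C := rfl

end On

section Comap

variable {k Γ Γ' : Type u} [CommRing k] [Group Γ] [Group Γ']

/-- Compatibility of formations along `f`, when the level family of the source is the pull-back
of that of the target: it suffices to compare the fundamental cocycles below a fixed level. -/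
theorem IsResCompat.of_comap (F : Formation k Γ) (f : Γ' →* Γ) {C' : Rep.{u} k Γ'}
    (φ : Rep.res f F.C ⟶ C') (F' : FormationOn (LES.comap F.𝒰 f) C') (d : ℕ)
    (Ub : Subgroup Γ) (hUb : Ub ∈ F.𝒰.levels)
    (hidx : ∀ (U : Subgroup Γ) [U.Normal], U ∈ F.𝒰.levels → U ≤ Ub →
      U.index = d * (U.comap f).index)
    (hres : ∀ (U : Subgroup Γ) [U.Normal] (hU : U ∈ F.𝒰.levels), U ≤ Ub →
      ∃ b : Γ' ⧸ U.comap f → C'.quotientToInvariants (U.comap f),
        infCoc (comapLevelMap f U) (comapLevelHom f φ U) (F.u U hU) =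
          F'.u (U.comap f) (LES.comap_mem_comap_levels f hU) +
            dOne (C'.quotientToInvariants (U.comap f)).ρ b) :
    IsResCompat F F'.toFormation f φ d where
  cofinal U₀ hU₀ W hW := by
    obtain ⟨U₁, hU₁, rfl⟩ := LES.mem_comap_levels.1 hW
    obtain ⟨U₂, hU₂, h20, h21, -⟩ := F.𝒰.exists_normal_le_inf hU₀ hU₁
    obtain ⟨U, hU, hU2, hUb', hn⟩ := F.𝒰.exists_normal_le_inf hU₂ hUb
    haveI := hn
    exact ⟨U, hn, hU, U.comap f, inferInstance, LES.comap_mem_comap_levels f hU, le_rfl,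
      hU2.trans h20, Subgroup.comap_mono (hU2.trans h21), hidx U hU hUb', hres U hU hUb'⟩

end Comap

section Subgroup

variable {k Γ : Type u} [CommRing k] [Group Γ]

/-- Compatibility of a formation on `Γ` with a formation on an open subgroup `V`: it suffices that
for the normal levels `U ≤ V` of `Γ` the restriction of the fundamental cocycle at `U` to `V ⧸ U`
is cohomologous to the fundamental cocycle of the formation on `V`. -/
theorem IsResCompat.of_subgroup (F : Formation k Γ) (V : Subgroup Γ)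
    (hV : LES.IsOpenSubgroup F.𝒰 V)
    (F' : FormationOn (LES.restrict F.𝒰 V) (Rep.res V.subtype F.C))
    (hres : ∀ (U : Subgroup Γ) [U.Normal] (hU : U ∈ F.𝒰.levels), U ≤ V →
      ∃ b : V ⧸ U.comap V.subtype →
          (Rep.res V.subtype F.C).quotientToInvariants (U.comap V.subtype),
        infCoc (comapLevelMap V.subtype U)
            (comapLevelHom V.subtype (𝟙 (Rep.res V.subtype F.C)) U) (F.u U hU) =
          F'.u (U.comap V.subtype) (LES.comap_mem_comap_levels V.subtype hU) +
            dOne ((Rep.res V.subtype F.C).quotientToInvariants (U.comap V.subtype)).ρ b) :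
    IsResCompat F F'.toFormation V.subtype (𝟙 (Rep.res V.subtype F.C)) V.index := by
  obtain ⟨Ub, hUb, hUbV⟩ := hV
  refine IsResCompat.of_comap F V.subtype (𝟙 _) F' V.index Ub hUb ?_ ?_
  · intro U _ hU hle
    have h1 : (U.comap V.subtype).index = U.relIndex V := rfl
    rw [h1, mul_comm]
    exact (Subgroup.relIndex_mul_index (hle.trans hUbV)).symm
  · intro U _ hU hle
    exact hres U hU (hle.trans hUbV)

variable (F : Formation k Γ) (V : Subgroup Γ)
  (F' : FormationOn (LES.restrict F.𝒰 V) (Rep.res V.subtype F.C))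

/-- **Restriction to an open subgroup multiplies invariants by the index**:
`inv_V (res x) = [Γ : V] • inv x`. -/
theorem Formation.inv_res (h : IsResCompat F F'.toFormation V.subtype (𝟙 _) V.index)
    (x : F.𝒰.levelCohomology F.C 2) :
    F'.toFormation.inv ((LES.res F.𝒰 V F.C 2).hom x) = V.index • F.inv x :=
  h.inv_map (LES.isCompatible_comap F.𝒰 V.subtype) x

/-- Restriction to an open subgroup is surjective on `H²` of a class formation. -/
theorem Formation.res_surjective (h : IsResCompat F F'.toFormation V.subtype (𝟙 _) V.index) :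
    Function.Surjective (LES.res F.𝒰 V F.C 2).hom :=
  h.map_surjective (LES.isCompatible_comap F.𝒰 V.subtype)

/-- **Corestriction preserves invariants**: `inv (cores y) = inv_V y`. -/
theorem Formation.inv_cores (h : IsResCompat F F'.toFormation V.subtype (𝟙 _) V.index)
    (hV : LES.IsOpenSubgroup F.𝒰 V)
    (y : (LES.restrict F.𝒰 V).levelCohomology (Rep.res V.subtype F.C) 2) :
    F.inv ((LES.cores hV F.discrete 2).hom y) = F'.toFormation.inv y := by
  obtain ⟨x, rfl⟩ := Formation.res_surjective F V F' h y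
  rw [LES.cores_res_apply, map_nsmul, Formation.inv_res F V F' h]

end Subgroup

end Fermat.Agent.Lib.CFT.Coh.ClassFormation
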