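import Mathlib
import Fermat.Agent.Lib.CFT.Coh.TateThm.RecLayer
import Fermat.Agent.Lib.CFT.Coh.ClassFormation.Restrict

/-!
# Restriction of a class formation to an open subgroup
(P-CFT, WP Coh/ClassFormation, helper7)

* `isClassLayer_pullback`: a class layer `(G, A, u)` pulls back along an injective homomorphism
  `ι : G' → G` and an additive equivalence `T : A ≃+ A'` with `T (ι q • a) = q • T a`.
* `Formation.restrictU`, `Formation.restrictOn`: for a formation `F` on `Γ`, a subgroup `W` and a
  level family `𝒰'` of `W` all of whose levels are of the form `U.subgroupOf W` with `U ≤ W` a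
  normal level of `Γ`, the pulled-back fundamental cocycles form a formation on `W` with level
  family `𝒰'` and module `res W F.C` (definitionally), provided the pulled-back layers are
  reciprocity layers; the compatibility `IsResCompat` holds by construction.
* `ClassFormation`: a formation over `ℤ` all of whose layers are class layers (for all subgroups);
  `ClassFormation.restrictOn`.
-/

set_option autoImplicit false
set_option linter.unusedSectionVars false
set_option linter.style.haveILetI false
set_option linter.dupNamespace false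

namespace Fermat.Agent.Lib.CFT.Coh.ClassFormation

open Fermat.Agent.Lib.CFT.Profinite CategoryTheory groupCohomology
open Fermat.Agent.Lib.CFT.Coh.TateThm

/-! ### Pull-back of class layers -/

section Pullback

variable {G G' A A' : Type} [Group G] [Group G'] [AddCommGroup A] [AddCommGroup A']
  {ρ : Representation ℤ G A} {ρ' : Representation ℤ G' A'} {u : G × G → A}

/-- Pull-back of an element-level class layer along an injective homomorphism and an equivariant
additive equivalence. -/
theorem isClassLayerAll_pullback (h : IsClassLayerAll ρ u) (ι : G' →* G)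
    (hι : Function.Injective ι) (T : A ≃+ A') (hT : ∀ q a, T (ρ (ι q) a) = ρ' q (T a)) :
    IsClassLayerAll ρ' (fun p => T (u (ι p.1, ι p.2))) := by
  have hu : IsCoc2 ρ u := (mem_cocycles₂_iff (A := Rep.of ρ) u).1 h.1
  have hTs : ∀ q a', T.symm (ρ' q a') = ρ (ι q) (T.symm a') := fun q a' => by
    apply T.injective
    rw [hT, T.apply_symm_apply, T.apply_symm_apply]
  refine ⟨(mem_cocycles₂_iff (A := Rep.of ρ') _).2 fun g h k => ?_, fun H _ _ φ hφ => ?_⟩
  · show T (u (ι (g * h), ι k)) + T (u (ι g, ι h)) =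
      ρ' g (T (u (ι h, ι k))) + T (u (ι g, ι (h * k)))
    rw [map_mul, map_mul, ← map_add, hu, map_add, hT]
  · have hAt := h.2 H (ι.comp φ) (hι.comp hφ)
    refine ⟨fun a ha => ?_, fun a ha => ?_, fun m b hb => ?_⟩
    · obtain ⟨c, hc⟩ := hAt.h1 (fun x => T.symm (a x)) (fun x y => by
        show T.symm (a (x * y)) = ρ (ι (φ x)) (T.symm (a y)) + T.symm (a x)
        rw [ha, map_add, hTs])
      refine ⟨T c, fun x => ?_⟩
      have := congrArg T (hc x)
      simp only [MonoidHom.comp_apply, map_sub, hT, T.apply_symm_apply] at this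
      exact this
    · obtain ⟨m, b, hb⟩ := hAt.h2 (fun p => T.symm (a p)) (fun x y z => by
        show T.symm (a (x * y, z)) + T.symm (a (x, y)) =
          ρ (ι (φ x)) (T.symm (a (y, z))) + T.symm (a (x, y * z))
        rw [← map_add, ha, map_add, hTs])
      refine ⟨m, fun x => T (b x), fun x y => ?_⟩
      have := congrArg T (hb x y)
      simp only [MonoidHom.comp_apply, map_add, map_sub, map_zsmul, hT,
        T.apply_symm_apply] at this
      exact this
    · refine hAt.hord m (fun x => T.symm (b x)) (fun x y => ?_)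
      have := congrArg T.symm (hb x y)
      simp only [map_add, map_sub, map_zsmul, hTs, T.symm_apply_apply] at this
      exact this

end Pullback

section OfAll

variable {G : Type} [Group G] [Finite G] {A : Type} [AddCommGroup A]
  {ρ : Representation ℤ G A} {u : G × G → A}

/-- From the element-level formulation of a class layer to the cohomological one. -/
theorem isClassLayer_of_all (h : IsClassLayerAll ρ u) : IsClassLayer (Rep.of ρ) u := by
  classical
  refine ⟨h.1, fun H => ?_, fun H x => ?_, fun H m hm => ?_⟩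
  · letI : Fintype H := Fintype.ofFinite _
    apply isZero_H1_of_forall
    intro y hy
    exact (h.2 H H.subtype H.subtype_injective).h1 y hy
  · letI : Fintype H := Fintype.ofFinite _
    obtain ⟨c, rfl⟩ := (ModuleCat.epi_iff_surjective
      (H2π (Rep.res H.subtype (Rep.of ρ)))).1 inferInstance x
    obtain ⟨m, b, hb⟩ := (h.2 H H.subtype H.subtype_injective).h2 c.1
      ((mem_cocycles₂_iff (A := Rep.res H.subtype (Rep.of ρ)) c.1).1 c.2)
    refine ⟨m, ?_⟩
    rw [← map_zsmul, H2π_eq_iff]
    refine ⟨b, funext fun p => ?_⟩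
    have := hb p.1 p.2
    simp only [d₁₂_hom_apply]
    show _ = c.1 p - m • u ((p.1 : G), (p.2 : G))
    rw [show c.1 p = c.1 (p.1, p.2) from rfl, this]
    simp only [Subgroup.coe_subtype, MonoidHom.comp_apply]
    abel
  · letI : Fintype H := Fintype.ofFinite _
    rw [← map_zsmul, H2π_eq_zero_iff] at hm
    obtain ⟨b, hb⟩ := hm
    have := (h.2 H H.subtype H.subtype_injective).hord m b (fun g k => by
      have := congrArg (fun f => f (g, k)) hb
      simp only [d₁₂_hom_apply] at this
      exact this.symm)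
    rwa [← Nat.card_eq_fintype_card] at this

end OfAll

section PullbackRep

variable {G G' : Type} [Group G] [Group G'] [Finite G']

/-- **Pull-back of a class layer** along an injective homomorphism `ι : G' → G` and an additive
equivalence `T : A ≃+ A'` of the modules with `T (ι q • a) = q • T a`. -/
theorem isClassLayer_pullback {A : Rep.{0} ℤ G} {A' : Rep.{0} ℤ G'} {u : G × G → A}
    (h : IsClassLayer A u) (ι : G' →* G) (hι : Function.Injective ι) (T : A ≃+ A')
    (hT : ∀ q a, T (A.ρ (ι q) a) = A'.ρ q (T a)) :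
    IsClassLayer A' (fun p => T (u (ι p.1, ι p.2))) := by
  induction A using rep_int_induction with
  | h A ρ =>
    induction A' using rep_int_induction with
    | h A' ρ' => exact isClassLayer_of_all (isClassLayerAll_pullback h.all ι hι T hT)

end PullbackRep

/-! ### Restriction of the fundamental cocycles (generic coefficient ring) -/

section Generic

universe u

variable {k Γ : Type u} [CommRing k] [Group Γ]

/-- Inflation-compatibility of a family of 2-cochains on the finite levels (the field `infl` of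
`Formation`). -/
def InflCompat (𝒰 : LevelFamily Γ) (C : Rep.{u} k Γ)
    (u : ∀ (U : Subgroup Γ) [U.Normal], U ∈ 𝒰.levels →
      (Γ ⧸ U) × (Γ ⧸ U) → C.quotientToInvariants U) : Prop :=
  ∀ (U U' : Subgroup Γ) [U.Normal] [U'.Normal] (hU : U ∈ 𝒰.levels) (hU' : U' ∈ 𝒰.levels)
    (hle : U' ≤ U), ∃ b : Γ ⧸ U' → C.quotientToInvariants U',
      infCoc (levelMap U U' hle)
        ((invariantsInclusion C U U' hle).hom.toLinearMap :
          C.quotientToInvariants U →+ C.quotientToInvariants U') (u U hU) =
      ((Nat.card (levelMap U U' hle).ker : ℤ) : k) • u U' hU' +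
        dOne (C.quotientToInvariants U').ρ b

theorem Formation.inflCompat (F : Formation k Γ) : InflCompat F.𝒰 F.C F.u := F.infl

/-- A level family on the subgroup `W` all of whose levels are `U.subgroupOf W` for a normal
level `U ≤ W` of `𝒰`. -/
def IsSubFamily (𝒰 : LevelFamily Γ) (W : Subgroup Γ) (𝒰' : LevelFamily W) : Prop :=
  ∀ U' ∈ 𝒰'.levels, ∃ U ∈ 𝒰.levels, U.Normal ∧ U ≤ W ∧ U' = U.subgroupOf W

variable {𝒰 : LevelFamily Γ} {W : Subgroup Γ} {𝒰' : LevelFamily W}

theorem IsSubFamily.map_mem (h : IsSubFamily 𝒰 W 𝒰') {U' : Subgroup W} (hU' : U' ∈ 𝒰'.levels) :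
    U'.map W.subtype ∈ 𝒰.levels := by
  obtain ⟨U, hU, -, hle, rfl⟩ := h U' hU'
  rwa [Subgroup.map_subgroupOf_eq_of_le hle]

theorem IsSubFamily.map_normal (h : IsSubFamily 𝒰 W 𝒰') {U' : Subgroup W}
    (hU' : U' ∈ 𝒰'.levels) : (U'.map W.subtype).Normal := by
  obtain ⟨U, -, hn, hle, rfl⟩ := h U' hU'
  rwa [Subgroup.map_subgroupOf_eq_of_le hle]

theorem IsSubFamily.normal (h : IsSubFamily 𝒰 W 𝒰') {U' : Subgroup W}
    (hU' : U' ∈ 𝒰'.levels) : U'.Normal := by
  obtain ⟨U, -, hn, hle, rfl⟩ := h U' hU'
  haveI := hn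
  infer_instance

theorem comap_map_subtype (U' : Subgroup W) : (U'.map W.subtype).comap W.subtype = U' :=
  Subgroup.comap_map_eq_self_of_injective W.subtype_injective U'

/-- The inclusion `W ⧸ U' → Γ ⧸ U`, `U` the image of `U'` in `Γ`. -/
abbrev subLevelMap (W : Subgroup Γ) (U' : Subgroup W) [U'.Normal] [(U'.map W.subtype).Normal] :
    W ⧸ U' →* Γ ⧸ U'.map W.subtype :=
  pairLevelMap W.subtype (U'.map W.subtype) U' (Subgroup.le_comap_map W.subtype U')

theorem subLevelMap_injective (W : Subgroup Γ) (U' : Subgroup W) [U'.Normal]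
    [(U'.map W.subtype).Normal] : Function.Injective (subLevelMap W U') :=
  pairLevelMap_injective W.subtype (U'.map W.subtype) U' _ (comap_map_subtype U').le

/-- The identification `C^U ≃ (res C)^{U'}`, `U` the image of `U'` in `Γ`. -/
noncomputable def subLevelEquiv (C : Rep.{u} k Γ) (W : Subgroup Γ) (U' : Subgroup W) [U'.Normal]
    [(U'.map W.subtype).Normal] :
    C.quotientToInvariants (U'.map W.subtype) ≃+
      (Rep.res W.subtype C).quotientToInvariants U' where
  toFun := pairLevelHom W.subtype (𝟙 (Rep.res W.subtype C)) (U'.map W.subtype) U'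
    (Subgroup.le_comap_map W.subtype U')
  invFun c' := ⟨c'.1, fun s => by
    obtain ⟨s', hs', hs⟩ := Subgroup.mem_map.1 s.2
    have := c'.2 ⟨s', hs'⟩
    have h2 : (⟨s.1, s.2⟩ : U'.map W.subtype) = s := rfl
    show C.ρ s.1 c'.1 = c'.1
    rw [← hs]
    exact this⟩
  left_inv _ := rfl
  right_inv _ := rfl
  map_add' := map_add _

@[simp] theorem subLevelEquiv_coe (C : Rep.{u} k Γ) (W : Subgroup Γ) (U' : Subgroup W) [U'.Normal]
    [(U'.map W.subtype).Normal] (c : C.quotientToInvariants (U'.map W.subtype)) :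
    (subLevelEquiv C W U' c).1 = c.1 := rfl

theorem subLevelEquiv_equivariant (C : Rep.{u} k Γ) (W : Subgroup Γ) (U' : Subgroup W)
    [U'.Normal] [(U'.map W.subtype).Normal] (q : W ⧸ U')
    (c : C.quotientToInvariants (U'.map W.subtype)) :
    subLevelEquiv C W U'
        ((C.quotientToInvariants (U'.map W.subtype)).ρ (subLevelMap W U' q) c) =
      ((Rep.res W.subtype C).quotientToInvariants U').ρ q (subLevelEquiv C W U' c) :=
  pairLevelHom_equivariant W.subtype (𝟙 (Rep.res W.subtype C)) (U'.map W.subtype) U' _ q c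

theorem levelMap_subLevelMap (U'₁ U'₂ : Subgroup W) [U'₁.Normal] [U'₂.Normal]
    [(U'₁.map W.subtype).Normal] [(U'₂.map W.subtype).Normal] (hle' : U'₂ ≤ U'₁)
    (q : W ⧸ U'₂) :
    levelMap (U'₁.map W.subtype) (U'₂.map W.subtype) (Subgroup.map_mono hle')
        (subLevelMap W U'₂ q) =
      subLevelMap W U'₁ (levelMap U'₁ U'₂ hle' q) := by
  induction q using QuotientGroup.induction_on with
  | H g => rfl

theorem card_ker_levelMap_sub (U'₁ U'₂ : Subgroup W) [U'₁.Normal] [U'₂.Normal]
    [(U'₁.map W.subtype).Normal] [(U'₂.map W.subtype).Normal] (hle' : U'₂ ≤ U'₁) :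
    Nat.card (levelMap (U'₁.map W.subtype) (U'₂.map W.subtype) (Subgroup.map_mono hle')).ker =
      Nat.card (levelMap U'₁ U'₂ hle').ker := by
  symm
  refine Nat.card_congr (Equiv.ofBijective
    (fun q : (levelMap U'₁ U'₂ hle').ker =>
      (⟨subLevelMap W U'₂ q.1, by
        rw [MonoidHom.mem_ker, levelMap_subLevelMap U'₁ U'₂ hle', (MonoidHom.mem_ker).1 q.2, map_one]⟩ :
        (levelMap (U'₁.map W.subtype) (U'₂.map W.subtype) (Subgroup.map_mono hle')).ker))
    ⟨fun q q' hqq' => ?_, fun x => ?_⟩)
  · apply Subtype.ext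
    exact subLevelMap_injective W U'₂ (congrArg Subtype.val hqq')
  · obtain ⟨x, hx⟩ := x
    induction x using QuotientGroup.induction_on with
    | H γ =>
      have hγ : γ ∈ U'₁.map W.subtype := by
        rw [MonoidHom.mem_ker] at hx
        exact (QuotientGroup.eq_one_iff γ).1 hx
      obtain ⟨w, hw, rfl⟩ := Subgroup.mem_map.1 hγ
      refine ⟨⟨(w : W ⧸ U'₂), ?_⟩, rfl⟩
      rw [MonoidHom.mem_ker]
      exact (QuotientGroup.eq_one_iff w).2 hw

variable {C : Rep.{u} k Γ}

/-- The restriction to `W` of a family of 2-cochains on the finite levels of `Γ`. -/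
noncomputable def restrictU
    (v : ∀ (U : Subgroup Γ) [U.Normal], U ∈ 𝒰.levels →
      (Γ ⧸ U) × (Γ ⧸ U) → C.quotientToInvariants U)
    (h : IsSubFamily 𝒰 W 𝒰') :
    ∀ (U' : Subgroup W) [U'.Normal], U' ∈ 𝒰'.levels →
      (W ⧸ U') × (W ⧸ U') → (Rep.res W.subtype C).quotientToInvariants U' :=
  fun U' _ hU' =>
    haveI := h.map_normal hU'
    infCoc (subLevelMap W U') (subLevelEquiv C W U').toAddMonoidHom (v (U'.map W.subtype) (h.map_mem hU'))

theorem restrictU_apply
    (v : ∀ (U : Subgroup Γ) [U.Normal], U ∈ 𝒰.levels →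
      (Γ ⧸ U) × (Γ ⧸ U) → C.quotientToInvariants U)
    (h : IsSubFamily 𝒰 W 𝒰') (U' : Subgroup W) [U'.Normal] (hU' : U' ∈ 𝒰'.levels) :
    restrictU v h U' hU' =
      haveI := h.map_normal hU'
      infCoc (subLevelMap W U') (subLevelEquiv C W U').toAddMonoidHom
        (v (U'.map W.subtype) (h.map_mem hU')) := rfl

/-- Inflation-compatibility is inherited by the restricted family. -/
theorem InflCompat.restrictU
    {v : ∀ (U : Subgroup Γ) [U.Normal], U ∈ 𝒰.levels →
      (Γ ⧸ U) × (Γ ⧸ U) → C.quotientToInvariants U}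
    (hv : InflCompat 𝒰 C v) (h : IsSubFamily 𝒰 W 𝒰') :
    InflCompat 𝒰' (Rep.res W.subtype C) (restrictU v h) := by
  intro U'₁ U'₂ _ _ hU'₁ hU'₂ hle'
  haveI := h.map_normal hU'₁
  haveI := h.map_normal hU'₂
  obtain ⟨b, hb⟩ := hv (U'₁.map W.subtype) (U'₂.map W.subtype) (h.map_mem hU'₁) (h.map_mem hU'₂)
    (Subgroup.map_mono hle')
  refine ⟨fun q => (subLevelEquiv C W U'₂).toAddMonoidHom (b (subLevelMap W U'₂ q)), ?_⟩
  have key := congrArg (infCoc (subLevelMap W U'₂) (subLevelEquiv C W U'₂).toAddMonoidHom) hb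
  rw [infCoc_add, infCoc_smul, infCoc_dOne (subLevelMap W U'₂) (subLevelEquiv C W U'₂).toAddMonoidHom
    (fun g v => subLevelEquiv_equivariant C W U'₂ g v), card_ker_levelMap_sub U'₁ U'₂ hle'] at key
  rw [restrictU_apply, restrictU_apply]
  refine Eq.trans ?_ key
  funext ⟨x, y⟩
  simp only [infCoc_apply]
  rw [levelMap_subLevelMap U'₁ U'₂ hle', levelMap_subLevelMap U'₁ U'₂ hle']
  rfl

end Generic

/-! ### Restriction of a formation (generic coefficient ring) -/

section RestrictOn

universe u

variable {k Γ : Type u} [CommRing k] [Group Γ]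

/-- Cofinality of the subordinate family: every level of `𝒰` contains the image of a level of
`𝒰'`. -/
def IsCofinalSub (𝒰 : LevelFamily Γ) (W : Subgroup Γ) (𝒰' : LevelFamily W) : Prop :=
  ∀ U₀ ∈ 𝒰.levels, ∃ U' ∈ 𝒰'.levels, U'.map W.subtype ≤ U₀

variable {𝒰 : LevelFamily Γ} {W : Subgroup Γ} {𝒰' : LevelFamily W}

theorem IsCofinalSub.isCompatible (hcof : IsCofinalSub 𝒰 W 𝒰') :
    LevelFamily.IsCompatible 𝒰' 𝒰 W.subtype := fun U₀ hU₀ => by
  obtain ⟨U', hU', hle⟩ := hcof U₀ hU₀
  exact ⟨U', hU', (Subgroup.le_comap_map W.subtype U').trans (Subgroup.comap_mono hle)⟩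

theorem IsSubFamily.isCompatible_restrict (h : IsSubFamily 𝒰 W 𝒰') :
    LevelFamily.IsCompatible (LES.restrict 𝒰 W) 𝒰' (MonoidHom.id W) := fun U' hU' => by
  obtain ⟨U, hU, -, -, rfl⟩ := h U' hU'
  exact ⟨U.comap W.subtype, LES.comap_mem_comap_levels W.subtype hU, le_rfl⟩

theorem IsCofinalSub.isDiscrete_res (hcof : IsCofinalSub 𝒰 W 𝒰') {C : Rep.{u} k Γ}
    (hd : 𝒰.IsDiscrete C) : 𝒰'.IsDiscrete (Rep.res W.subtype C) := by
  intro m
  obtain ⟨U₀, hU₀, hfix⟩ := hd m
  obtain ⟨U', hU', hle⟩ := hcof U₀ hU₀
  exact ⟨U', hU', fun s hs => hfix s (hle (Subgroup.mem_map_of_mem W.subtype hs))⟩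

variable (F : Formation k Γ) (W) (𝒰')

/-- **Restriction of a formation** to the subgroup `W`, with a level family `𝒰'` subordinate to
and cofinal among the normal levels `≤ W` of `F`, provided the pulled-back layers are reciprocity
layers.  The level family is `𝒰'` and the module `res W F.C`, definitionally. -/
noncomputable def Formation.restrictOn (h : IsSubFamily F.𝒰 W 𝒰') (hcof : IsCofinalSub F.𝒰 W 𝒰')
    (hlayer : ∀ (U' : Subgroup W) [U'.Normal] (hU' : U' ∈ 𝒰'.levels),
      letI := levelFintype 𝒰' U' hU'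
      IsRecLayer ((Rep.res W.subtype F.C).quotientToInvariants U').ρ (restrictU F.u h U' hU')) :
    FormationOn 𝒰' (Rep.res W.subtype F.C) where
  discrete := hcof.isDiscrete_res F.discrete
  u := restrictU F.u h
  isLayer := hlayer
  infl := F.inflCompat.restrictU h

variable {W 𝒰'}

theorem Formation.restrictOn_u (h : IsSubFamily F.𝒰 W 𝒰') (hcof : IsCofinalSub F.𝒰 W 𝒰')
    (hlayer : ∀ (U' : Subgroup W) [U'.Normal] (hU' : U' ∈ 𝒰'.levels),
      letI := levelFintype 𝒰' U' hU'
      IsRecLayer ((Rep.res W.subtype F.C).quotientToInvariants U').ρ (restrictU F.u h U' hU')) :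
    (F.restrictOn W 𝒰' h hcof hlayer).u = restrictU F.u h := rfl

/-- The restricted formation is compatible with the original one, by construction. -/
theorem Formation.isResCompat_restrictOn (h : IsSubFamily F.𝒰 W 𝒰')
    (hcof : IsCofinalSub F.𝒰 W 𝒰')
    (hlayer : ∀ (U' : Subgroup W) [U'.Normal] (hU' : U' ∈ 𝒰'.levels),
      letI := levelFintype 𝒰' U' hU'
      IsRecLayer ((Rep.res W.subtype F.C).quotientToInvariants U').ρ (restrictU F.u h U' hU')) :
    IsResCompat F (F.restrictOn W 𝒰' h hcof hlayer).toFormation W.subtype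
      (𝟙 (Rep.res W.subtype F.C)) W.index where
  cofinal U₀ hU₀ W' hW' := by
    obtain ⟨U'₀, hU'₀, hle₀⟩ := hcof U₀ hU₀
    obtain ⟨U', hU', hle'⟩ := 𝒰'.directed U'₀ hU'₀ W' hW'
    have hn' := h.normal hU'
    have hn := h.map_normal hU'
    refine ⟨U'.map W.subtype, hn, h.map_mem hU', U', hn', hU', Subgroup.le_comap_map W.subtype U',
      (Subgroup.map_mono (hle'.trans inf_le_left)).trans hle₀, hle'.trans inf_le_right, ?_,
      fun _ => 0, ?_⟩
    · have h1 : U'.index = (U'.map W.subtype).relIndex W := by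
        rw [Subgroup.relIndex, Subgroup.subgroupOf, comap_map_subtype]
      rw [h1, mul_comm]
      exact (Subgroup.relIndex_mul_index (Subgroup.map_subtype_le U')).symm
    · have hz : dOne ((Rep.res W.subtype F.C).quotientToInvariants U').ρ
          (fun _ : W ⧸ U' => (0 : (Rep.res W.subtype F.C).quotientToInvariants U')) = 0 := by
        funext p
        simp [dOne]
      show infCoc (pairLevelMap W.subtype (U'.map W.subtype) U' _)
          (pairLevelHom W.subtype (𝟙 (Rep.res W.subtype F.C)) (U'.map W.subtype) U' _)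
          (F.u (U'.map W.subtype) (h.map_mem hU')) =
        restrictU F.u h U' hU' +
          dOne ((Rep.res W.subtype F.C).quotientToInvariants U').ρ
            (fun _ : W ⧸ U' => (0 : (Rep.res W.subtype F.C).quotientToInvariants U'))
      rw [hz, add_zero]
      rfl

section Cores

variable (hs : IsSubFamily F.𝒰 W 𝒰') (hcof : IsCofinalSub F.𝒰 W 𝒰')
  (hlayer : ∀ (U' : Subgroup W) [U'.Normal] (hU' : U' ∈ 𝒰'.levels),
    letI := levelFintype 𝒰' U' hU'
    IsRecLayer ((Rep.res W.subtype F.C).quotientToInvariants U').ρ (restrictU F.u hs U' hU'))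

/-- Restriction `H²(𝒰, C) → H²(𝒰', res C)` multiplies invariants by the index. -/
theorem Formation.inv_restrictOn_map (x : F.𝒰.levelCohomology F.C 2) :
    (F.restrictOn W 𝒰' hs hcof hlayer).toFormation.inv
        ((LES.map W.subtype hcof.isCompatible (𝟙 (Rep.res W.subtype F.C)) 2).hom x) =
      W.index • F.inv x :=
  (F.isResCompat_restrictOn hs hcof hlayer).inv_map hcof.isCompatible x

include hs hlayer in
/-- Restriction `H²(𝒰, C) → H²(𝒰', res C)` is surjective. -/
theorem Formation.restrictOn_map_surjective :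
    Function.Surjective
      (LES.map W.subtype hcof.isCompatible (𝟙 (Rep.res W.subtype F.C)) 2).hom :=
  (F.isResCompat_restrictOn hs hcof hlayer).map_surjective hcof.isCompatible

/-- The comparison map from the level cohomology of `𝒰'` to that of the full restricted family,
composed with the restriction from `Γ`, is the restriction map `LES.res`. -/
theorem map_comp_compare (x : F.𝒰.levelCohomology F.C 2) :
    (LES.map (MonoidHom.id W) hs.isCompatible_restrict (𝟙 (Rep.res W.subtype F.C)) 2).hom
        ((LES.map W.subtype hcof.isCompatible (𝟙 (Rep.res W.subtype F.C)) 2).hom x) =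
      (LES.res F.𝒰 W F.C 2).hom x := by
  have h1 := LES.map_comp (𝒰 := F.𝒰) (𝒰' := 𝒰') (𝒰'' := LES.restrict F.𝒰 W)
    (M := F.C) (M' := Rep.res W.subtype F.C) (M'' := Rep.res W.subtype F.C)
    W.subtype hcof.isCompatible (𝟙 (Rep.res W.subtype F.C)) (MonoidHom.id W)
    hs.isCompatible_restrict (𝟙 (Rep.res W.subtype F.C)) 2
  have h2 := congr($h1 x)
  simp only [ModuleCat.hom_comp, LinearMap.coe_comp, Function.comp_apply] at h2
  rw [← h2]
  rfl

/-- **Corestriction preserves invariants**, for the restricted formation on an arbitrary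
subordinate cofinal level family `𝒰'` of `W`: `inv (cores (κ y)) = inv_W y`, where `κ` is the
comparison map to the level cohomology of `restrict 𝒰 W`. -/
theorem Formation.inv_cores_restrictOn (hW : LES.IsOpenSubgroup F.𝒰 W)
    (y : 𝒰'.levelCohomology (Rep.res W.subtype F.C) 2) :
    F.inv ((LES.cores hW F.discrete 2).hom
        ((LES.map (MonoidHom.id W) hs.isCompatible_restrict
          (𝟙 (Rep.res W.subtype F.C)) 2).hom y)) =
      (F.restrictOn W 𝒰' hs hcof hlayer).toFormation.inv y := by
  obtain ⟨x, rfl⟩ := F.restrictOn_map_surjective hs hcof hlayer y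
  rw [map_comp_compare F hs hcof, LES.cores_res_apply, map_nsmul,
    F.inv_restrictOn_map hs hcof hlayer]

end Cores

end RestrictOn

/-! ### Class formations over `ℤ` with class layers -/

section ClassFormationZ

/-- A class formation over `ℤ` all of whose layers are class layers in the sense of Tate's
theorem (`H¹ = 0` and `H²` cyclic of the right order generated by the restricted fundamental
class, for every subgroup of every finite layer). -/
structure ClassFormation (Γ : Type) [Group Γ] where
  /-- the levels -/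
  𝒰 : LevelFamily Γ
  /-- the formation module -/
  C : Rep.{0} ℤ Γ
  discrete : 𝒰.IsDiscrete C
  /-- the fundamental cocycles at the normal levels -/
  u : ∀ (U : Subgroup Γ) [U.Normal], U ∈ 𝒰.levels →
    (Γ ⧸ U) × (Γ ⧸ U) → C.quotientToInvariants U
  isClassLayer : ∀ (U : Subgroup Γ) [U.Normal] (hU : U ∈ 𝒰.levels),
    IsClassLayer (C.quotientToInvariants U) (u U hU)
  infl : InflCompat 𝒰 C u

namespace ClassFormation

variable {Γ : Type} [Group Γ] (F : ClassFormation Γ)

/-- The underlying formation (Tate's theorem at every layer). -/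
noncomputable def toFormation : Formation ℤ Γ where
  𝒰 := F.𝒰
  C := F.C
  discrete := F.discrete
  u := F.u
  isLayer U _ hU := by
    letI := levelFintype F.𝒰 U hU
    exact (F.isClassLayer U hU).isRecLayer
  infl := F.infl

@[simp] theorem toFormation_𝒰 : F.toFormation.𝒰 = F.𝒰 := rfl

@[simp] theorem toFormation_C : F.toFormation.C = F.C := rfl

@[simp] theorem toFormation_u : F.toFormation.u = F.u := rfl

variable (W : Subgroup Γ) (𝒰' : LevelFamily W)

theorem isClassLayer_restrictU (hs : IsSubFamily F.𝒰 W 𝒰') (U' : Subgroup W) [U'.Normal]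
    (hU' : U' ∈ 𝒰'.levels) :
    IsClassLayer ((Rep.res W.subtype F.C).quotientToInvariants U')
      (restrictU F.u hs U' hU') := by
  haveI := hs.map_normal hU'
  haveI := 𝒰'.finiteIndex U' hU'
  haveI : Finite (W ⧸ U') := Subgroup.finite_quotient_of_finiteIndex
  exact isClassLayer_pullback (F.isClassLayer (U'.map W.subtype) (hs.map_mem hU'))
    (subLevelMap W U') (subLevelMap_injective W U') (subLevelEquiv F.C W U')
    (subLevelEquiv_equivariant F.C W U')

/-- **Restriction of a class formation** to the subgroup `W`, with a level family `𝒰'` on `W`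
subordinate to and cofinal among the normal levels `≤ W` of `F`.  The level family is `𝒰'` and the
module `res W F.C`, definitionally; the fundamental cocycles are the pull-backs of those of `F`. -/
noncomputable def restrictOn (hs : IsSubFamily F.𝒰 W 𝒰') (hcof : IsCofinalSub F.𝒰 W 𝒰') :
    ClassFormation W where
  𝒰 := 𝒰'
  C := Rep.res W.subtype F.C
  discrete := hcof.isDiscrete_res F.discrete
  u := restrictU F.u hs
  isClassLayer U' _ hU' := F.isClassLayer_restrictU W 𝒰' hs U' hU'
  infl := F.infl.restrictU hs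

variable {W 𝒰'}

@[simp] theorem restrictOn_𝒰 (hs : IsSubFamily F.𝒰 W 𝒰') (hcof : IsCofinalSub F.𝒰 W 𝒰') :
    (F.restrictOn W 𝒰' hs hcof).𝒰 = 𝒰' := rfl

@[simp] theorem restrictOn_C (hs : IsSubFamily F.𝒰 W 𝒰') (hcof : IsCofinalSub F.𝒰 W 𝒰') :
    (F.restrictOn W 𝒰' hs hcof).C = Rep.res W.subtype F.C := rfl

theorem restrictOn_u (hs : IsSubFamily F.𝒰 W 𝒰') (hcof : IsCofinalSub F.𝒰 W 𝒰') :
    (F.restrictOn W 𝒰' hs hcof).u = restrictU F.u hs := rfl

/-- The restricted class formation is compatible with the original one, by construction. -/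
theorem isResCompat_restrictOn (hs : IsSubFamily F.𝒰 W 𝒰') (hcof : IsCofinalSub F.𝒰 W 𝒰') :
    IsResCompat F.toFormation (F.restrictOn W 𝒰' hs hcof).toFormation W.subtype
      (𝟙 (Rep.res W.subtype F.C)) W.index :=
  F.toFormation.isResCompat_restrictOn hs hcof
    (fun U' _ hU' => (F.restrictOn W 𝒰' hs hcof).toFormation.isLayer U' hU')

/-- Restriction `H²(𝒰, C) → H²(𝒰', res C)` multiplies invariants by the index. -/
theorem inv_restrictOn_map (hs : IsSubFamily F.𝒰 W 𝒰') (hcof : IsCofinalSub F.𝒰 W 𝒰')
    (x : F.𝒰.levelCohomology F.C 2) :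
    (F.restrictOn W 𝒰' hs hcof).toFormation.inv
        ((LES.map W.subtype hcof.isCompatible (𝟙 (Rep.res W.subtype F.C)) 2).hom x) =
      W.index • F.toFormation.inv x :=
  (F.isResCompat_restrictOn hs hcof).inv_map hcof.isCompatible x

/-- Restriction `H²(𝒰, C) → H²(𝒰', res C)` is surjective. -/
theorem restrictOn_map_surjective (hs : IsSubFamily F.𝒰 W 𝒰') (hcof : IsCofinalSub F.𝒰 W 𝒰') :
    Function.Surjective
      (LES.map W.subtype hcof.isCompatible (𝟙 (Rep.res W.subtype F.C)) 2).hom :=
  (F.isResCompat_restrictOn hs hcof).map_surjective hcof.isCompatible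

/-- **Corestriction preserves invariants**: `inv (cores (κ y)) = inv_W y`, where `κ` is the
comparison map from the level cohomology of `𝒰'` to that of `restrict 𝒰 W`. -/
theorem inv_cores_restrictOn (hs : IsSubFamily F.𝒰 W 𝒰') (hcof : IsCofinalSub F.𝒰 W 𝒰')
    (hW : LES.IsOpenSubgroup F.𝒰 W) (y : 𝒰'.levelCohomology (Rep.res W.subtype F.C) 2) :
    F.toFormation.inv ((LES.cores hW F.discrete 2).hom
        ((LES.map (MonoidHom.id W) hs.isCompatible_restrict
          (𝟙 (Rep.res W.subtype F.C)) 2).hom y)) =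
      (F.restrictOn W 𝒰' hs hcof).toFormation.inv y :=
  F.toFormation.inv_cores_restrictOn hs hcof
    (fun U' _ hU' => (F.restrictOn W 𝒰' hs hcof).toFormation.isLayer U' hU') hW y

end ClassFormation

end ClassFormationZ

end Fermat.Agent.Lib.CFT.Coh.ClassFormation
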