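import Mathlib
import Fermat.Agent.Lib.CFT.Coh.ClassFormation.RestrictFormation

/-!
# Building class formations from compatible classes in `H²`
(P-CFT, WP Coh/ClassFormation, helper7)

* `inflCompat_of_H2π`: if the classes of the 2-cocycles `u_U` satisfy
  `infl [u_U] = [U : U'] • [u_U']` in `H²(Γ ⧸ U', C^{U'})` then the family is inflation-compatible
  at cocycle level (`InflCompat`, the field `infl` of `Formation` / `ClassFormation`).
* `ClassFormation.ofGenerators`: a class formation from a compatible family of classes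
  `g_U ∈ H²(Γ ⧸ U, C^U)` all of whose representatives are fundamental cocycles of class layers.
-/

set_option autoImplicit false
set_option linter.unusedSectionVars false
set_option linter.style.haveILetI false
set_option linter.dupNamespace false

namespace Fermat.Agent.Lib.CFT.Coh.ClassFormation

open Fermat.Agent.Lib.CFT.Profinite CategoryTheory groupCohomology
open Fermat.Agent.Lib.CFT.Coh.TateThm

section Generic

universe u

variable {k Γ : Type u} [CommRing k] [Group Γ]

/-- The order of the kernel of `Γ ⧸ U' → Γ ⧸ U` is `[U : U']`: `|ker| * [Γ : U] = [Γ : U']`. -/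
theorem levelMap_ker_card_mul_index (U U' : Subgroup Γ) [U.Normal] [U'.Normal] (hle : U' ≤ U)
    [U'.FiniteIndex] :
    Nat.card (levelMap U U' hle).ker * U.index = U'.index := by
  have h1 := Subgroup.card_mul_index (levelMap U U' hle).ker
  rw [Subgroup.index_ker, MonoidHom.range_eq_top.2 (levelMap_surjective U U' hle),
    Subgroup.card_top] at h1
  rw [Subgroup.index_eq_card U, Subgroup.index_eq_card U']
  exact h1

/-- **From classes to cocycles**: a family of 2-cocycles on the finite levels whose classes are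
compatible with inflation, `infl [u_U] = |ker (Γ ⧸ U' → Γ ⧸ U)| • [u_U']`, is inflation-compatible
at cocycle level. -/
theorem inflCompat_of_H2π (𝒰 : LevelFamily Γ) (C : Rep.{u} k Γ)
    (v : ∀ (U : Subgroup Γ) [U.Normal], U ∈ 𝒰.levels →
      (Γ ⧸ U) × (Γ ⧸ U) → C.quotientToInvariants U)
    (hv : ∀ (U : Subgroup Γ) [U.Normal] (hU : U ∈ 𝒰.levels),
      v U hU ∈ cocycles₂ (C.quotientToInvariants U))
    (h : ∀ (U U' : Subgroup Γ) [U.Normal] [U'.Normal] (hU : U ∈ 𝒰.levels) (hU' : U' ∈ 𝒰.levels)
      (hle : U' ≤ U),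
      (inflLevelsH C U U' hle 2).hom ((H2π (C.quotientToInvariants U)).hom ⟨v U hU, hv U hU⟩) =
        Nat.card (levelMap U U' hle).ker •
          (H2π (C.quotientToInvariants U')).hom ⟨v U' hU', hv U' hU'⟩) :
    InflCompat 𝒰 C v := by
  intro U U' _ _ hU hU' hle
  have e := congr($(H2π_comp_map (levelMap U U' hle) (invariantsInclusion C U U' hle))
    ⟨v U hU, hv U hU⟩)
  simp only [ModuleCat.hom_comp, LinearMap.coe_comp, Function.comp_apply] at e
  have h1 := h U U' hU hU' hle
  have h2 : (H2π (C.quotientToInvariants U')).hom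
      ((mapCocycles₂ (levelMap U U' hle) (invariantsInclusion C U U' hle)).hom
        ⟨v U hU, hv U hU⟩) =
      (H2π (C.quotientToInvariants U')).hom
        (Nat.card (levelMap U U' hle).ker • ⟨v U' hU', hv U' hU'⟩) := by
    rw [map_nsmul]
    exact e.symm.trans h1
  rw [H2π_eq_iff] at h2
  obtain ⟨b, hb⟩ := h2
  refine ⟨b, ?_⟩
  have hb' : dOne (C.quotientToInvariants U').ρ b =
      infCoc (levelMap U U' hle)
        ((invariantsInclusion C U U' hle).hom.toLinearMap :
          C.quotientToInvariants U →+ C.quotientToInvariants U') (v U hU) -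
      Nat.card (levelMap U U' hle).ker • v U' hU' := hb
  rw [hb', Int.cast_natCast, Nat.cast_smul_eq_nsmul]
  abel

end Generic

section Build

/-- A representing cocycle of a class in `H²`. -/
noncomputable def repCocycle {G : Type} [Group G] {A : Rep.{0} ℤ G} (g : groupCohomology.H2 A) :
    cocycles₂ A :=
  Classical.choose (H2π_surjective A g)

theorem H2π_repCocycle {G : Type} [Group G] {A : Rep.{0} ℤ G} (g : groupCohomology.H2 A) :
    (H2π A).hom (repCocycle g) = g :=
  Classical.choose_spec (H2π_surjective A g)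

variable {Γ : Type} [Group Γ]

/-- **A class formation from a compatible family of fundamental classes**: classes
`g_U ∈ H²(Γ ⧸ U, C^U)` at the normal levels with `infl g_U = [U : U'] • g_U'`, such that every
cocycle representing `g_U` is the fundamental cocycle of a class layer. -/
noncomputable def ClassFormation.ofGenerators (𝒰 : LevelFamily Γ) (C : Rep.{0} ℤ Γ)
    (hd : 𝒰.IsDiscrete C)
    (g : ∀ (U : Subgroup Γ) [U.Normal], U ∈ 𝒰.levels →
      groupCohomology.H2 (C.quotientToInvariants U))
    (hcl : ∀ (U : Subgroup Γ) [U.Normal] (hU : U ∈ 𝒰.levels)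
      (c : cocycles₂ (C.quotientToInvariants U)),
      (H2π (C.quotientToInvariants U)).hom c = g U hU →
        IsClassLayer (C.quotientToInvariants U) c.1)
    (hinfl : ∀ (U U' : Subgroup Γ) [U.Normal] [U'.Normal] (hU : U ∈ 𝒰.levels)
      (hU' : U' ∈ 𝒰.levels) (hle : U' ≤ U),
      (inflLevelsH C U U' hle 2).hom (g U hU) =
        Nat.card (levelMap U U' hle).ker • g U' hU') :
    ClassFormation Γ where
  𝒰 := 𝒰
  C := C
  discrete := hd
  u U _ hU := (repCocycle (g U hU)).1
  isClassLayer U _ hU := hcl U hU (repCocycle (g U hU)) (H2π_repCocycle _)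
  infl := inflCompat_of_H2π 𝒰 C _ (fun U _ hU => (repCocycle (g U hU)).2)
    (fun U U' _ _ hU hU' hle => by
      have h1 : (⟨(repCocycle (g U hU)).1, (repCocycle (g U hU)).2⟩ :
          cocycles₂ (C.quotientToInvariants U)) = repCocycle (g U hU) := rfl
      have h2 : (⟨(repCocycle (g U' hU')).1, (repCocycle (g U' hU')).2⟩ :
          cocycles₂ (C.quotientToInvariants U')) = repCocycle (g U' hU') := rfl
      rw [h1, h2, H2π_repCocycle, H2π_repCocycle]
      exact hinfl U U' hU hU' hle)

@[simp] theorem ClassFormation.ofGenerators_𝒰 (𝒰 : LevelFamily Γ) (C : Rep.{0} ℤ Γ)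
    (hd : 𝒰.IsDiscrete C) (g) (hcl) (hinfl) :
    (ClassFormation.ofGenerators 𝒰 C hd g hcl hinfl).𝒰 = 𝒰 := rfl

@[simp] theorem ClassFormation.ofGenerators_C (𝒰 : LevelFamily Γ) (C : Rep.{0} ℤ Γ)
    (hd : 𝒰.IsDiscrete C) (g) (hcl) (hinfl) :
    (ClassFormation.ofGenerators 𝒰 C hd g hcl hinfl).C = C := rfl

/-- The class of the fundamental cocycle of `ofGenerators` is the given class. -/
theorem ClassFormation.H2π_ofGenerators_u (𝒰 : LevelFamily Γ) (C : Rep.{0} ℤ Γ)
    (hd : 𝒰.IsDiscrete C) (g) (hcl) (hinfl) (U : Subgroup Γ) [U.Normal] (hU : U ∈ 𝒰.levels) :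
    (H2π (C.quotientToInvariants U)).hom
      ⟨(ClassFormation.ofGenerators 𝒰 C hd g hcl hinfl).u U hU,
        ((ClassFormation.ofGenerators 𝒰 C hd g hcl hinfl).isClassLayer U hU).cocycle⟩ =
      g U hU :=
  H2π_repCocycle (g U hU)

end Build

end Fermat.Agent.Lib.CFT.Coh.ClassFormation
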