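/-
Functorialities of the reciprocity map of a class-formation layer (P-CFT, WP
Coh/ClassFormation/Functorial, helper41), on top of helper7's `Nakayama`, `Character`, `Layer`.

* `IsRecLayer.recHom : A^G →+ G^ab`: surjective with kernel the norm group;
* norm functoriality: `rec_G (N_{G/H} a) = (H^ab → G^ab) (rec_H a)` for `a ∈ A^H`;
* transfer functoriality (abstract form): `rec_H a = ∑ i, [c i]` for `a ∈ A^G` with
  `rec_G a = [g]` and `(x i)⁻¹ g x (π i) = c i` (the `c i` compute the transfer of `g`);
* `IsRecLayer.recEquiv_res_eq_transfer`: the same with Mathlib's `MonoidHom.transfer`, for a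
  subgroup `H ≤ G`;
* `IsRecLayer.recEquiv_quotientToInvariants`, `IsRecLayer.norm_limitation_quotientToInvariants`:
  the quotient compatibility of `Layer.lean` specialised to `G ⧸ N` acting on `V^N`.
-/
import Mathlib
import Fermat.Agent.Lib.CFT.Coh.ClassFormation.Layer

set_option autoImplicit false
set_option linter.unusedSectionVars false

namespace Fermat.Agent.Lib.CFT.Coh.ClassFormation

open Finset

section RecHom

variable {k G V : Type*} [CommRing k] [Group G] [Fintype G] [AddCommGroup V] {_ : Module k V}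
variable {ρ : Representation k G V} {u : G × G → V}

namespace IsRecLayer

/-- The reciprocity homomorphism `A^G →+ G^ab` of a layer. -/
noncomputable def recHom (h : IsRecLayer ρ u) : ρ.invariants →+ Additive (Abelianization G) :=
  h.recEquiv.toAddMonoidHom.comp (normSub ρ).mkQ.toAddMonoidHom

theorem recHom_apply (h : IsRecLayer ρ u) (a : ρ.invariants) :
    h.recHom a = h.recEquiv (tateZeroMk ρ a.1 a.2) := rfl

theorem recHom_surjective (h : IsRecLayer ρ u) : Function.Surjective h.recHom := by
  intro y
  obtain ⟨x, rfl⟩ := h.recEquiv.surjective y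
  obtain ⟨a, ha, rfl⟩ := tateZeroMk_surjective x
  exact ⟨⟨a, ha⟩, rfl⟩

/-- The kernel of the reciprocity homomorphism is the norm group. -/
theorem recHom_eq_zero_iff (h : IsRecLayer ρ u) (a : ρ.invariants) :
    h.recHom a = 0 ↔ ∃ c : V, ρ.norm c = a.1 := by
  rw [recHom_apply, h.recEquiv.map_eq_zero_iff, tateZeroMk_eq_zero_iff]

theorem recHom_eq_iff (h : IsRecLayer ρ u) (a : ρ.invariants) (g : G) :
    h.recHom a = Additive.ofMul (Abelianization.of g) ↔ ∃ c : V, a.1 = nak u g + ρ.norm c :=
  h.recEquiv_mk_eq_iff a.2 g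

theorem recHom_nak (h : IsRecLayer ρ u) (g : G) :
    h.recHom ⟨nak u g, nak_mem_invariants h.coc g⟩ = Additive.ofMul (Abelianization.of g) :=
  h.recEquiv_nak g

theorem recHom_eq_recHom_iff (h : IsRecLayer ρ u) (a b : ρ.invariants) :
    h.recHom a = h.recHom b ↔ ∃ c : V, ρ.norm c = a.1 - b.1 := by
  rw [← sub_eq_zero, ← map_sub, recHom_eq_zero_iff]
  rfl

/-- The multiplicative form of the reciprocity map, `A^G → G^ab`. -/
noncomputable def recMul (h : IsRecLayer ρ u) (a : ρ.invariants) : Abelianization G :=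
  Additive.toMul (h.recHom a)

theorem recMul_add (h : IsRecLayer ρ u) (a b : ρ.invariants) :
    h.recMul (a + b) = h.recMul a * h.recMul b := by
  unfold recMul
  rw [map_add]
  rfl

theorem recMul_surjective (h : IsRecLayer ρ u) : Function.Surjective h.recMul := by
  intro y
  obtain ⟨a, ha⟩ := h.recHom_surjective (Additive.ofMul y)
  exact ⟨a, by unfold recMul; rw [ha]; rfl⟩

theorem recMul_eq_one_iff (h : IsRecLayer ρ u) (a : ρ.invariants) :
    h.recMul a = 1 ↔ ∃ c : V, ρ.norm c = a.1 := by
  rw [← h.recHom_eq_zero_iff]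
  unfold recMul
  constructor
  · intro h1
    exact Additive.toMul.injective (by rw [h1]; rfl)
  · intro h1
    rw [h1]; rfl

end IsRecLayer

end RecHom

section Transversal

variable {G H : Type*} [Group G] [Group H]

/-- Every injective homomorphism `f : H →* G` admits left-transversal data: a family
`x : G ⧸ f.range → G` such that `(i, h) ↦ x i * f h` is a bijection. -/
theorem exists_transversal (f : H →* G) (hf : Function.Injective f) :
    ∃ (x : G ⧸ f.range → G) (e : (G ⧸ f.range) × H ≃ G), ∀ i h, e (i, h) = x i * f h := by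
  refine ⟨fun c => c.out, Equiv.ofBijective (fun p => p.1.out * f p.2) ⟨?_, ?_⟩, fun _ _ => rfl⟩
  · rintro ⟨c, q⟩ ⟨c', q'⟩ hcq
    simp only at hcq
    have h1 : ((c.out * f q : G) : G ⧸ f.range) = c := by
      rw [QuotientGroup.mk_mul_of_mem _ (MonoidHom.mem_range.2 ⟨q, rfl⟩), QuotientGroup.out_eq']
    have h2 : ((c'.out * f q' : G) : G ⧸ f.range) = c' := by
      rw [QuotientGroup.mk_mul_of_mem _ (MonoidHom.mem_range.2 ⟨q', rfl⟩), QuotientGroup.out_eq']
    have hc : c = c' := by rw [← h1, ← h2, hcq]
    subst hc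
    have : f q = f q' := mul_left_cancel hcq
    rw [hf this]
  · intro g
    have hmem : ((g : G ⧸ f.range).out)⁻¹ * g ∈ f.range :=
      QuotientGroup.eq.1 (QuotientGroup.out_eq' (g : G ⧸ f.range))
    obtain ⟨h, hh⟩ := hmem
    exact ⟨((g : G ⧸ f.range), h), by simp [hh]⟩

end Transversal

section Norm

variable {k G V : Type*} [CommRing k] [Group G] [Fintype G] [AddCommGroup V] {_ : Module k V}
variable {ρ : Representation k G V} {u : G × G → V}
variable {H : Type*} [Group H] [Fintype H] {ι : Type*} [Fintype ι]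
variable (f : H →* G) (x : ι → G) (e : ι × H ≃ G) (he : ∀ i h, e (i, h) = x i * f h)

include he in
/-- `N_G = N_{G/H} ∘ N_H` for a left transversal `x`. -/
theorem norm_eq_sum_transversal (c : V) :
    ρ.norm c = ∑ i, ρ (x i) (Representation.norm (ρ.comp f) c) := by
  rw [norm_apply', ← sum_transversal f x e he (fun y => ρ y c)]
  refine Fintype.sum_congr _ _ fun i => ?_
  rw [norm_apply', map_sum]
  refine Fintype.sum_congr _ _ fun h => ?_
  rw [map_mul]
  rfl

include he in
/-- `N_G = N_H ∘ (∑ i, (x i)⁻¹)` for a left transversal `x`. -/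
theorem norm_eq_norm_sum_transversal_inv (c : V) :
    ρ.norm c = Representation.norm (ρ.comp f) (∑ i, ρ (x i)⁻¹ c) := by
  rw [norm_apply', ← sum_transversal_inv f x e he (fun y => ρ y c), map_sum]
  refine Fintype.sum_congr _ _ fun i => ?_
  rw [norm_apply']
  refine Fintype.sum_congr _ _ fun h => ?_
  rw [map_mul]
  rfl

include he in
/-- The relative norm `N_{G/H} a = ∑ i, x i • a` of an `H`-invariant element is `G`-invariant. -/
theorem sum_transversal_mem_invariants {a : V} (ha : a ∈ Representation.invariants (ρ.comp f)) :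
    ∑ i, ρ (x i) a ∈ ρ.invariants := by
  intro g
  -- `g * x i = x (σ i) * f (d i)`
  have key : ∀ i, ∃ p : ι × H, g * x i = x p.1 * f p.2 := fun i =>
    ⟨e.symm (g * x i), by rw [← he, Equiv.apply_symm_apply]⟩
  choose p hp using key
  have hinj : Function.Injective (fun i => (p i).1) := by
    intro i j hij
    have h1 := hp i
    have h2 := hp j
    simp only at hij
    rw [hij] at h1
    have h3 : x i = x j * f ((p j).2⁻¹ * (p i).2) := by
      have : g * x i = g * x j * f ((p j).2⁻¹ * (p i).2) := by
        rw [h1, h2, map_mul, map_inv]; group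
      rw [mul_assoc] at this
      exact mul_left_cancel this
    have h4 : e (i, 1) = e (j, (p j).2⁻¹ * (p i).2) := by
      rw [he, he, map_one, mul_one, h3]
    exact (Prod.ext_iff.1 (e.injective h4)).1
  have hbij : Function.Bijective (fun i => (p i).1) :=
    (Fintype.bijective_iff_injective_and_card _).2 ⟨hinj, rfl⟩
  rw [map_sum]
  rw [← Fintype.sum_bijective _ hbij (fun i => ρ (x (p i).1) a) (fun j => ρ (x j) a)
    (fun _ => rfl)]
  refine Fintype.sum_congr _ _ fun i => ?_
  rw [← Module.End.mul_apply, ← map_mul, hp i, map_mul, Module.End.mul_apply]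
  congr 1
  exact ha (p i).2

variable {f x e}

include he in
/-- **Norm functoriality of the reciprocity map**: for `a ∈ A^H`,
`rec_G (N_{G/H} a) = (H^ab → G^ab) (rec_H a)`. -/
theorem IsRecLayer.recEquiv_relNorm (h : IsRecLayer ρ u)
    (hH : IsRecLayer (ρ.comp f) (resCoc f u)) {a : V} (ha : a ∈ Representation.invariants (ρ.comp f)) :
    h.recEquiv (tateZeroMk ρ (∑ i, ρ (x i) a) (sum_transversal_mem_invariants f x e he ha)) =
      Additive.ofMul (Abelianization.map f
        (Additive.toMul (hH.recEquiv (tateZeroMk (ρ.comp f) a ha)))) := by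
  obtain ⟨s, c, hsc, hrs⟩ := hH.exists_recEquiv_eq ha
  rw [hrs, toMul_ofMul, Abelianization.map_of, h.recEquiv_mk_eq_iff]
  refine ⟨c, ?_⟩
  rw [hsc]
  simp only [map_add, sum_add_distrib]
  rw [sum_transversal_nak_res f x e he h.coc s, ← norm_eq_sum_transversal f x e he c]

omit [Fintype H] in
theorem sum_tateZeroMk {κ : Type*} (s : Finset κ) (v : κ → V) (hv : ∀ i, v i ∈ ρ.invariants) :
    ∑ i ∈ s, tateZeroMk ρ (v i) (hv i) =
      tateZeroMk ρ (∑ i ∈ s, v i) (Submodule.sum_mem _ fun i _ => hv i) := by
  classical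
  induction s using Finset.induction_on with
  | empty =>
    simp only [Finset.sum_empty]
    exact ((tateZeroMk_eq_zero_iff (ρ := ρ) (Submodule.zero_mem _)).2 ⟨0, map_zero _⟩).symm
  | insert a s ha ih =>
    simp only [Finset.sum_insert ha]
    rw [ih, ← tateZeroMk_add]

omit [Fintype G] [Fintype H] in
theorem mem_invariants_comp (f : H →* G) {a : V} (ha : a ∈ ρ.invariants) :
    a ∈ Representation.invariants (ρ.comp f) := by
  intro h'
  exact ha (f h')

include he in
/-- **Transfer functoriality of the reciprocity map**, abstract form: let `a ∈ A^G` with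
`rec_G a = ḡ`, and let `(x i)⁻¹ * g * x (π i) = f (c i)` for the left transversal `x` (so that
`∏ i, c i` represents the transfer of `g`). Then `rec_H a = ∑ i, [c i]` in `H^ab`. -/
theorem IsRecLayer.recEquiv_res_eq_sum (h : IsRecLayer ρ u)
    (hH : IsRecLayer (ρ.comp f) (resCoc f u)) {a : V} (ha : a ∈ ρ.invariants) (g : G)
    (hg : h.recEquiv (tateZeroMk ρ a ha) = Additive.ofMul (Abelianization.of g))
    (π : Equiv.Perm ι) (c : ι → H) (hc : ∀ i, (x i)⁻¹ * g * x (π i) = f (c i)) :
    hH.recEquiv (tateZeroMk (ρ.comp f) a (mem_invariants_comp f ha)) =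
      ∑ i, Additive.ofMul (Abelianization.of (c i)) := by
  obtain ⟨c₀, hc₀⟩ := (h.recEquiv_mk_eq_iff ha g).1 hg
  rw [← AddEquiv.eq_symm_apply, IsRecLayer.recEquiv_symm_apply, map_sum]
  simp only [nakHom_of]
  rw [sum_tateZeroMk, tateZeroMk_eq_iff]
  refine ⟨∑ i, (u ((x i)⁻¹, g) - u (f (c i), (x (π i))⁻¹)) + ∑ i, ρ (x i)⁻¹ c₀, ?_⟩
  rw [map_add, ← norm_eq_norm_sum_transversal_inv f x e he c₀, hc₀,
    nak_eq_sum_nak_res_add_norm f x e he h.coc g π c hc]
  abel

end Norm

section TransferSubgroup

variable {k G V : Type*} [CommRing k] [Group G] [Fintype G] [AddCommGroup V] {_ : Module k V}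
variable {ρ : Representation k G V} {u : G × G → V}

open Subgroup Subgroup.leftTransversals MulAction in
/-- **Transfer functoriality of the reciprocity map** (Mathlib form): for a subgroup `H ≤ G`,
`rec_H (a) = Ver (rec_G a)` where `Ver : G^ab → H^ab` is induced by Mathlib's
`MonoidHom.transfer`. -/
theorem IsRecLayer.recEquiv_res_eq_transfer (H : Subgroup G) [Fintype H] (h : IsRecLayer ρ u)
    (hH : IsRecLayer (ρ.comp H.subtype) (resCoc H.subtype u)) {a : V} (ha : a ∈ ρ.invariants) :
    hH.recEquiv (tateZeroMk (ρ.comp H.subtype) a (mem_invariants_comp H.subtype ha)) =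
      Additive.ofMul (Abelianization.lift
        (MonoidHom.transfer (Abelianization.of : H →* Abelianization H))
        (Additive.toMul (h.recEquiv (tateZeroMk ρ a ha)))) := by
  classical
  obtain ⟨g, -, -, hg⟩ := h.exists_recEquiv_eq ha
  rw [hg, toMul_ofMul, Abelianization.lift_apply_of]
  let T : H.LeftTransversal := default
  let _ : Fintype (G ⧸ H) := H.fintypeQuotientOfFiniteIndex
  let x : G ⧸ H → G := fun q => (T.2.leftQuotientEquiv q : G)
  let e : (G ⧸ H) × H ≃ G :=
    (Equiv.prodCongr T.2.leftQuotientEquiv (Equiv.refl H)).trans (Equiv.ofBijective _ T.2)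
  have he : ∀ q (h' : H), e (q, h') = x q * H.subtype h' := fun q h' => rfl
  let c : G ⧸ H → H := fun q =>
    ⟨(x q)⁻¹ * ((g • T).2.leftQuotientEquiv q : G),
      QuotientGroup.leftRel_apply.mp <| Quotient.exact'
        ((T.2.leftQuotientEquiv.symm_apply_apply q).trans
          ((g • T).2.leftQuotientEquiv.symm_apply_apply q).symm)⟩
  have hc : ∀ q, (x q)⁻¹ * g * x ((MulAction.toPerm g⁻¹ : Equiv.Perm (G ⧸ H)) q) =
      H.subtype (c q) := by
    intro q
    simp only [c, x, Subgroup.coe_subtype, smul_apply_eq_smul_apply_inv_smul, smul_eq_mul,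
      MulAction.toPerm_apply, mul_assoc]
  rw [IsRecLayer.recEquiv_res_eq_sum (he := he) h hH ha g hg (MulAction.toPerm g⁻¹) c hc,
    MonoidHom.transfer_def _ T g, ← ofMul_prod]
  rfl

end TransferSubgroup

section QuotientSpecialisation

variable {k G V : Type*} [CommRing k] [Group G] [Fintype G] [AddCommGroup V] [Module k V]
variable {ρ : Representation k G V} {u : G × G → V}

omit [Fintype G] in
/-- A `G ⧸ N`-invariant element of `V^N` is `G`-invariant. -/
theorem coe_mem_invariants_of_quotientToInvariants (N : Subgroup G) [N.Normal]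
    {a' : Representation.invariants (ρ.comp N.subtype)}
    (ha' : a' ∈ (ρ.quotientToInvariants N).invariants) : (a' : V) ∈ ρ.invariants :=
  mem_invariants_of_equivariant (ρ := ρ) (ρ' := ρ.quotientToInvariants N)
    (QuotientGroup.mk' N) (Submodule.subtype _).toAddMonoidHom (fun _ _ => rfl) ha'

/-- **F3', the quotient compatibility of the reciprocity maps** specialised to `Q = G ⧸ N` acting
on `V^N`: if `inf u' = |N| • u` in `H²` then `rec_{G/N} [a'] = (rec_G [a']) mod N`. -/
theorem IsRecLayer.recEquiv_quotientToInvariants (N : Subgroup G) [N.Normal] [Fintype (G ⧸ N)]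
    {u' : (G ⧸ N) × (G ⧸ N) → Representation.invariants (ρ.comp N.subtype)}
    (h : IsRecLayer ρ u) (h' : IsRecLayer (ρ.quotientToInvariants N) u') (b : G → V)
    (hinf : infCoc (QuotientGroup.mk' N) (Submodule.subtype _).toAddMonoidHom u' =
      ((Nat.card N : ℤ) : k) • u + dOne ρ b)
    {a' : Representation.invariants (ρ.comp N.subtype)}
    (ha' : a' ∈ (ρ.quotientToInvariants N).invariants) :
    h'.recEquiv (tateZeroMk (ρ.quotientToInvariants N) a' ha') =
      Additive.ofMul (Abelianization.map (QuotientGroup.mk' N) (Additive.toMul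
        (h.recEquiv (tateZeroMk ρ (a' : V)
          (coe_mem_invariants_of_quotientToInvariants N ha'))))) := by
  have hker : Nat.card (QuotientGroup.mk' N).ker = Nat.card N := by
    rw [QuotientGroup.ker_mk']
  exact h.recEquiv_quot h' (QuotientGroup.mk' N) (QuotientGroup.mk'_surjective N)
    (Submodule.subtype _).toAddMonoidHom (fun _ _ => rfl) b (by rw [hker]; exact hinf) ha'

/-- **Norm limitation** for `Q = G ⧸ N` when `N ≤ [G, G]`. -/
theorem IsRecLayer.norm_limitation_quotientToInvariants (N : Subgroup G) [N.Normal]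
    [Fintype (G ⧸ N)]
    {u' : (G ⧸ N) × (G ⧸ N) → Representation.invariants (ρ.comp N.subtype)}
    (h : IsRecLayer ρ u) (h' : IsRecLayer (ρ.quotientToInvariants N) u') (b : G → V)
    (hinf : infCoc (QuotientGroup.mk' N) (Submodule.subtype _).toAddMonoidHom u' =
      ((Nat.card N : ℤ) : k) • u + dOne ρ b)
    (hN : N ≤ commutator G)
    {a' : Representation.invariants (ρ.comp N.subtype)}
    (ha' : a' ∈ (ρ.quotientToInvariants N).invariants) :
    (∃ c' : Representation.invariants (ρ.comp N.subtype),
        (ρ.quotientToInvariants N).norm c' = a') ↔ ∃ c : V, ρ.norm c = (a' : V) := by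
  have hker : Nat.card (QuotientGroup.mk' N).ker = Nat.card N := by
    rw [QuotientGroup.ker_mk']
  exact h.norm_limitation h' (QuotientGroup.mk' N) (QuotientGroup.mk'_surjective N)
    (Submodule.subtype _).toAddMonoidHom (fun _ _ => rfl) b (by rw [hker]; exact hinf)
    (by rw [QuotientGroup.ker_mk']; exact hN) ha'

end QuotientSpecialisation

end Fermat.Agent.Lib.CFT.Coh.ClassFormation
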