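import Mathlib
import Fermat.Agent.Lib.CFT.Coh.ClassFormation.Layer

/-!
# Transport of reciprocity layers along isomorphisms of pairs
(P-CFT, WP Coh/ClassFormation, helper7)

If `φ : G ≃* G'` and `T : V ≃+ V'` satisfy `T (ρ g v) = ρ' (φ g) (T v)`, a reciprocity layer
`(G, ρ, u)` is transported to `(G', ρ', mapCoc φ T u)`, compatibly with the reciprocity
isomorphisms and the invariant maps.  In particular (conjugation) the reciprocity map is
equivariant.
-/

set_option autoImplicit false
set_option linter.unusedSectionVars false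

namespace Fermat.Agent.Lib.CFT.Coh.ClassFormation

open Finset

section

variable {k k' G G' V V' : Type*} [CommRing k] [CommRing k'] [Group G] [Fintype G]
  [Group G'] [Fintype G'] [AddCommGroup V] {_ : Module k V} [AddCommGroup V'] {_ : Module k' V'}
variable {ρ : Representation k G V} {ρ' : Representation k' G' V'}

omit [Fintype G] [Fintype G'] in
theorem mapCoc_symm_mapCoc (φ : G ≃* G') (T : V ≃+ V') (x : G × G → V) :
    mapCoc φ.symm (T.symm : V' →+ V) (mapCoc φ (T : V →+ V') x) = x := by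
  funext ⟨g, h⟩
  simp

omit [Fintype G] [Fintype G'] in
theorem mapCoc_mapCoc_symm (φ : G ≃* G') (T : V ≃+ V') (x' : G' × G' → V') :
    mapCoc φ (T : V →+ V') (mapCoc φ.symm (T.symm : V' →+ V) x') = x' := by
  funext ⟨g, h⟩
  simp

omit [Fintype G] [Fintype G'] in
theorem mapCoc_add (φ : G ≃* G') (T : V →+ V') (x y : G × G → V) :
    mapCoc φ T (x + y) = mapCoc φ T x + mapCoc φ T y := by
  funext p
  simp [mapCoc]

omit [Fintype G] [Fintype G'] in
theorem mapCoc_intCast_smul (φ : G ≃* G') (T : V →+ V') (m : ℤ) (x : G × G → V) :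
    mapCoc φ T ((m : k) • x) = (m : k') • mapCoc φ T x := by
  funext p
  simp only [mapCoc, Pi.smul_apply]
  exact map_intCast_smul T k k' m _

omit [Fintype G] [Fintype G'] in
theorem mapCoc_dOne (φ : G ≃* G') (T : V →+ V') (hT : ∀ g v, T (ρ g v) = ρ' (φ g) (T v))
    (b : G → V) : mapCoc φ T (dOne ρ b) = dOne ρ' (fun g' => T (b (φ.symm g'))) := by
  funext ⟨g, h⟩
  simp only [mapCoc_apply, dOne_apply, map_add, map_sub, hT, map_mul, MulEquiv.apply_symm_apply]

omit [Fintype G] [Fintype G'] in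
theorem symm_equivariant (φ : G ≃* G') (T : V ≃+ V') (hT : ∀ g v, T (ρ g v) = ρ' (φ g) (T v))
    (g' : G') (v' : V') : T.symm (ρ' g' v') = ρ (φ.symm g') (T.symm v') := by
  apply T.injective
  rw [hT]
  simp

theorem map_norm (φ : G ≃* G') (T : V →+ V') (hT : ∀ g v, T (ρ g v) = ρ' (φ g) (T v)) (c : V) :
    T (ρ.norm c) = ρ'.norm (T c) := by
  rw [norm_apply', norm_apply', map_sum]
  simp_rw [hT]
  exact Fintype.sum_equiv φ.toEquiv _ _ fun _ => rfl

/-- Transport of a reciprocity layer along an isomorphism of pairs. -/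
theorem IsRecLayer.map {u : G × G → V} (h : IsRecLayer ρ u) (φ : G ≃* G') (T : V ≃+ V')
    (hT : ∀ g v, T (ρ g v) = ρ' (φ g) (T v)) : IsRecLayer ρ' (mapCoc φ (T : V →+ V') u) where
  coc := h.coc.map φ (T : V →+ V') hT
  nak_surj a' ha' := by
    have ha : T.symm a' ∈ ρ.invariants := fun g => by
      have := symm_equivariant φ T hT (φ g) a'
      rw [ha' (φ g), MulEquiv.symm_apply_apply] at this
      exact this.symm
    obtain ⟨g, c, hgc⟩ := h.nak_surj _ ha
    refine ⟨φ g, T c, ?_⟩
    have := congrArg T hgc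
    rw [AddEquiv.apply_symm_apply, map_add] at this
    have h2 := map_norm φ (T : V →+ V') hT c
    have h3 := nak_mapCoc φ (T : V →+ V') u g
    simp only [AddMonoidHom.coe_coe] at h2 h3
    rw [this, h3, h2]
  nak_inj g' c' hg' := by
    have h1 : nak u (φ.symm g') = ρ.norm (T.symm c') := by
      apply T.injective
      have := nak_mapCoc φ (T : V →+ V') u (φ.symm g')
      rw [MulEquiv.apply_symm_apply] at this
      have h2 := map_norm φ (T : V →+ V') hT (T.symm c')
      simp only [AddMonoidHom.coe_coe, AddEquiv.apply_symm_apply] at this h2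
      rw [← this, hg', h2]
    have h3 := h.nak_inj _ _ h1
    rw [← Abelianization.ker_of, MonoidHom.mem_ker] at h3 ⊢
    have h4 := congrArg (Abelianization.map φ.toMonoidHom) h3
    rw [Abelianization.map_of, map_one] at h4
    simpa using h4
  gen x' hx' := by
    have hx : IsCoc2 ρ (mapCoc φ.symm (T.symm : V' →+ V) x') :=
      hx'.map φ.symm (T.symm : V' →+ V) (fun g' v' => by
        simpa using symm_equivariant φ T hT g' v')
    obtain ⟨m, b, hmb⟩ := h.gen _ hx
    refine ⟨m, fun g' => T (b (φ.symm g')), ?_⟩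
    have := congrArg (mapCoc φ (T : V →+ V')) hmb
    rw [mapCoc_mapCoc_symm, mapCoc_add, mapCoc_intCast_smul (k' := k'),
      mapCoc_dOne φ (T : V →+ V') hT] at this
    exact this
  ord m b' hmb' := by
    have := congrArg (mapCoc φ.symm (T.symm : V' →+ V)) hmb'
    rw [mapCoc_intCast_smul (k' := k), mapCoc_symm_mapCoc,
      mapCoc_dOne φ.symm (T.symm : V' →+ V) (fun g' v' => by
        simpa using symm_equivariant φ T hT g' v')] at this
    have h1 := h.ord m _ this
    rwa [Fintype.card_congr φ.toEquiv] at h1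

theorem map_mem_invariants (φ : G ≃* G') (T : V ≃+ V')
    (hT : ∀ g v, T (ρ g v) = ρ' (φ g) (T v)) {a : V} (ha : a ∈ ρ.invariants) :
    T a ∈ ρ'.invariants := fun g' => by
  have := hT (φ.symm g') a
  rw [ha, MulEquiv.apply_symm_apply] at this
  exact this.symm

/-- **Equivariance of the reciprocity map** under isomorphisms of pairs. -/
theorem IsRecLayer.recEquiv_map {u : G × G → V} (h : IsRecLayer ρ u) (φ : G ≃* G')
    (T : V ≃+ V') (hT : ∀ g v, T (ρ g v) = ρ' (φ g) (T v)) {a : V} (ha : a ∈ ρ.invariants) :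
    (h.map φ T hT).recEquiv (tateZeroMk ρ' (T a) (map_mem_invariants φ T hT ha)) =
      Additive.ofMul (Abelianization.map φ.toMonoidHom
        (Additive.toMul (h.recEquiv (tateZeroMk ρ a ha)))) := by
  obtain ⟨g, c, hgc, hrec⟩ := h.exists_recEquiv_eq ha
  rw [hrec, toMul_ofMul, Abelianization.map_of]
  rw [(h.map φ T hT).recEquiv_mk_eq_iff]
  refine ⟨T c, ?_⟩
  have := congrArg T hgc
  rw [map_add] at this
  have h2 := map_norm φ (T : V →+ V') hT c
  have h3 := nak_mapCoc φ (T : V →+ V') u g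
  simp only [AddMonoidHom.coe_coe] at h2 h3
  rw [this, MulEquiv.toMonoidHom_eq_coe, MonoidHom.coe_coe, h3, h2]

/-- **Invariance of the invariant map** under isomorphisms of pairs. -/
theorem IsRecLayer.inv_map {u : G × G → V} (h : IsRecLayer ρ u) (φ : G ≃* G')
    (T : V ≃+ V') (hT : ∀ g v, T (ρ g v) = ρ' (φ g) (T v)) {x : G × G → V} (hx : IsCoc2 ρ x) :
    (h.map φ T hT).inv (mapCoc φ (T : V →+ V') x) (hx.map φ (T : V →+ V') hT) = h.inv x hx := by
  obtain ⟨m, b, hmb⟩ := h.gen x hx
  rw [h.inv_eq hx m b hmb, (h.map φ T hT).inv_eq _ m (fun g' => T (b (φ.symm g')))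
    (by rw [hmb, mapCoc_add, mapCoc_intCast_smul (k' := k'), mapCoc_dOne φ (T : V →+ V') hT]
        rfl),
    Fintype.card_congr φ.toEquiv]

end

end Fermat.Agent.Lib.CFT.Coh.ClassFormation
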