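/-
Quotient of a class layer by a normal subgroup (P-CFT, WP Coh/ClassFormation/QuotientLayer,
helper41; item (Q1) of helper7's plan).

If `(G, A, u)` is a class layer (`TateThm.IsClassLayer`: `H¹(H, A) = 0` and `H²(H, A)` cyclic of
order `|H|` generated by `res u` for all subgroups `H`), and `N ⊴ G`, then there is a 2-cocycle
`u'` of `G ⧸ N` with values in `A^N` such that `inf u' = |N| • u + ∂b` and `(G ⧸ N, A^N, u')` is
again a class layer.  So class formations can be constructed from a cofinal system of normal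
levels only.

Everything is proved for an *abstract quotient datum* `QuotData A A'` (`π : G ↠ Q`,
`j : A' ≅ A^{ker π} ⊆ A`), which is stable under restriction to subgroups of `Q`
(`QuotData.restrict`); `QuotData.literal A N` is the datum `G → G ⧸ N`, `A^N ⊆ A`.

* `QuotData.infl_injective_two`, `QuotData.exists_infl_eq`, `QuotData.rest_infl`: abstract
  inflation-restriction in degree 2 (from `InfRes.infResExact_two`);
* `map_H2π`: functoriality of `H²` on classes of explicit cocycles;
* `isZero_H1_quot`, `quot_top`: the quotient statements at top level;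
* `isClassLayer_quot`, `exists_quot_cocycle`, `exists_isClassLayer_quot`,
  `exists_isClassLayer_infCoc`, `exists_isClassLayer_quotient`: the quotient layer theorem.
-/
import Mathlib
import Fermat.Agent.Lib.CFT.Coh.InfRes
import Fermat.Agent.Lib.CFT.Coh.TateThm.LowDeg
import Fermat.Agent.Lib.CFT.Coh.TateThm.Main
import Fermat.Agent.Lib.CFT.Coh.ClassFormation.Layer

set_option autoImplicit false

universe u

namespace Fermat.Agent.Lib.CFT.Coh.ClassFormation.QuotientLayer

open CategoryTheory groupCohomology Rep Fermat.Agent.Lib.CFT.Coh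

section AbstractInfRes

variable {k G Q : Type u} [CommRing k] [Group G] [Group Q]

/-- An *abstract quotient datum*: a surjection `π : G → Q` and a `Q`-module `A'` identified
(through `j`) with the invariants of `ker π` in the `G`-module `A`. -/
structure QuotData (A : Rep k G) (A' : Rep k Q) where
  π : G →* Q
  surj : Function.Surjective π
  j : Rep.res π A' ⟶ A
  inj : Function.Injective j.hom
  range : ∀ a : A, (∀ n ∈ π.ker, A.ρ n a = a) → ∃ a' : A', j.hom a' = a

variable {A : Rep k G} {A' : Rep k Q} (D : QuotData A A')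

namespace QuotData

/-- The abstract inflation map `Hⁿ(Q, A') ⟶ Hⁿ(G, A)`. -/
noncomputable abbrev infl (n : ℕ) : groupCohomology A' n ⟶ groupCohomology A n :=
  groupCohomology.map D.π D.j n

/-- The isomorphism `G ⧸ ker π ≃* Q`. -/
noncomputable def quotEquiv : G ⧸ D.π.ker ≃* Q :=
  QuotientGroup.quotientKerEquivOfSurjective D.π D.surj

@[simp] lemma quotEquiv_mk (g : G) : D.quotEquiv (g : G ⧸ D.π.ker) = D.π g := rfl

lemma j_mem_invariants (a' : A') (n : D.π.ker) : A.ρ (n : G) (D.j.hom a') = D.j.hom a' := by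
  have h := Rep.hom_comm_apply D.j (n : G) a'
  rw [← h]
  have : (Rep.res D.π A').ρ (n : G) a' = a' := by
    show A'.ρ (D.π n) a' = a'
    rw [(MonoidHom.mem_ker).1 n.2, map_one]
    rfl
  rw [this]

/-- `A'` is identified with `A^{ker π}`, linearly. -/
noncomputable def toInv : A'.V →ₗ[k] (A.quotientToInvariants D.π.ker).V where
  toFun a' := ⟨D.j.hom a', fun n => D.j_mem_invariants a' n⟩
  map_add' x y := Subtype.ext (map_add _ x y)
  map_smul' c x := Subtype.ext (map_smul D.j.hom.toLinearMap c x)

lemma toInv_coe (a' : A') : ((D.toInv a' : (A.quotientToInvariants D.π.ker).V) : A.V) =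
    D.j.hom a' := rfl

lemma toInv_bijective : Function.Bijective D.toInv := by
  constructor
  · intro x y hxy
    exact D.inj (congrArg Subtype.val hxy)
  · rintro ⟨a, ha⟩
    obtain ⟨a', ha'⟩ := D.range a (fun n hn => ha ⟨n, hn⟩)
    exact ⟨a', Subtype.ext ha'⟩

/-- The linear equivalence `A^{ker π} ≃ A'`. -/
noncomputable def invEquiv : (A.quotientToInvariants D.π.ker).V ≃ₗ[k] A'.V :=
  (LinearEquiv.ofBijective D.toInv D.toInv_bijective).symm

lemma invEquiv_symm_apply (a' : A') : D.invEquiv.symm a' = D.toInv a' := rfl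

lemma toInv_ρ (q : Q) (g : G) (hg : D.π g = q) (a' : A') :
    D.toInv (A'.ρ q a') = (A.quotientToInvariants D.π.ker).ρ (g : G ⧸ D.π.ker) (D.toInv a') := by
  apply Subtype.ext
  show D.j.hom (A'.ρ q a') = A.ρ g (D.j.hom a')
  rw [← hg]
  exact Rep.hom_comm_apply D.j g a'

lemma invEquiv_comm (x : G ⧸ D.π.ker) :
    D.invEquiv.toLinearMap ∘ₗ (A.quotientToInvariants D.π.ker).ρ x =
      A'.ρ (D.quotEquiv x) ∘ₗ D.invEquiv.toLinearMap := by
  induction x using QuotientGroup.induction_on with
  | H g =>
    ext v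
    obtain ⟨a', rfl⟩ := D.toInv_bijective.2 v
    simp only [LinearMap.comp_apply, LinearEquiv.coe_coe]
    rw [← D.toInv_ρ (D.π g) g rfl a']
    have h1 : D.invEquiv (D.toInv a') = a' := by
      rw [← invEquiv_symm_apply, LinearEquiv.apply_symm_apply]
    have h2 : D.invEquiv (D.toInv (A'.ρ (D.π g) a')) = A'.ρ (D.π g) a' := by
      rw [← invEquiv_symm_apply, LinearEquiv.apply_symm_apply]
    rw [h1, h2]
    rfl

/-- Transport isomorphism `Hⁿ(G ⧸ ker π, A^{ker π}) ≅ Hⁿ(Q, A')`. -/
noncomputable def transportIso (n : ℕ) :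
    groupCohomology (A.quotientToInvariants D.π.ker) n ≅ groupCohomology A' n :=
  groupCohomology.mapIso D.quotEquiv D.invEquiv D.invEquiv_comm n

/-- The abstract inflation factors through the literal one. -/
lemma infl_eq (n : ℕ) :
    D.infl n = (D.transportIso n).inv ≫ InfRes.infl A D.π.ker n := by
  rw [transportIso, mapIso_inv, InfRes.infl, ← groupCohomology.map_comp]
  refine groupCohomology.map_congr ?_ ?_ n
  · ext g
    rfl
  · ext a'
    rfl


lemma infl_apply (n : ℕ) (y : groupCohomology A' n) :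
    (D.infl n).hom y = (InfRes.infl A D.π.ker n).hom ((D.transportIso n).inv.hom y) := by
  rw [D.infl_eq n]
  rfl

lemma transportIso_inv_bijective (n : ℕ) : Function.Bijective (D.transportIso n).inv.hom := by
  constructor
  · intro x y hxy
    have := congrArg (D.transportIso n).hom.hom hxy
    simpa using this
  · intro x
    exact ⟨(D.transportIso n).hom.hom x, by simp⟩

/-- Abstract inflation is injective in degree `2` when `H¹(ker π, A) = 0`. -/
theorem infl_injective_two
    (h1 : Limits.IsZero (groupCohomology (Rep.res D.π.ker.subtype A) 1)) :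
    Function.Injective (D.infl 2).hom := by
  intro x y hxy
  rw [D.infl_apply, D.infl_apply] at hxy
  exact (D.transportIso_inv_bijective 2).1 ((InfRes.infResExact_two A D.π.ker h1).1 hxy)

/-- Exactness of abstract inflation-restriction in degree `2`. -/
theorem exists_infl_eq
    (h1 : Limits.IsZero (groupCohomology (Rep.res D.π.ker.subtype A) 1))
    (x : groupCohomology A 2) (hx : (InfRes.rest A D.π.ker 2).hom x = 0) :
    ∃ y, (D.infl 2).hom y = x := by
  obtain ⟨y₀, hy₀⟩ := (InfRes.infResExact_two A D.π.ker h1).2 x hx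
  obtain ⟨y, rfl⟩ := (D.transportIso_inv_bijective 2).2 y₀
  exact ⟨y, by rw [D.infl_apply]; exact hy₀⟩

/-- Restriction to `ker π` kills inflated classes (positive degree). -/
theorem rest_infl (n : ℕ) (y : groupCohomology A' (n + 1)) :
    (InfRes.rest A D.π.ker (n + 1)).hom ((D.infl (n + 1)).hom y) = 0 := by
  rw [D.infl_apply]
  have h := InfRes.infl_comp_rest A D.π.ker n
  have h' := congrArg (fun f => f.hom ((D.transportIso (n + 1)).inv.hom y)) h
  simpa using h'


/-- The additive map underlying `j`. -/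
noncomputable def jAdd : A'.V →+ A.V := D.j.hom.toLinearMap.toAddMonoidHom

@[simp] lemma jAdd_apply (a' : A') : D.jAdd a' = D.j.hom a' := rfl

lemma jAdd_ρ (g : G) (a' : A') : D.jAdd (A'.ρ (D.π g) a') = A.ρ g (D.jAdd a') :=
  Rep.hom_comm_apply D.j g a'

/-- Restriction of an abstract quotient datum to a subgroup of the quotient. -/
noncomputable def restrict (H' : Subgroup Q) :
    QuotData (Rep.res (H'.comap D.π).subtype A) (Rep.res H'.subtype A') where
  π := D.π.subgroupComap H'
  surj := D.π.subgroupComap_surjective_of_surjective H' D.surj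
  j := Rep.ofHom ⟨D.j.hom.toLinearMap, fun h => by
    ext a'
    exact Rep.hom_comm_apply D.j (h : G) a'⟩
  inj := D.inj
  range a ha := D.range a (fun n hn => by
    have hnH : n ∈ H'.comap D.π := by
      rw [Subgroup.mem_comap, MonoidHom.mem_ker.1 hn]
      exact H'.one_mem
    exact ha ⟨n, hnH⟩ (by
      rw [MonoidHom.mem_ker]
      exact Subtype.ext (MonoidHom.mem_ker.1 hn)))

/-- The kernel of the restricted projection is the kernel of the projection. -/
noncomputable def restrictKerEquiv (H' : Subgroup Q) :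
    (D.restrict H').π.ker ≃ D.π.ker where
  toFun k := ⟨((k : H'.comap D.π) : G), by
    have := MonoidHom.mem_ker.1 k.2
    rw [MonoidHom.mem_ker]
    exact congrArg Subtype.val this⟩
  invFun n := ⟨⟨(n : G), by
      rw [Subgroup.mem_comap, MonoidHom.mem_ker.1 n.2]
      exact H'.one_mem⟩, by
    rw [MonoidHom.mem_ker]
    exact Subtype.ext (MonoidHom.mem_ker.1 n.2)⟩
  left_inv k := rfl
  right_inv n := rfl


/-- The literal quotient datum `G → G ⧸ N`, `A^N ⊆ A`. -/
noncomputable def literal (A : Rep k G) (N : Subgroup G) [N.Normal] :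
    QuotData A (A.quotientToInvariants N) where
  π := QuotientGroup.mk' N
  surj := QuotientGroup.mk'_surjective N
  j := Rep.ofHom (A.ρ.quotientToInvariants_lift N)
  inj := Subtype.val_injective
  range a ha := ⟨⟨a, fun n => ha n.1 (by rw [QuotientGroup.ker_mk']; exact n.2)⟩, rfl⟩

@[simp] lemma literal_π (A : Rep k G) (N : Subgroup G) [N.Normal] :
    (literal A N).π = QuotientGroup.mk' N := rfl

@[simp] lemma literal_jAdd_apply (A : Rep k G) (N : Subgroup G) [N.Normal]
    (a : A.quotientToInvariants N) : (literal A N).jAdd a = a.1 := rfl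

end QuotData

end AbstractInfRes

section MapClass

variable {k G₁ G₂ : Type u} [CommRing k] [Group G₁] [Group G₂]

/-- The pulled-back cochain of a 2-cocycle is a 2-cocycle. -/
theorem comap_mem_cocycles₂ {A₂ : Rep k G₂} {A₁ : Rep k G₁} (f : G₁ →* G₂)
    (φ : Rep.res f A₂ ⟶ A₁) (u : cocycles₂ A₂) :
    (fun p : G₁ × G₁ => φ.hom (u.1 (f p.1, f p.2))) ∈ cocycles₂ A₁ := by
  rw [mem_cocycles₂_iff]
  intro g h j
  have h1 := (mem_cocycles₂_iff u.1).1 u.2 (f g) (f h) (f j)
  have h2 := congrArg φ.hom h1
  simp only [map_add, map_mul] at h2 ⊢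
  rw [h2]
  congr 1
  exact Rep.hom_comm_apply φ g _

/-- Functoriality of `H²` on classes of cocycles. -/
theorem map_H2π {A₂ : Rep k G₂} {A₁ : Rep k G₁} (f : G₁ →* G₂)
    (φ : Rep.res f A₂ ⟶ A₁) (u : cocycles₂ A₂) :
    (groupCohomology.map f φ 2).hom (H2π A₂ u) =
      H2π A₁ ⟨fun p : G₁ × G₁ => φ.hom (u.1 (f p.1, f p.2)), comap_mem_cocycles₂ f φ u⟩ := by
  have h := H2π_comp_map_apply (A := A₂) (B := A₁) f φ u
  rw [h]
  congr 1

end MapClass

section Top

variable {G Q : Type} [Group G] [Group Q] {A : Rep.{0} ℤ G} {A' : Rep.{0} ℤ Q}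
  (D : QuotData A A')

include D in
/-- `H¹` of the quotient vanishes if `H¹(G, A)` does (inflation is injective in degree one). -/
theorem isZero_H1_quot (hG1 : Limits.IsZero (groupCohomology A 1)) :
    Limits.IsZero (groupCohomology A' 1) := by
  apply TateThm.isZero_H1_of_forall
  intro y hy
  have y1 : y 1 = 0 := by
    have := hy 1 1
    rw [mul_one, map_one] at this
    simpa using this
  obtain ⟨c, hc⟩ := InfRes.exists_of_isZero_H1 A hG1 (fun g => D.j.hom (y (D.π g))) (by
    intro g h
    simp only [map_mul]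
    rw [hy, map_add]
    congr 1
    exact Rep.hom_comm_apply D.j g _)
  have hc' : ∀ n ∈ D.π.ker, A.ρ n c = c := by
    intro n hn
    have := hc n
    rw [MonoidHom.mem_ker.1 hn, y1, map_zero, sub_eq_zero] at this
    exact this
  obtain ⟨c', rfl⟩ := D.range c hc'
  refine ⟨c', fun q => ?_⟩
  obtain ⟨g, rfl⟩ := D.surj q
  apply D.inj
  rw [map_sub, ← hc g]
  congr 1
  exact Rep.hom_comm_apply D.j g c'

theorem QuotData.card_eq_card_ker_mul_card [Finite G] :
    Nat.card G = Nat.card D.π.ker * Nat.card Q := by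
  rw [← Nat.card_congr D.quotEquiv.toEquiv, mul_comm]
  exact Subgroup.card_eq_card_quotient_mul_card_subgroup D.π.ker

/-- **Quotient of a class layer, top level**: generation and order of the quotient class. -/
theorem quot_top [Finite G] (u : cocycles₂ A) (u' : cocycles₂ A')
    (hGgen : ∀ x : groupCohomology A 2, ∃ m : ℤ, x = m • H2π A u)
    (hGord : ∀ m : ℤ, m • H2π A u = 0 → (Nat.card G : ℤ) ∣ m)
    (hK1 : Limits.IsZero (groupCohomology (Rep.res D.π.ker.subtype A) 1))
    (hKord : ∀ m : ℤ, m • (InfRes.rest A D.π.ker 2).hom (H2π A u) = 0 →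
      (Nat.card D.π.ker : ℤ) ∣ m)
    (hrel : (D.infl 2).hom (H2π A' u') = (Nat.card D.π.ker : ℤ) • H2π A u) :
    (∀ x' : groupCohomology A' 2, ∃ m : ℤ, x' = m • H2π A' u') ∧
      (∀ m : ℤ, m • H2π A' u' = 0 → (Nat.card Q : ℤ) ∣ m) := by
  have hK0 : (Nat.card D.π.ker : ℤ) ≠ 0 := by
    have : Nat.card D.π.ker ≠ 0 := Nat.card_pos.ne'
    exact_mod_cast this
  constructor
  · intro x'
    obtain ⟨m, hm⟩ := hGgen ((D.infl 2).hom x')
    have h0 : m • (InfRes.rest A D.π.ker 2).hom (H2π A u) = 0 := by
      rw [← map_zsmul, ← hm]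
      exact D.rest_infl 1 x'
    obtain ⟨m', rfl⟩ := hKord m h0
    refine ⟨m', D.infl_injective_two hK1 ?_⟩
    rw [hm, map_zsmul, hrel, mul_comm, mul_smul]
  · intro m hm
    have h1 : (m * (Nat.card D.π.ker : ℤ)) • H2π A u = 0 := by
      rw [mul_smul, ← hrel, ← map_zsmul, hm, map_zero]
    have h2 := hGord _ h1
    rw [D.card_eq_card_ker_mul_card] at h2
    push_cast at h2
    rw [mul_comm (Nat.card D.π.ker : ℤ)] at h2
    exact Int.dvd_of_mul_dvd_mul_right hK0 h2

end Top

section Cohomological

open TateThm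

variable {G : Type} [Group G] {A : Type} [AddCommGroup A] {ρ : Representation ℤ G A}
  {u : G × G → A}

/-- Cohomological form of the element-level vanishing of `H¹` along `φ`. -/
theorem isZero_H1_of_at {K : Type} [Group K] [Fintype K] {φ : K →* G}
    (h : IsClassLayerAt ρ u φ) :
    Limits.IsZero (groupCohomology (Rep.res φ (Rep.of ρ)) 1) := by
  apply isZero_H1_of_forall
  intro y hy
  exact h.h1 y hy

/-- Cohomological form of the element-level order statement along `φ`. -/
theorem dvd_of_at {K : Type} [Group K] [Fintype K] {φ : K →* G}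
    (hu : u ∈ cocycles₂ (Rep.of ρ)) (h : IsClassLayerAt ρ u φ) (m : ℤ)
    (hm : m • H2π (Rep.res φ (Rep.of ρ)) ⟨resCocycle u φ, resCocycle_mem hu φ⟩ = 0) :
    (Fintype.card K : ℤ) ∣ m := by
  rw [← map_zsmul, H2π_eq_zero_iff] at hm
  obtain ⟨b, hb⟩ := hm
  apply h.hord m b
  intro x y
  have := congr_fun hb (x, y)
  simp only [d₁₂_hom_apply] at this
  exact this.symm

/-- `|K|` kills `H²(K, M)`. -/
theorem card_nsmul_H2 {K : Type} [Group K] [Fintype K] (M : Rep.{0} ℤ K)
    (x : groupCohomology M 2) : Fintype.card K • x = 0 := by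
  let e : tateCohomology M ((2 : ℕ) : ℤ) ≃ₗ[ℤ] groupCohomology M 2 :=
    ((TateCohomology.isoGroupCohomology 2).app M).toLinearEquiv
  have h := Fermat.Agent.Lib.CFT.Coh.card_nsmul_tateCohomology M ((2 : ℕ) : ℤ) (e.symm x)
  have h2 := congrArg e h
  rwa [map_nsmul, LinearEquiv.apply_symm_apply, map_zero] at h2

end Cohomological

section Main

open TateThm

variable {G Q : Type} [Group G] [Group Q]

/-- Cohomological form of the class-layer axioms along an injective homomorphism, for an
abstract `A : Rep ℤ G`. -/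
theorem cohom_at_injective [Finite G] {A : Rep.{0} ℤ G} {u : G × G → A} (h : IsClassLayer A u)
    {K : Type} [Group K] [Fintype K] (φ : K →* G) (hφ : Function.Injective φ) :
    Limits.IsZero (groupCohomology (Rep.res φ A) 1) ∧
      ∀ m : ℤ, m • H2π (Rep.res φ A) ⟨resCocycle u φ, resCocycle_mem h.cocycle φ⟩ = 0 →
        (Fintype.card K : ℤ) ∣ m := by
  induction A using rep_int_induction with
  | h A ρ =>
    have hat := h.at_injective φ hφ
    exact ⟨isZero_H1_of_at hat, fun m hm => dvd_of_at h.cocycle hat m hm⟩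

variable {A : Rep.{0} ℤ G} {A' : Rep.{0} ℤ Q}

/-- **Quotient of a class layer** (abstract quotient): if `(G, A, u)` is a class layer,
`π : G → Q` is surjective, `A' ≅ A^{ker π}` and `u'` is a 2-cocycle of `Q` in `A'` whose inflation
is `|ker π| • u` up to the coboundary of `b`, then `(Q, A', u')` is a class layer. -/
theorem isClassLayer_quot [Finite G] (D : QuotData A A') {u : G × G → A} (h : IsClassLayer A u)
    {u' : Q × Q → A'} (hu' : u' ∈ cocycles₂ A') (b : G → A)
    (hrel : ∀ g g' : G, D.j.hom (u' (D.π g, D.π g')) =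
      (Nat.card D.π.ker : ℤ) • u (g, g') + (A.ρ g (b g') - b (g * g') + b g)) :
    IsClassLayer A' u' := by
  classical
  have key : ∀ H' : Subgroup Q,
      Limits.IsZero (groupCohomology.H1 (Rep.res H'.subtype A')) ∧
      (∀ x' : groupCohomology.H2 (Rep.res H'.subtype A'), ∃ m : ℤ,
        x' = m • H2π _ ⟨resCocycle u' H'.subtype, resCocycle_mem hu' H'.subtype⟩) ∧
      (∀ m : ℤ, m • H2π (Rep.res H'.subtype A')
        ⟨resCocycle u' H'.subtype, resCocycle_mem hu' H'.subtype⟩ = 0 →
          (Nat.card H' : ℤ) ∣ m) := by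
    intro H'
    let H : Subgroup G := H'.comap D.π
    let D₁ := D.restrict H'
    let _ : Fintype G := Fintype.ofFinite G
    let _ : Fintype D₁.π.ker := Fintype.ofFinite _
    have hcardK : Nat.card D₁.π.ker = Nat.card D.π.ker :=
      Nat.card_congr (D.restrictKerEquiv H')
    let φ : D₁.π.ker →* G := H.subtype.comp D₁.π.ker.subtype
    have hφ : Function.Injective φ :=
      H.subtype_injective.comp D₁.π.ker.subtype_injective
    obtain ⟨hK1, hKord⟩ := cohom_at_injective h φ hφ
    refine ⟨isZero_H1_quot D₁ (h.h1 H), ?_⟩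
    refine quot_top D₁ ⟨resCocycle u H.subtype, resCocycle_mem h.cocycle H.subtype⟩
      ⟨resCocycle u' H'.subtype, resCocycle_mem hu' H'.subtype⟩ (h.h2_gen H) (h.h2_ord H)
      hK1 ?_ ?_
    · intro m hm
      rw [map_H2π] at hm
      have := hKord m hm
      rwa [← Nat.card_eq_fintype_card] at this
    · rw [map_H2π, ← map_zsmul, H2π_eq_iff]
      refine ⟨fun x => b (x : G), ?_⟩
      funext p
      simp only [d₁₂_hom_apply]
      have := hrel (p.1 : G) (p.2 : G)
      rw [hcardK]
      show _ = D.j.hom (u' (D.π p.1, D.π p.2)) - (Nat.card D.π.ker : ℤ) • u ((p.1 : G), (p.2 : G))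
      rw [this]
      simp only [MonoidHom.comp_apply, Subgroup.coe_subtype, Subgroup.coe_mul]
      abel
  exact ⟨hu', fun H' => (key H').1, fun H' => (key H').2.1, fun H' => (key H').2.2⟩

/-- **Existence of the quotient fundamental cocycle**: `|ker π| • [u]` is inflated from `Q`. -/
theorem exists_quot_cocycle [Finite G] (D : QuotData A A') {u : G × G → A}
    (h : IsClassLayer A u) :
    ∃ (u' : Q × Q → A') (b : G → A), u' ∈ cocycles₂ A' ∧
      ∀ g g' : G, D.j.hom (u' (D.π g, D.π g')) =
        (Nat.card D.π.ker : ℤ) • u (g, g') + (A.ρ g (b g') - b (g * g') + b g) := by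
  classical
  let _ : Fintype D.π.ker := Fintype.ofFinite _
  have hK1 := h.h1 D.π.ker
  set x : groupCohomology A 2 := (Nat.card D.π.ker : ℤ) • H2π A ⟨u, h.cocycle⟩ with hx
  have hrest : (InfRes.rest A D.π.ker 2).hom x = 0 := by
    rw [hx, map_zsmul, natCast_zsmul, Nat.card_eq_fintype_card]
    exact card_nsmul_H2 _ _
  obtain ⟨y', hy'⟩ := D.exists_infl_eq hK1 x hrest
  obtain ⟨u', rfl⟩ := (ModuleCat.epi_iff_surjective (H2π A')).1 inferInstance y'
  rw [map_H2π, hx, ← map_zsmul, H2π_eq_iff] at hy'
  obtain ⟨b, hb⟩ := hy'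
  refine ⟨u'.1, b, u'.2, fun g g' => ?_⟩
  have := congr_fun hb (g, g')
  simp only [d₁₂_hom_apply] at this
  have h2 : D.j.hom (u'.1 (D.π g, D.π g')) - (Nat.card D.π.ker : ℤ) • u (g, g') =
      A.ρ g (b g') - b (g * g') + b g := this.symm
  rw [← h2]
  abel

/-- **Quotient of a class layer** (abstract quotient), existence form. -/
theorem exists_isClassLayer_quot [Finite G] (D : QuotData A A') {u : G × G → A}
    (h : IsClassLayer A u) :
    ∃ (u' : Q × Q → A') (b : G → A), IsClassLayer A' u' ∧
      ∀ g g' : G, D.j.hom (u' (D.π g, D.π g')) =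
        (Nat.card D.π.ker : ℤ) • u (g, g') + (A.ρ g (b g') - b (g * g') + b g) := by
  obtain ⟨u', b, hu', hrel⟩ := exists_quot_cocycle D h
  exact ⟨u', b, isClassLayer_quot D h hu' b hrel, hrel⟩

/-- **Quotient of a class layer**, in the shape consumed by `IsRecLayer.recEquiv_quot`,
`IsRecLayer.inv_infCoc` and `Formation.infl`. -/
theorem exists_isClassLayer_infCoc [Fintype G] [Fintype Q] (D : QuotData A A') {u : G × G → A}
    (h : IsClassLayer A u) :
    ∃ (u' : Q × Q → A') (b : G → A), IsClassLayer A' u' ∧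
      infCoc D.π D.jAdd u' = ((Nat.card D.π.ker : ℤ) : ℤ) • u + dOne A.ρ b := by
  obtain ⟨u', b, hu', hrel⟩ := exists_isClassLayer_quot D h
  refine ⟨u', b, hu', ?_⟩
  funext p
  exact hrel p.1 p.2

/-- **Quotient of a class layer by a normal subgroup** `N`: there is a fundamental cocycle `u'` of
`G ⧸ N` with values in `A^N` whose inflation is `|N| • u` up to a coboundary. -/
theorem exists_isClassLayer_quotient [Fintype G] {u : G × G → A} (h : IsClassLayer A u)
    (N : Subgroup G) [N.Normal] [Fintype (G ⧸ N)] :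
    ∃ (u' : (G ⧸ N) × (G ⧸ N) → A.quotientToInvariants N) (b : G → A),
      IsClassLayer (A.quotientToInvariants N) u' ∧
      infCoc (QuotientGroup.mk' N) (QuotData.literal A N).jAdd u' =
        ((Nat.card N : ℤ) : ℤ) • u + dOne A.ρ b := by
  obtain ⟨u', b, hu', hrel⟩ := exists_isClassLayer_infCoc (QuotData.literal A N) h
  refine ⟨u', b, hu', ?_⟩
  rw [QuotData.literal_π] at hrel
  rw [hrel, QuotientGroup.ker_mk']

end Main

end Fermat.Agent.Lib.CFT.Coh.ClassFormation.QuotientLayer
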