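import Mathlib
import Fermat.Agent.Lib.CFT.Coh.ClassFormation.Formation
import Fermat.Agent.Lib.CFT.Coh.ClassFormation.QuotientLayer
import Fermat.Agent.Lib.CFT.Coh.TateThm.Criterion

/-!
# A class formation from a compatible system of invariant maps (P-CFT, helper41)

Let `𝒰` be a level family on `Γ` and `C` a discrete `Γ`-module.  Suppose that for every normal
level `U` we are given an additive map `inv_U : H²(Γ ⧸ U, C^U) →+ ℚ/ℤ` such that

* `inv_U` is injective and takes the value `1 / [Γ : U]`;
* `H¹(H, C^U) = 0` and `|H²(H, C^U)| ∣ |H|` for every subgroup `H ≤ Γ ⧸ U`;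
* the `inv_U` are compatible with the inflation maps between finite levels.

Then (Tate's theorem in the cardinality form of `TateThm/Criterion.lean`) the layers
`(Γ ⧸ U, C^U)` are reciprocity layers with fundamental classes `inv_U⁻¹ (1 / [Γ : U])`, and these
are compatible with inflation: we obtain a `Formation ℤ Γ` (`InvSystem.toFormation`) whose
invariant maps at the finite levels are the given `inv_U` (`InvSystem.toFormation_invLevel`).
-/

set_option autoImplicit false
set_option linter.unusedSectionVars false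
set_option linter.style.haveILetI false

namespace Fermat.Agent.Lib.CFT.Coh.ClassFormation

open Fermat.Agent.Lib.CFT.Profinite CategoryTheory groupCohomology

section Generic

universe u

variable {k G : Type u} [CommRing k] [Group G] (M : Rep.{u} k G) (V W : Subgroup G) [V.Normal]
  [W.Normal] (hWV : W ≤ V)

/-- The relation between the fundamental cocycles of two levels `W ≤ V` required by the field
`infl` of a `Formation` (stated for a general ring so that it elaborates). -/
def InflRel (u : (G ⧸ V) × (G ⧸ V) → M.quotientToInvariants V)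
    (u' : (G ⧸ W) × (G ⧸ W) → M.quotientToInvariants W) : Prop :=
  ∃ b : G ⧸ W → M.quotientToInvariants W,
    infCoc (levelMap V W hWV)
      ((invariantsInclusion M V W hWV).hom.toLinearMap :
        M.quotientToInvariants V →+ M.quotientToInvariants W) u =
    ((Nat.card (levelMap V W hWV).ker : ℤ) : k) • u' + dOne (M.quotientToInvariants W).ρ b

variable {M V W hWV} in
theorem inflRel_of_forall {u : (G ⧸ V) × (G ⧸ V) → M.quotientToInvariants V}
    {u' : (G ⧸ W) × (G ⧸ W) → M.quotientToInvariants W} (b : G ⧸ W → M.quotientToInvariants W)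
    (h : ∀ p : (G ⧸ W) × (G ⧸ W),
      (invariantsInclusion M V W hWV).hom (u (levelMap V W hWV p.1, levelMap V W hWV p.2)) =
        (Nat.card (levelMap V W hWV).ker : ℤ) • u' p + dOne (M.quotientToInvariants W).ρ b p) :
    InflRel M V W hWV u u' := by
  refine ⟨b, ?_⟩
  funext p
  rw [Pi.add_apply, Pi.smul_apply, Int.cast_smul_eq_zsmul]
  exact h p

end Generic

section GenericLayer

universe u

variable {k G : Type u} [CommRing k] [Group G] [Fintype G] {A : Rep.{u} k G} {u : G × G → A}

/-- Every class in `H²` of a reciprocity layer is a multiple of the fundamental class. -/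
theorem IsRecLayer.exists_eq_zsmul_fundClass (h : IsRecLayer A.ρ u) (y : H2 A) :
    ∃ m : ℤ, y = m • h.fundClass := by
  obtain ⟨x, rfl⟩ := H2π_surjective A y
  obtain ⟨m, b, hm⟩ := h.gen x.1 (isCoc2_of_mem_cocycles₂ x.2)
  refine ⟨m, ?_⟩
  rw [IsRecLayer.fundClass, ← map_zsmul, H2π_eq_iff, mem_coboundaries₂_iff]
  refine ⟨b, ?_⟩
  have h1 : ((m • (⟨u, mem_cocycles₂_of_isCoc2 h.coc⟩ : cocycles₂ A) : cocycles₂ A) :
      G × G → A) = (m : k) • u := by
    rw [Int.cast_smul_eq_zsmul]
    rfl
  have hm' : (⇑x : G × G → A) = (m : k) • u + dOne A.ρ b := hm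
  rw [h1, hm']
  abel

/-- An additive map on `H²` of a reciprocity layer with the correct value on the fundamental class
is the invariant map. -/
theorem IsRecLayer.invH2_eq_of_fundClass (h : IsRecLayer A.ρ u) (φ : H2 A →+ AddCircle (1 : ℚ))
    (hφ : φ h.fundClass = (((1 : ℚ) / (Fintype.card G : ℚ) : ℚ) : AddCircle (1 : ℚ))) :
    h.invH2 = φ := by
  ext y
  obtain ⟨m, rfl⟩ := h.exists_eq_zsmul_fundClass y
  rw [map_zsmul, map_zsmul, hφ, h.invH2_fundClass]

end GenericLayer

/-- A compatible system of invariant maps on the finite normal levels of a level family. -/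
structure InvSystem {Γ : Type} [Group Γ] (𝒰 : LevelFamily Γ) (C : Rep.{0} ℤ Γ) where
  /-- the module is discrete -/
  discrete : 𝒰.IsDiscrete C
  /-- the invariant maps at the finite normal levels -/
  inv : ∀ (U : Subgroup Γ) [U.Normal], U ∈ 𝒰.levels →
    (groupCohomology (C.quotientToInvariants U) 2 →+ AddCircle (1 : ℚ))
  inv_injective : ∀ (U : Subgroup Γ) [U.Normal] (hU : U ∈ 𝒰.levels),
    Function.Injective (inv U hU)
  h1 : ∀ (U : Subgroup Γ) [U.Normal] (_ : U ∈ 𝒰.levels) (H : Subgroup (Γ ⧸ U)),
    Limits.IsZero (groupCohomology.H1 (Rep.res H.subtype (C.quotientToInvariants U)))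
  h2 : ∀ (U : Subgroup Γ) [U.Normal] (_ : U ∈ 𝒰.levels) (H : Subgroup (Γ ⧸ U)),
    Nat.card (groupCohomology.H2 (Rep.res H.subtype (C.quotientToInvariants U))) ∣ Nat.card H
  exists_inv : ∀ (U : Subgroup Γ) [U.Normal] (hU : U ∈ 𝒰.levels),
    ∃ x, inv U hU x = (((1 : ℚ) / (U.index : ℚ) : ℚ) : AddCircle (1 : ℚ))
  inv_infl : ∀ (U U' : Subgroup Γ) [U.Normal] [U'.Normal] (hU : U ∈ 𝒰.levels)
    (hU' : U' ∈ 𝒰.levels) (hle : U' ≤ U) (y : groupCohomology (C.quotientToInvariants U) 2),
    inv U' hU' ((inflLevelsH C U U' hle 2).hom y) = inv U hU y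

namespace InvSystem

variable {Γ : Type} [Group Γ] {𝒰 : LevelFamily Γ} {C : Rep.{0} ℤ Γ} (I : InvSystem 𝒰 C)

/-- A cocycle representing the class of invariant `1 / [Γ : U]`. -/
noncomputable def fundCocycle (U : Subgroup Γ) [U.Normal] (hU : U ∈ 𝒰.levels) :
    cocycles₂ (C.quotientToInvariants U) :=
  Classical.choose (H2π_surjective (C.quotientToInvariants U)
    (Classical.choose (I.exists_inv U hU)))

theorem inv_fundCocycle (U : Subgroup Γ) [U.Normal] (hU : U ∈ 𝒰.levels) :
    I.inv U hU (H2π (C.quotientToInvariants U) (I.fundCocycle U hU)) =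
      (((1 : ℚ) / (U.index : ℚ) : ℚ) : AddCircle (1 : ℚ)) := by
  rw [fundCocycle, Classical.choose_spec (H2π_surjective (C.quotientToInvariants U)
    (Classical.choose (I.exists_inv U hU)))]
  exact Classical.choose_spec (I.exists_inv U hU)

theorem isRecLayer_fundCocycle (U : Subgroup Γ) [U.Normal] (hU : U ∈ 𝒰.levels) :
    letI := levelFintype 𝒰 U hU
    IsRecLayer (C.quotientToInvariants U).ρ (I.fundCocycle U hU).1 := by
  letI := levelFintype 𝒰 U hU
  refine TateThm.isRecLayer_of_inv (C.quotientToInvariants U) _ (I.fundCocycle U hU).2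
    (I.h1 U hU) (I.h2 U hU) (I.inv U hU) ?_
  rw [Subtype.coe_eta, inv_fundCocycle, Subgroup.index_eq_card]

/-- The index of the smaller level is the order of the kernel times the index of the larger. -/
theorem index_eq_card_ker_mul (U U' : Subgroup Γ) [U.Normal] [U'.Normal] (hU : U ∈ 𝒰.levels)
    (hU' : U' ∈ 𝒰.levels) (hle : U' ≤ U) :
    U'.index = Nat.card (levelMap U U' hle).ker * U.index := by
  letI := levelFintype 𝒰 U hU
  letI := levelFintype 𝒰 U' hU'
  rw [Subgroup.index_eq_card, Subgroup.index_eq_card, Nat.card_eq_fintype_card (α := Γ ⧸ U'),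
    Nat.card_eq_fintype_card (α := Γ ⧸ U)]
  exact card_eq_card_ker_mul (levelMap U U' hle) (levelMap_surjective U U' hle)

/-- The inflation of the fundamental class of `U` is `[U : U']` times that of `U'`. -/
theorem infl_fundCocycle (U U' : Subgroup Γ) [U.Normal] [U'.Normal] (hU : U ∈ 𝒰.levels)
    (hU' : U' ∈ 𝒰.levels) (hle : U' ≤ U) :
    (inflLevelsH C U U' hle 2).hom (H2π (C.quotientToInvariants U) (I.fundCocycle U hU)) =
      (Nat.card (levelMap U U' hle).ker : ℤ) •
        H2π (C.quotientToInvariants U') (I.fundCocycle U' hU') := by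
  apply I.inv_injective U' hU'
  rw [I.inv_infl U U' hU hU' hle, map_zsmul, inv_fundCocycle, inv_fundCocycle,
    ← QuotientAddGroup.mk_zsmul]
  congr 1
  have hidx := index_eq_card_ker_mul U U' hU hU' hle
  have := 𝒰.finiteIndex U hU
  have hU0 : (U.index : ℚ) ≠ 0 := by exact_mod_cast Subgroup.FiniteIndex.index_ne_zero
  have := 𝒰.finiteIndex U' hU'
  have hU'0 : (U'.index : ℚ) ≠ 0 := by exact_mod_cast Subgroup.FiniteIndex.index_ne_zero
  have hK0 : (Nat.card (levelMap U U' hle).ker : ℚ) ≠ 0 := by
    intro h0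
    apply hU'0
    rw [hidx]
    push_cast
    rw [h0, zero_mul]
  rw [zsmul_eq_mul, hidx]
  push_cast
  field_simp

/-- Cocycle form of `infl_fundCocycle`. -/
theorem inflRel_fundCocycle (U U' : Subgroup Γ) [U.Normal] [U'.Normal] (hU : U ∈ 𝒰.levels)
    (hU' : U' ∈ 𝒰.levels) (hle : U' ≤ U) :
    InflRel C U U' hle (I.fundCocycle U hU).1 (I.fundCocycle U' hU').1 := by
  have h := I.infl_fundCocycle U U' hU hU' hle
  have h' : (groupCohomology.map (levelMap U U' hle) (invariantsInclusion C U U' hle) 2).hom
      (H2π (C.quotientToInvariants U) (I.fundCocycle U hU)) =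
      (Nat.card (levelMap U U' hle).ker : ℤ) •
        H2π (C.quotientToInvariants U') (I.fundCocycle U' hU') := h
  rw [QuotientLayer.map_H2π, ← map_zsmul, ← sub_eq_zero, ← map_sub, H2π_eq_zero_iff,
    mem_coboundaries₂_iff] at h'
  obtain ⟨b, hb⟩ := h'
  refine inflRel_of_forall b fun p => ?_
  have := congrFun hb p
  rw [← this]
  change _ = _ + (_ - (Nat.card (levelMap U U' hle).ker : ℤ) • (I.fundCocycle U' hU').1 p)
  abel

/-- **The class formation defined by a compatible system of invariant maps.** -/
noncomputable def toFormation : Formation ℤ Γ where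
  𝒰 := 𝒰
  C := C
  discrete := I.discrete
  u U _ hU := (I.fundCocycle U hU).1
  isLayer U _ hU := I.isRecLayer_fundCocycle U hU
  infl U U' _ _ hU hU' hle := I.inflRel_fundCocycle U U' hU hU' hle

@[simp] theorem toFormation_𝒰 : I.toFormation.𝒰 = 𝒰 := rfl

@[simp] theorem toFormation_C : I.toFormation.C = C := rfl

theorem toFormation_u (U : Subgroup Γ) [U.Normal] (hU : U ∈ 𝒰.levels) :
    I.toFormation.u U hU = (I.fundCocycle U hU).1 := rfl

/-- The invariant maps of the formation `I.toFormation` at the finite levels are the given ones. -/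
theorem toFormation_invLevel (U : Subgroup Γ) [U.Normal] (hU : U ∈ 𝒰.levels) :
    I.toFormation.invLevel U hU = I.inv U hU := by
  letI := levelFintype 𝒰 U hU
  refine (I.isRecLayer_fundCocycle U hU).invH2_eq_of_fundClass (I.inv U hU) ?_
  have := I.inv_fundCocycle U hU
  rw [Subgroup.index_eq_card, Nat.card_eq_fintype_card] at this
  exact this

theorem toFormation_invLevel_apply (U : Subgroup Γ) [U.Normal] (hU : U ∈ 𝒰.levels)
    (y : groupCohomology (C.quotientToInvariants U) 2) :
    I.toFormation.invLevel U hU y = I.inv U hU y :=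
  congrArg (fun φ : groupCohomology (C.quotientToInvariants U) 2 →+ AddCircle (1 : ℚ) => φ y)
    (I.toFormation_invLevel U hU)

/-- The invariant map of `I.toFormation` on level cohomology restricts to the given invariant
maps on the finite levels. -/
theorem toFormation_inv_inflH (U : Subgroup Γ) [U.Normal] (hU : U ∈ 𝒰.levels)
    (y : groupCohomology (C.quotientToInvariants U) 2) :
    I.toFormation.inv ((𝒰.inflH C U hU 2).hom y) = I.inv U hU y :=
  (I.toFormation.inv_inflH U hU y).trans (I.toFormation_invLevel_apply U hU y)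

end InvSystem

end Fermat.Agent.Lib.CFT.Coh.ClassFormation
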